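import Fermat.Agent.LTG.Targets
import Fermat.Agent.LTG.Setting
import Fermat.Agent.LT.LocPlace

/-!
# Weight one: the input from the automorphic side over `ℚ(√-3)`

`KForm` is the hypothesis of the passage to weight one: a form over `K` whose eigenvalues `lamK`
lift (`lifts`: equal at split places, by the cubic base change otherwise) to eigenvalues `lam` on
`L` given by the trace of the lift of `ρ` off `ZL`.
-/

set_option autoImplicit false
open NumberField
open Fermat.LT (Place)

local notation "Γℚ" => (AlgebraicClosure ℚ ≃ₐ[ℚ] AlgebraicClosure ℚ)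

namespace Fermat.LTG

/-- `lam w = √(N w) · trace` at the places of `L` outside `ZL`. -/
def IsRhoEigenOff (L : Type*) [Field L] [NumberField L] (ρ : Γℚ →* GL (Fin 2) (ZMod 3))
    (ι : L →+* AlgebraicClosure ℚ) (ZL : Set (Place L)) (lam : Place L → ℝ) : Prop :=
  ∀ w : Place L, w ∉ ZL → ∀ A : ValuationSubring (AlgebraicClosure ℚ),
    (∀ x : 𝓞 L, x ∈ w.asIdeal ↔ ι (x : L) ∈ A.nonunits) →
    ∀ σ : Γℚ, (∀ x, σ (ι x) = ι x) → A.IsFrobeniusAt σ (LT.pnorm w) →
      lam w = Real.sqrt (LT.pnorm w) * (LT.liftTr (ρ σ) : ℝ)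

/-- The form over `K` and its relation to `ρ`. -/
structure KForm {K L : Type} [Field K] [NumberField K] [Field L] [NumberField L] [Algebra K L]
    [IsTotallyComplex K] (ρ : Γℚ →* GL (Fin 2) (ZMod 3)) (ι : L →+* AlgebraicClosure ℚ)
    (σ : L ≃ₐ[K] L) (ZL : Set (Place L)) (lam : Place L → ℝ) (S : Lev K) (Z : Set (Place K))
    (lamK : Place K → ℝ) (Φ : Pt K S → ℂ) : Prop where
  /-- `ρ` is surjective with cyclotomic determinant. -/
  gen : GenRho ρ
  /-- `K` and `L` are the fields cut out by `ρ`. -/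
  field : LT.FieldData K L ρ ι
  /-- `σ` generates the cyclic cubic extension `L/K`. -/
  cyc : LT.Cyc3 K L σ
  /-- `K` is quadratic over `ℚ`. -/
  rank : Module.finrank ℚ K = 2
  /-- `K` contains a primitive cube root of unity. -/
  zeta : ∃ ζ : K, IsPrimitiveRoot ζ 3
  /-- The excepted set on `L` is finite. -/
  finiteZL : ZL.Finite
  /-- Off `ZL` the eigenvalues on `L` are those of `ρ`. -/
  eigen : IsRhoEigenOff L ρ ι ZL lam
  /-- The excepted set on `K` is finite. -/
  finiteZ : Z.Finite
  /-- `Φ` is a cusp form with eigenvalues `lamK`. -/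
  form : IsForm S Z lamK Φ
  /-- Off the excepted places the eigenvalues on `L` are the base change of `lamK`. -/
  lifts : ∀ v : Place K, v ∉ S → v ∉ Z → ∀ w : Place L, LT.LiesOver K L w v →
    (LT.pnorm w = LT.pnorm v → lam w = lamK v) ∧
    (LT.pnorm w ≠ LT.pnorm v → lam w = lamK v ^ 3 - 3 * (LT.pnorm v : ℝ) * lamK v)

end Fermat.LTG
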