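import Fermat.Agent.LT3.Auto
import Fermat.Agent.LT3.KData
import Fermat.Agent.LT.Mult.Mean

/-!
# Weight one: classical automorphic functions on `H3` of arbitrary level

Functions indexed by matrices modulo `9E`, invariant under the matrices congruent to `1` modulo
`3E`, whose means over the horospheres vanish.
-/

set_option autoImplicit false
open Matrix MeasureTheory NumberField

namespace Fermat.LTG.W1
open Fermat.LT Fermat.LT3

variable {K : Type*} [Field K] [NumberField K] [IsTotallyComplex K]

/-- Reduction modulo `3E` from the modulus `9E`. -/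
def redD (E : ℕ) : RN E →+* ER (ZMod (3 * E)) := castER (3 * E) (dvd_mul_left (3 * E) 3)

/-- Reduction to `3E` of a class modulo `9E` is the class modulo `3E`. -/
lemma redD_red (E : ℕ) (x : EI) : redD E (red (3 * (3 * E)) x) = red (3 * E) x := castER_red _ _ x

/-- A classical automorphic function of level `3E`. -/
structure Auto (D : KData K) (E : ℕ) [NeZero E] where
  /-- The values `Φ M w` of the function at matrices modulo `9E` and points of `H3`. -/
  Φ : GN (3 * E) → H3 → ℂ
  /-- The function is not identically zero. -/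
  nonzero : ∃ M w, Φ M w ≠ 0
  /-- The family is equivariant for `GL₂` of the Eisenstein integers. -/
  inv : ∀ (γ : GL (Fin 2) EI) (M : GN (3 * E)) (w : H3),
    Φ (gr (3 * (3 * E)) γ * M) (gC γ • w) = Φ M w
  /-- Scalars act trivially. -/
  scal : ∀ (z : (RN E)ˣ) (M : GN (3 * E)) (w : H3), Φ (upG z 0 z * M) w = Φ M w
  /-- The matrices trivial modulo the level act trivially on the right. -/
  level : ∀ k M : GN (3 * E), k.val.map (redD E) = 1 → ∀ w, Φ (M * k) w = Φ M w
  /-- Each member is continuous. -/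
  cont : ∀ M, Continuous (Φ M)
  /-- The family is bounded. -/
  bound : ∃ C, ∀ M w, ‖Φ M w‖ ≤ C
  /-- Each member is an eigenfunction of the invariant integral operators with parameter zero. -/
  arch : ∀ k : ℝ → ℝ, Continuous k → HasCompactSupport k → ∀ M w,
    ∫ u, (k (coshd w u) : ℂ) * Φ M u ∂hmeas = hhat0 k * Φ M w
  /-- The eigenvalue at each prime of `ℤ[ω]`. -/
  lam : EI → ℝ
  /-- The Hecke operator at a prime off the level acts by `lam π`. -/
  hecke : ∀ (π : EI) (hπ : Prime π) (hu : IsUnit (red (3 * (3 * E)) π)) (T : Finset EI),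
    (∀ x : EI, ∃! u, u ∈ T ∧ π ∣ x - u) → ∀ M w,
      (∑ u ∈ T, Φ ((upG hu.unit (red (3 * (3 * E)) u) 1)⁻¹ * M) ((aC π u hπ.ne_zero)⁻¹ • w))
        + Φ ((upG 1 0 hu.unit)⁻¹ * M) ((aInf π hπ.ne_zero)⁻¹ • w) = (lam π : ℂ) * Φ M w
  /-- The constant terms vanish. -/
  cusp : ∀ (M : GN (3 * E)) (t : ℝ), 0 < t → ∀ w₀ : InfinitePlace K,
    Mult.mean (fun v : InfinitePlace K → ℂ => Φ M (H3.mk (v w₀) t)) = 0

/-- Every component is an eigenfunction. -/
lemma Auto.isEig {D : KData K} {E : ℕ} [NeZero E] (A : Auto D E) (M : GN (3 * E)) : IsEig (A.Φ M) :=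
  ⟨A.cont M, A.bound.imp fun _ h => h M, fun k h1 h2 => A.arch k h1 h2 M⟩

end Fermat.LTG.W1
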