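import Fermat.Agent.LTG.W1.Per.Lead

/-!
# Weight one: Bessel's inequality for the coefficients and the logarithmic upper bound

If the first coefficient does not vanish the squares of the normalised eigenvalues satisfy
`∑ a² N^{-σ} ≤ log (1 / (σ - 1)) + O(1)` over every finite family of primes.
-/

set_option autoImplicit false
set_option linter.unusedSectionVars false
open MeasureTheory Filter
open scoped Classical Topology ComplexConjugate

namespace Fermat.LTG.W1
open Fermat.LT Fermat.LT3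

variable {K : Type*} [Field K] [NumberField K] [NumberField.IsTotallyComplex K] {D : KData K}
variable {E : ℕ} [NeZero E]

/-- Conjugation inverts the character. -/
lemma conj_chiC (w : ℂ) : conj (chiC w) = chiC (-w) := by
  rw [chiC, chiC, ← Complex.exp_conj]
  congr 1
  simp [Complex.conj_ofNat]

/-- Squares have nonnegative mean. -/
lemma mC_sq_nonneg (D : KData K) {N : ℕ} (hN : N ≠ 0) {g : ℂ → ℂ} (hg : PerC N g) :
    0 ≤ (mC D fun z => g z * conj (g z)).re := by
  have h2 : PerC N fun z => g z * conj (g z) :=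
    hg.mul ⟨Complex.continuous_conj.comp hg.1, fun z x => congrArg conj (hg.2 z x)⟩
  obtain ⟨hc, M, hM, p⟩ := isPer_of_perC D hN h2
  rw [mC, LT.Mult.mean_eq hM p hc, LT.Mult.meanM]
  simp only [LT.Mult.tlift, Complex.mul_conj, integral_complex_ofReal, Complex.ofReal_re]
  exact integral_nonneg fun q => Complex.normSq_nonneg _

/-- A nontrivial character has zero mean over a horosphere. -/
lemma mC_chi_eq_zero (D : KData K) {ξ : EI} (hξ : ξ ≠ 0) :
    mC D (fun z => chiC (-(fr E ξ * z))) = 0 := by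
  set α := fr E ξ
  have hα : α ≠ 0 := norm_pos_iff.1 (norm_fr_pos hξ)
  have h1 := mC_translate D (three_E_ne_zero (E := E)) (perC_chi E ξ) (1 / 4 / α)
  have e : (fun z => chiC (-(fr E ξ * (z + 1 / 4 / α))))
      = fun z => chiC (-(1 / 4)) * chiC (-(fr E ξ * z)) := funext fun z => by
    rw [mul_add, mul_div_cancel₀ _ hα, neg_add, chiC_add, mul_comm]
  rw [e, mC_const_mul D (three_E_ne_zero (E := E)) (perC_chi E ξ)] at h1
  have hne : chiC (-(1 / 4)) ≠ 1 := fun h => by
    obtain ⟨n, hn⟩ := (chiC_eq_one_iff _).1 h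
    norm_num at hn
    have h2 : ((2 * n : ℤ) : ℝ) = ((-1 : ℤ) : ℝ) := by push_cast; linarith
    have h3 := Int.cast_injective (α := ℝ) h2
    omega
  by_contra hne'
  exact hne ((mul_eq_right₀ hne').1 h1)

/-- The mean of the conjugate is the conjugate of the mean. -/
private lemma mC_conj (D : KData K) {N : ℕ} (hN : N ≠ 0) {g : ℂ → ℂ} (hg : PerC N g) :
    mC D (fun z => conj (g z)) = conj (mC D g) := by
  obtain ⟨hc, M, hM, p⟩ := isPer_of_perC D hN hg
  rw [mC, mC, LT.Mult.mean_eq hM p hc,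
    LT.Mult.mean_eq (g := fun v => conj (g (v D.w0))) hM
      (fun z l => congrArg conj (p z l)) (Complex.continuous_conj.comp hc),
    LT.Mult.meanM, LT.Mult.meanM, ← integral_conj]
  rfl

/-- The characters are orthonormal. -/
private lemma mC_chi_orth (D : KData K) (η η' : EI) :
    mC D (fun z => conj (chiC (-(fr E η' * z))) * chiC (-(fr E η * z))) = if η' = η then
      1 else 0 := by
  simp only [conj_chiC, ← chiC_add, neg_neg]
  have e1 : ∀ z, fr E η' * z + -(fr E η * z) = -(fr E (η - η') * z) := fun z => by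
    simp only [fr, map_sub, sub_div]; ring
  simp only [e1]
  split_ifs with h
  · subst h; simp [fr, mC_const]
  · exact mC_chi_eq_zero D (sub_ne_zero.2 (Ne.symm h))

variable (A : Auto D E)

/-- **Bessel's inequality.** The squares of the coefficients at one height sum to at most the square
of a bound of the function. -/
theorem bessel {C : ℝ} (hC : ∀ M w, ‖A.Φ M w‖ ≤ C) (M : GN (3 * E)) {t : ℝ} (ht : 0 < t)
    (F : Finset EI) : ∑ η ∈ F, ‖Bc A M η t‖ ^ 2 ≤ C ^ 2 := by
  set f : ℂ → ℂ := fun z => A.Φ M (H3.mk z t)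
  set e : EI → ℂ → ℂ := fun η z => chiC (-(fr E η * z))
  set c : EI → ℂ := fun η => Bc A M η t
  have hN := three_E_ne_zero (E := E)
  have hf : PerC (3 * E) f := perC_slice A M ht
  have hconj : ∀ g : ℂ → ℂ, PerC (3 * E) g → PerC (3 * E) fun z => conj (g z) := fun g hg =>
    ⟨Complex.continuous_conj.comp hg.1, fun z x => congrArg conj (hg.2 z x)⟩
  -- the partial series
  set P : ℂ → ℂ := fun z => ∑ η ∈ F, c η * conj (e η z) with hP
  have hPp : PerC (3 * E) P :=
    PerC.sum F fun η _ => (PerC.const _ _).mul (hconj _ (perC_chi E η))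
  have hort : ∀ η η' : EI, mC D (fun z => conj (e η' z) * e η z) = if η' = η then 1 else 0 :=
    fun η η' => mC_chi_orth D η η'
  have hfP : mC D (fun z => f z * conj (P z)) = ((∑ η ∈ F, ‖c η‖ ^ 2 : ℝ) : ℂ) := by
    simp only [hP, map_sum, map_mul, Complex.conj_conj, Finset.mul_sum, mul_left_comm (f _)]
    rw [mC_sum D hN F fun η _ => (PerC.const _ _).mul (hf.mul (perC_chi E η)), Complex.ofReal_sum]
    refine Finset.sum_congr rfl fun η _ => ?_
    rw [mC_const_mul D hN (hf.mul (perC_chi E η)), show mC D (fun z => f z * e η z) = c η from rfl,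
      mul_comm, Complex.mul_conj, Complex.normSq_eq_norm_sq]
  have hPP : mC D (fun z => P z * conj (P z)) = ((∑ η ∈ F, ‖c η‖ ^ 2 : ℝ) : ℂ) := by
    simp only [hP, map_sum, map_mul, Complex.conj_conj, Finset.mul_sum, Finset.sum_mul,
      show ∀ η η' (z : ℂ), c η' * conj (e η' z) * (conj (c η) * e η z)
        = (c η' * conj (c η)) * (conj (e η' z) * e η z) from fun η η' z => by ring]
    rw [mC_sum D hN F fun η _ => PerC.sum F fun η' _ =>
      (PerC.const _ _).mul ((hconj _ (perC_chi E η')).mul (perC_chi E η)), Complex.ofReal_sum]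
    refine Finset.sum_congr rfl fun η hη => ?_
    rw [mC_sum D hN F fun η' _ =>
      (PerC.const _ _).mul ((hconj _ (perC_chi E η')).mul (perC_chi E η))]
    rw [Finset.sum_congr rfl fun η' _ => by
      rw [mC_const_mul D hN ((hconj _ (perC_chi E η')).mul (perC_chi E η)), hort, mul_ite, mul_one,
        mul_zero]]
    rw [Finset.sum_ite_eq' F η, if_pos hη, Complex.mul_conj, Complex.normSq_eq_norm_sq]
  set X : ℝ := ∑ η ∈ F, ‖c η‖ ^ 2
  have hd : PerC (3 * E) fun z => f z - P z :=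
    ⟨hf.1.sub hPp.1, fun z x => by change f _ - P _ = _; rw [hf.2, hPp.2]⟩
  have h0 := mC_sq_nonneg D hN hd
  have hsplit : mC D (fun z => (f z - P z) * conj (f z - P z))
      = mC D (fun z => f z * conj (f z)) - (X : ℂ) := by
    have h1 := hf.mul (hconj _ hf)
    have h2 := hf.mul (hconj _ hPp)
    have h3 := hPp.mul (hconj _ hf)
    have h4 := hPp.mul (hconj _ hPp)
    have e1 : (fun z => (f z - P z) * conj (f z - P z))
        = fun z => ∑ i : Fin 4, ![(1 : ℂ), -1, -1, 1] i *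
          ![fun z => f z * conj (f z), fun z => f z * conj (P z), fun z => P z * conj (f z),
            fun z => P z * conj (P z)] i z := funext fun z => by
      simp [Fin.sum_univ_four]; ring
    have hp4 : ∀ i : Fin 4, PerC (3 * E)
        (![fun z => f z * conj (f z), fun z => f z * conj (P z), fun z => P z * conj (f z),
            fun z => P z * conj (P z)] i) := by
      intro i; fin_cases i <;> assumption
    rw [e1, mC_sum D hN _ fun i _ => (PerC.const _ _).mul (hp4 i),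
      Finset.sum_congr rfl fun i _ => mC_const_mul D hN (hp4 i) _, Fin.sum_univ_four]
    have h3' : mC D (fun z => P z * conj (f z)) = (X : ℂ) := by
      rw [← Complex.conj_ofReal X, ← hfP, ← mC_conj D hN h2]
      exact congrArg (mC D) (funext fun z => by rw [map_mul, Complex.conj_conj, mul_comm])
    simp only [Matrix.cons_val_zero, Matrix.cons_val_one, Matrix.cons_val_two,
      Matrix.cons_val_three, Matrix.head_cons, Matrix.tail_cons, hfP, hPP, h3']
    ring
  rw [hsplit, Complex.sub_re, Complex.ofReal_re] at h0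
  have hb := norm_mC_le D hN (hf.mul (hconj _ hf)) (C := C ^ 2) fun z => by
    rw [norm_mul, Complex.norm_conj, sq]
    exact mul_le_mul (hC _ _) (hC _ _) (norm_nonneg _) ((norm_nonneg _).trans (hC M (H3.mk z t)))
  linarith [Complex.re_le_norm (mC D fun z => f z * conj (f z))]

/-- Bessel at the normalised heights, in a dyadic shell. -/
theorem sum_sq_Bn_le {C : ℝ} (hC : ∀ M w, ‖A.Φ M w‖ ≤ C) (M : GN (3 * E)) (j : ℕ) (F : Finset EI)
    (hF : ∀ η ∈ F, (4 : ℤ) ^ j ≤ QuadraticAlgebra.norm η ∧ QuadraticAlgebra.norm η <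
    (4 : ℤ) ^ (j + 1)) :
    ∑ η ∈ F, ‖Bn A M η‖ ^ 2 ≤ 16 * C ^ 2 := by
  set t : ℝ := ((3 * E : ℕ) : ℝ) / 2 ^ (j + 1)
  have ht : 0 < t := div_pos (Nat.cast_pos.2 (Nat.pos_of_ne_zero three_E_ne_zero)) (by positivity)
  calc ∑ η ∈ F, ‖Bn A M η‖ ^ 2 ≤ ∑ η ∈ F, 16 * ‖Bc A M η t‖ ^ 2 := Finset.sum_le_sum fun η hη => ?_
    _ ≤ 16 * C ^ 2 := by rw [← Finset.mul_sum]; gcongr; exact bessel A hC M ht F
  obtain ⟨h1, h2⟩ := hF η hη
  have hη0 : η ≠ 0 := by
    rintro rfl
    simp at h1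
    exact absurd h1 (not_le.2 (by positivity))
  set u := ‖fr E η‖ * t
  have hu : u = ‖toC η‖ / 2 ^ (j + 1) := by
    simp only [u, t, fr, norm_div, Complex.norm_natCast]
    have : ((3 * E : ℕ) : ℝ) ≠ 0 := Nat.cast_ne_zero.2 three_E_ne_zero
    field_simp
  have hN := norm_toC η
  have h1' : ((2 : ℝ) ^ j) ^ 2 ≤ ‖toC η‖ ^ 2 := by
    rw [hN, ← pow_mul, mul_comm, pow_mul]; norm_num; exact_mod_cast h1
  have h2' : ‖toC η‖ ^ 2 < ((2 : ℝ) ^ (j + 1)) ^ 2 := by
    rw [hN, ← pow_mul, mul_comm (j + 1), pow_mul]; norm_num; exact_mod_cast h2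
  have hu1 : 1 / 2 ≤ u := by
    rw [hu, le_div_iff₀ (by positivity), pow_succ (2 : ℝ)]
    have := (sq_le_sq₀ (by positivity) (norm_nonneg _)).1 h1'
    linarith
  have hu2 : u ≤ 1 := by
    rw [hu, div_le_one₀ (by positivity)]
    exact ((sq_lt_sq₀ (norm_nonneg _) (by positivity)).1 h2').le
  have hr : 1 / 4 ≤ rhoR u := le_trans (by nlinarith) (sq_le_rhoR (by linarith) hu2)
  rw [Bc_rho A M hη0 ht, norm_mul, rho_eq_rhoR, Complex.norm_real,
    Real.norm_of_nonneg (rhoR_nonneg (by linarith)), mul_pow]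
  have h16 : 1 ≤ 16 * rhoR u ^ 2 := by nlinarith
  calc ‖Bn A M η‖ ^ 2 ≤ (16 * rhoR u ^ 2) * ‖Bn A M η‖ ^ 2 :=
        le_mul_of_one_le_left (sq_nonneg _) h16
    _ = _ := by rw [mul_assoc]; rfl

variable [IsPrincipalIdealRing EI] (M : GN (3 * E))

/-- The norm of a nonzero element of `ℤ[ω]` is positive. -/
lemma norm_pos_of_ne_zero {η : EI} (h : η ≠ 0) : 0 < QuadraticAlgebra.norm η := by
  refine lt_of_le_of_ne (norm_nonneg_EI η) fun e => h (toC_injective ?_)
  have h2 := norm_toC η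
  rw [← e, Int.cast_zero] at h2
  rw [map_zero]; exact norm_eq_zero.1 (eq_zero_of_pow_eq_zero h2)

/-- At a product of distinct primes the normalised coefficient is the product of the `λ / N` times
the first coefficient. -/
lemma Vn_prod {ι : Type*} (f : ι → EI) (T : Finset ι) (hp : ∀ i ∈ T, Prime (f i))
    (hu : ∀ i ∈ T, IsUnit (LT3.red (3 * (3 * E)) (f i)))
    (hd : ∀ i ∈ T, ∀ j ∈ T, f i ∣ f j → i = j) :
    Vn A M (∏ i ∈ T, f i)
      = ((∏ i ∈ T, A.lam (f i) / ((QuadraticAlgebra.norm (f i) : ℤ) : ℝ) : ℝ) : ℂ) * Bn A M 1 := by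
  induction T using Finset.induction_on with
  | empty => simp [Vn_one]
  | insert a T ha ih =>
    have hT : ∀ i ∈ T, i ∈ insert a T := fun i hi => Finset.mem_insert_of_mem hi
    have haI := Finset.mem_insert_self a T
    have hη : IsUnit (LT3.red (3 * (3 * E)) (∏ i ∈ T, f i)) := by
      rw [map_prod]; exact IsUnit.prod_iff.2 fun i hi => hu i (hT i hi)
    have hnd : ¬ f a ∣ ∏ i ∈ T, f i := fun h => by
      obtain ⟨i, hi, hdi⟩ := ((hp a haI).dvd_finsetProd_iff f).1 h
      exact ha (hd a haI i (hT i hi) hdi ▸ hi)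
    have h := Vn_hecke A M (hp a haI) (hu a haI) hη
    rw [dif_neg hnd, add_zero] at h
    have hN : ((QuadraticAlgebra.norm (f a) : ℤ) : ℂ) ≠ 0 :=
      Int.cast_ne_zero.2 (norm_pos_of_ne_zero (hp a haI).ne_zero).ne'
    rw [Finset.prod_insert ha, Finset.prod_insert ha, mul_comm]
    refine mul_left_cancel₀ hN ?_
    rw [← h, ih (fun i hi => hp i (hT i hi)) (fun i hi => hu i (hT i hi))
      fun i hi j hj => hd i (hT i hi) j (hT j hj)]
    push_cast
    field_simp

/-- Distinct sets of primes have distinct products. -/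
private lemma injOn_finsetProd {ι : Type*} {P : Finset ι} {f : ι → EI} (hp : ∀ i ∈ P, Prime (f i))
    (hd : ∀ i ∈ P, ∀ j ∈ P, f i ∣ f j → i = j) :
    Set.InjOn (fun T : Finset ι => ∏ i ∈ T, f i) {T | T ⊆ P} := by
  intro T hT T' hT' e
  have key : ∀ U U', U ⊆ P → U' ⊆ P → ∏ i ∈ U, f i = ∏ i ∈ U', f i → U ⊆ U' :=
    fun U U' hU hU' e i hi => by
      obtain ⟨j, hj, hdj⟩ := ((hp i (hU hi)).dvd_finsetProd_iff f).1
        (e ▸ Finset.dvd_prod_of_mem f hi : f i ∣ ∏ i ∈ U', f i)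
      exact hd i (hU hi) j (hU' hj) hdj ▸ hj
  exact (key T T' hT hT' e).antisymm (key T' T hT' hT e.symm)

/-- One term of the product is bounded by the coefficients at the product of its primes. -/
private lemma prod_le_coeff (hβ : Bn A M 1 ≠ 0) {σ : ℝ} (hσ : 1 < σ) {ι : Type*} {T : Finset ι}
    {f : ι → EI} (hp : ∀ i ∈ T, Prime (f i))
    (hu : ∀ i ∈ T, IsUnit (LT3.red (3 * (3 * E)) (f i)))
    (hd : ∀ i ∈ T, ∀ j ∈ T, f i ∣ f j → i = j) :
    ∏ i ∈ T, A.lam (f i) ^ 2 / ((QuadraticAlgebra.norm (f i) : ℤ) : ℝ)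
        * (((QuadraticAlgebra.norm (f i) : ℤ) : ℝ) ^ σ)⁻¹
      ≤ ((4 : ℝ) ^ (-(σ - 1))) ^ Nat.log 4 (QuadraticAlgebra.norm (∏ i ∈ T, f i)).natAbs
          * ((∑ M' : GN (3 * E), ‖Bn A M' (∏ i ∈ T, f i)‖ ^ 2) / ‖Bn A M 1‖ ^ 2) := by
  set N : ι → ℝ := fun i => ((QuadraticAlgebra.norm (f i) : ℤ) : ℝ) with hN
  have hN1 : ∀ i ∈ T, 1 ≤ N i := fun i hi => by
    have := norm_pos_of_ne_zero (hp i hi).ne_zero
    simp only [hN]; exact_mod_cast this
  have hη : IsUnit (LT3.red (3 * (3 * E)) (∏ i ∈ T, f i)) := by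
    rw [map_prod]; exact IsUnit.prod_iff.2 hu
  -- one term of the sum, factorised along `T`, bounds the product of the `λ / N`
  have hle : ‖Vn A M (∏ i ∈ T, f i)‖ ^ 2 ≤ ∑ M' : GN (3 * E), ‖Bn A M' (∏ i ∈ T, f i)‖ ^ 2 := by
    rw [Vn, normC, dif_pos hη]
    exact Finset.single_le_sum (f := fun M' => ‖Bn A M' (∏ i ∈ T, f i)‖ ^ 2)
      (fun M' _ => sq_nonneg _) (Finset.mem_univ _)
  rw [Vn_prod A M f T hp hu hd, norm_mul, Complex.norm_real, mul_pow,
    Real.norm_eq_abs, sq_abs] at hle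
  have hnat : ((QuadraticAlgebra.norm (∏ i ∈ T, f i)).natAbs : ℝ) = ∏ i ∈ T, N i := by
    rw [← Int.cast_natCast, Int.natAbs_of_nonneg (norm_nonneg_EI _)]
    simp only [map_prod, Int.cast_prod, hN]
  -- split off the power `-(σ - 1)` of the norm
  have hsplit : ∏ i ∈ T, A.lam (f i) ^ 2 / N i * (N i ^ σ)⁻¹
      = (∏ i ∈ T, A.lam (f i) / N i) ^ 2 * (∏ i ∈ T, N i) ^ (-(σ - 1)) := by
    rw [← Finset.prod_pow, ← Real.finsetProd_rpow T N (fun i hi => by linarith [hN1 i hi]),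
      ← Finset.prod_mul_distrib]
    refine Finset.prod_congr rfl fun i hi => ?_
    have h0 : 0 < N i := by linarith [hN1 i hi]
    rw [neg_sub, Real.rpow_sub h0, Real.rpow_one]
    field_simp
  -- which is at most the same power of a power of `4` below the norm
  have hpw : (∏ i ∈ T, N i) ^ (-(σ - 1))
      ≤ ((4 : ℝ) ^ (-(σ - 1))) ^ Nat.log 4 (QuadraticAlgebra.norm (∏ i ∈ T, f i)).natAbs := by
    rw [← Real.rpow_natCast ((4 : ℝ) ^ (-(σ - 1))), ← Real.rpow_mul (by norm_num), mul_comm,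
      Real.rpow_mul (by norm_num), Real.rpow_natCast]
    refine Real.rpow_le_rpow_of_nonpos (by positivity) ?_ (by linarith)
    rw [← hnat]
    have h4 := Nat.pow_log_le_self 4
      (Int.natAbs_ne_zero.2 (norm_pos_of_ne_zero (ne_zero_of_unit_red hη)).ne')
    exact_mod_cast h4
  rw [hsplit, mul_comm (_ ^ Nat.log _ _)]
  refine mul_le_mul ?_ hpw (Real.rpow_nonneg (Finset.prod_nonneg fun i hi => by
    linarith [hN1 i hi]) _) (by positivity)
  rw [le_div_iff₀ (by positivity)]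
  simpa [hN] using hle

/-- The squares of the coefficients at the products of primes in one shell sum to at most
`16 C ^ 2` for each class. -/
private lemma sum_shell_le {C : ℝ} (hC : ∀ M w, ‖A.Φ M w‖ ≤ C) {ι : Type*} {P : Finset ι}
    {f : ι → EI} (hp : ∀ i ∈ P, Prime (f i)) (hd : ∀ i ∈ P, ∀ j ∈ P, f i ∣ f j → i = j) (j : ℕ) :
    ∑ T ∈ P.powerset with Nat.log 4 (QuadraticAlgebra.norm (∏ i ∈ T, f i)).natAbs = j,
        ∑ M' : GN (3 * E), ‖Bn A M' (∏ i ∈ T, f i)‖ ^ 2
      ≤ (Fintype.card (GN (3 * E)) : ℝ) * (16 * C ^ 2) := by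
  rw [Finset.sum_comm]
  refine (Finset.sum_le_sum fun M' _ => ?_).trans_eq (by
    rw [Finset.sum_const, nsmul_eq_mul, Finset.card_univ])
  rw [← Finset.sum_image (f := fun x => ‖Bn A M' x‖ ^ 2) (g := fun T : Finset ι => ∏ i ∈ T, f i)
    fun T hT T' hT' => injOn_finsetProd hp hd (Finset.mem_powerset.1 (Finset.mem_filter.1 hT).1)
      (Finset.mem_powerset.1 (Finset.mem_filter.1 hT').1)]
  refine sum_sq_Bn_le A hC M' j _ fun x hx => ?_
  obtain ⟨T, hT, rfl⟩ := Finset.mem_image.1 hx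
  obtain ⟨hTP, hjT⟩ := Finset.mem_filter.1 hT
  have h0 := Int.natAbs_ne_zero.2 (norm_pos_of_ne_zero
    (Finset.prod_ne_zero_iff.2 fun i hi => (hp i (Finset.mem_powerset.1 hTP hi)).ne_zero)).ne'
  have h4 := Nat.pow_log_le_self 4 h0
  have h5 := Nat.lt_pow_succ_log_self (show 1 < 4 by norm_num)
    (QuadraticAlgebra.norm (∏ i ∈ T, f i)).natAbs
  rw [hjT] at h4 h5
  rw [← Int.natAbs_of_nonneg (norm_nonneg_EI (∏ i ∈ T, f i))]
  exact ⟨by exact_mod_cast h4, by exact_mod_cast h5⟩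

/-- The geometric series over the shells is at most `2 / (σ - 1)`. -/
private lemma sum_shell_geom_le {σ : ℝ} (hσ : 1 < σ) (hσ' : σ ≤ 3 / 2) (s : Finset ℕ) :
    ∑ j ∈ s, ((4 : ℝ) ^ (-(σ - 1))) ^ j ≤ 2 / (σ - 1) := by
  set r : ℝ := (4 : ℝ) ^ (-(σ - 1)) with hr
  have hr0 : 0 < r := Real.rpow_pos_of_pos (by norm_num) _
  set x := (σ - 1) * Real.log 4
  have hl1 : 1 ≤ Real.log 4 := by
    rw [Real.le_log_iff_exp_le (by norm_num)]
    linarith [Real.exp_one_lt_d9]
  have hl2 : Real.log 4 ≤ 2 := by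
    rw [Real.log_le_iff_le_exp (by norm_num)]
    have := Real.add_one_le_exp (1 : ℝ)
    rw [show (2 : ℝ) = 1 + 1 by norm_num, Real.exp_add]
    nlinarith
  have hx0 : 0 < x := mul_pos (by linarith) (by linarith)
  have hr1 : r ≤ 1 / (1 + x) := by
    rw [hr, Real.rpow_def_of_pos (by norm_num), mul_neg, Real.exp_neg, one_div,
      mul_comm (Real.log 4)]
    exact inv_anti₀ (by linarith) (by linarith [Real.add_one_le_exp x])
  have hr' : (σ - 1) / 2 ≤ 1 - r := by
    have : x ≤ 1 := by nlinarith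
    have h1 : 1 / (1 + x) ≤ 1 - x / 2 := by
      rw [div_le_iff₀ (by linarith)]; nlinarith
    nlinarith
  have hr2 : r < 1 := by linarith
  refine ((summable_geometric_of_lt_one hr0.le hr2).sum_le_tsum _ fun j _ =>
    pow_nonneg hr0.le j).trans ?_
  rw [tsum_geometric_of_lt_one hr0.le hr2, ← inv_div]
  exact inv_anti₀ (by linarith) hr'

/-- One factor of the product from below, by the bound on the eigenvalue. -/
private lemma exp_term_le {σ : ℝ} (hσ : 1 < σ) {a x : ℝ} (hx : 1 ≤ x)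
    (ha : |a| ≤ 2 * Real.sqrt x) :
    Real.exp (a ^ 2 / x * (x ^ σ)⁻¹ - 16 * (x ^ 2)⁻¹) ≤ 1 + a ^ 2 / x * (x ^ σ)⁻¹ := by
  set y := a ^ 2 / x * (x ^ σ)⁻¹
  have hy : 0 ≤ y := by positivity
  refine le_trans (Real.exp_le_exp.2 ?_) (exp_sub_le (y := y) (by linarith))
  have hb : a ^ 2 / x ≤ 4 := by
    rw [div_le_iff₀ (by linarith)]
    have h2 := pow_le_pow_left₀ (abs_nonneg _) ha 2
    rwa [sq_abs, mul_pow, Real.sq_sqrt (by linarith), show (2 : ℝ) ^ 2 = 4 by norm_num] at h2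
  have hX : (x ^ σ)⁻¹ ≤ x⁻¹ := inv_anti₀ (by linarith) (Real.self_le_rpow_of_one_le hx hσ.le)
  have hsN : y ≤ 4 * x⁻¹ := mul_le_mul hb hX (by positivity) (by norm_num)
  have hsq : y ^ 2 / (1 + y) ≤ y ^ 2 := div_le_self (sq_nonneg _) (by linarith)
  have : y ^ 2 ≤ 16 * (x ^ 2)⁻¹ := by
    rw [← inv_pow]; nlinarith
  linarith

/-- **The logarithmic upper bound.** If the first coefficient is nonzero, the sums of squared
normalised eigenvalues over finite families of primes are at most `- log (σ - 1) + O(1)`, up to a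
convergent term. -/
theorem exists_log_bound (hβ : Bn A M 1 ≠ 0)
    (hbd : ∀ π : EI, Prime π → IsUnit (LT3.red (3 * (3 * E)) π) →
      |A.lam π| ≤ 2 * Real.sqrt ((QuadraticAlgebra.norm π : ℤ) : ℝ)) :
    ∃ B : ℝ, ∀ σ : ℝ, 1 < σ → σ ≤ 3 / 2 → ∀ (ι : Type) (P : Finset ι) (f : ι → EI),
      (∀ i ∈ P, Prime (f i)) → (∀ i ∈ P, IsUnit (LT3.red (3 * (3 * E)) (f i))) →
      (∀ i ∈ P, ∀ j ∈ P, f i ∣ f j → i = j) →
      ∑ i ∈ P, (A.lam (f i) ^ 2 / ((QuadraticAlgebra.norm (f i) : ℤ) : ℝ))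
          * (((QuadraticAlgebra.norm (f i) : ℤ) : ℝ) ^ σ)⁻¹
        ≤ -Real.log (σ - 1) + B + 16 * ∑ i ∈ P,
            ((((QuadraticAlgebra.norm (f i) : ℤ) : ℝ)) ^ 2)⁻¹ := by
  obtain ⟨C, hC⟩ := A.bound
  set β := ‖Bn A M 1‖
  set B0 : ℝ := (Fintype.card (GN (3 * E)) : ℝ) * (16 * C ^ 2) / β ^ 2 + 1
  have hB0 : 0 < B0 := by positivity
  refine ⟨Real.log (2 * B0), fun σ hσ hσ' ι P f hp hu hd => ?_⟩
  set N : ι → ℝ := fun i => ((QuadraticAlgebra.norm (f i) : ℤ) : ℝ) with hN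
  set s : ι → ℝ := fun i => A.lam (f i) ^ 2 / N i * (N i ^ σ)⁻¹
  have hN1 : ∀ i ∈ P, 1 ≤ N i := fun i hi => by
    have := norm_pos_of_ne_zero (hp i hi).ne_zero
    simp only [hN]; exact_mod_cast this
  set J : Finset ι → ℕ := fun T => Nat.log 4 (QuadraticAlgebra.norm (∏ i ∈ T, f i)).natAbs
  set r : ℝ := (4 : ℝ) ^ (-(σ - 1))
  -- square-free products: their sum is bounded by dyadic shells
  have hsum : ∑ T ∈ P.powerset, ∏ i ∈ T, s i ≤ 2 * B0 / (σ - 1) := by
    refine (Finset.sum_le_sum fun T hT => prod_le_coeff A M hβ hσ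
      (fun i hi => hp i (Finset.mem_powerset.1 hT hi)) (fun i hi =>
        hu i (Finset.mem_powerset.1 hT hi))
      fun i hi j hj => hd i (Finset.mem_powerset.1 hT hi) j (Finset.mem_powerset.1 hT hj)).trans ?_
    rw [← Finset.sum_fiberwise_of_maps_to (g := J) (t := P.powerset.image J)
      fun T hT => Finset.mem_image_of_mem J hT]
    have hshell : ∀ j, ∑ T ∈ P.powerset with J T = j,
        r ^ J T * ((∑ M' : GN (3 * E), ‖Bn A M' (∏ i ∈ T, f i)‖ ^ 2) / β ^ 2) ≤ r ^ j * B0 := by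
      intro j
      rw [Finset.sum_congr rfl fun T hT => by rw [(Finset.mem_filter.1 hT).2], ← Finset.mul_sum,
        ← Finset.sum_div]
      refine mul_le_mul_of_nonneg_left (le_trans ?_ (le_add_of_nonneg_right zero_le_one))
        (by positivity)
      gcongr
      exact sum_shell_le A hC hp hd j
    refine (Finset.sum_le_sum fun j _ => hshell j).trans ?_
    rw [← Finset.sum_mul]
    refine (mul_le_mul_of_nonneg_right (sum_shell_geom_le hσ hσ' _) hB0.le).trans_eq ?_
    ring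
  rw [← Finset.prod_one_add] at hsum
  -- take logarithms
  have hexp : Real.exp (∑ i ∈ P, (s i - 16 * ((N i) ^ 2)⁻¹)) ≤ ∏ i ∈ P, (1 + s i) := by
    rw [Real.exp_sum]
    exact Finset.prod_le_prod (fun i _ => (Real.exp_pos _).le) fun i hi =>
      exp_term_le hσ (hN1 i hi) (hbd (f i) (hp i hi) (hu i hi))
  have h := (Real.log_le_log (Real.exp_pos _) (hexp.trans hsum))
  rw [Real.log_exp, Real.log_div (by positivity) (by linarith), Finset.sum_sub_distrib,
    ← Finset.mul_sum] at h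
  linarith

end Fermat.LTG.W1
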