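import Fermat.Agent.LT3.DAct
import Fermat.Agent.LT3.Theta.Jacobi
import Fermat.Agent.LT3.Series.Law

/-!
# Weight one: every periodic theta series is invariant under a principal congruence group

The theta series with a coefficient periodic modulo `N` has weight one under the matrices congruent
to `1` modulo `9N`.
-/

set_option autoImplicit false
open Complex
open scoped Real ComplexConjugate MatrixGroups

namespace Fermat.LTG.W1
open Fermat.LT Fermat.LT3

/-- `γ ≡ 1` modulo `m`. -/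
def InGam (m : ℕ) (γ : SL(2, ℤ)) : Prop :=
  (m : ℤ) ∣ γ 0 0 - 1 ∧ (m : ℤ) ∣ γ 0 1 ∧ (m : ℤ) ∣ γ 1 0 ∧ (m : ℤ) ∣ γ 1 1 - 1

/-- `ℤ[ω]` in coordinates. -/
def bIdx : ℤ × ℤ ≃ ℤ × ℤ where
  toFun p := (-p.2, p.1)
  invFun p := (p.2, -p.1)
  left_inv p := by simp
  right_inv p := by simp

/-- The dual embedding is the embedding of the coordinates divided by `√-3`. -/
lemma demb_eq_div (p : ℤ × ℤ) : demb p = emb (bIdx p) / toC sR := by
  rw [eq_div_iff toC_sR_ne, mul_comm, ← toC_bY, toC_apply]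
  rfl

/-- The square of `|√-3|` is three. -/
lemma normSq_toC_sR : Complex.normSq (toC sR) = 3 := by
  rw [normSq_toC]
  simp [sR, QuadraticAlgebra.norm_def]

/-- The dual series as a series on the lattice. -/
lemma jacd_eq_jac (T U V : ℂ) :
    jacd T U V = jac (T / 3) (toC sR * U) (V / conj (toC sR)) := by
  rw [jacd, jac, ← bIdx.tsum_eq (fun γ => jterm (T / 3) (toC sR * U) (V / conj (toC sR)) (emb γ))]
  refine tsum_congr fun p => ?_
  have hs := toC_sR_ne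
  have hb : emb (bIdx p) = toC sR * demb p := by rw [demb_eq_div, mul_div_cancel₀ _ hs]
  simp only [jterm, jE]
  congr 2
  rw [hb, ← mul_sub, map_mul Complex.normSq, normSq_toC_sR,
    show toC sR * demb p * conj (V / conj (toC sR)) = demb p * conj V by
      rw [map_div₀, Complex.conj_conj]; field_simp,
    show toC sR * U * conj (V / conj (toC sR)) = U * conj V by
      rw [map_div₀, Complex.conj_conj]; field_simp]
  push_cast
  ring

variable {N : ℕ} [NeZero N]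

/-- Scaling a lattice point scales its embedding. -/
lemma emb_zsmul (n : ℤ) (p : ℤ × ℤ) : emb (n • p) = (n : ℂ) * emb p := by
  simp [emb]; ring

/-- The embedding of the coordinates is `√-3` times the dual embedding. -/
lemma emb_bIdx (p : ℤ × ℤ) : emb (bIdx p) = toC sR * demb p := by
  rw [demb_eq_div, mul_div_cancel₀ _ toC_sR_ne]

/-- `√-3` times its conjugate is three. -/
lemma toC_sR_mul_conj : toC sR * conj (toC sR) = 3 := by
  rw [Complex.mul_conj, normSq_toC_sR]; norm_num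

/-- Division by the conjugate of `√-3`. -/
lemma div_conj_toC_sR (y : ℂ) : y / conj (toC sR) = toC sR * y / 3 := by
  have := toC_sR_ne
  rw [← toC_sR_mul_conj]; field_simp

/-- The phase of a coset and the phase produced by its shift differ by an integer. -/
lemma cexp_phase_shift {M : ℕ} [NeZero M] {g00 g01 a b : ℤ} (ha : g00 = 1 + 3 * (M : ℤ) * a)
    (hb : g01 = 3 * (M : ℤ) * b) (p : ℤ × ℤ) {v u' v' : ℂ}
    (hv : v = -(3 * (g01 : ℂ)) * u' + (g00 : ℂ) * v') :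
    cexp (2 * π * I * ((-(demb p * conj v).re : ℝ) / (M : ℂ))) *
      cexp (2 * π * I * (((emb ((3 * a) • bIdx p) * conj (v' / conj (toC sR))).re
        - (toC sR * ((u' - demb p) / (M : ℂ)) * conj (emb (g01 • bIdx p))).re
        - (emb ((3 * a) • bIdx p) * conj (emb (g01 • bIdx p))).re : ℝ) : ℂ))
      = cexp (2 * π * I * ((-(demb p * conj v').re : ℝ) / (M : ℂ))) := by
  have hs := toC_sR_ne
  have hcs : conj (toC sR) ≠ 0 := by simpa using hs
  have h3 := toC_sR_mul_conj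
  set A := demb p
  have hsA : emb (bIdx p) = toC sR * A := emb_bIdx p
  set μ : ℤ × ℤ := (3 * a) • bIdx p
  set ν : ℤ × ℤ := g01 • bIdx p
  set P : ℝ := (emb μ * conj (v' / conj (toC sR))).re
    - (toC sR * ((u' - A) / (M : ℂ)) * conj (emb ν)).re - (emb μ * conj (emb ν)).re
  -- the two phases differ by an integer
  have hk : (-(A * conj v).re : ℝ) / (M : ℝ) + P
      = (-(A * conj v').re : ℝ) / (M : ℝ) + ((qd p.1 p.2 * (3 * b) * (2 - g00) : ℤ) : ℝ) := by
    have hMR : (M : ℝ) ≠ 0 := Nat.cast_ne_zero.2 (NeZero.ne M)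
    -- the three terms of `P` in terms of `A`, as `emb (bIdx p) = toC sR * A`
    have n1 : emb μ * conj (v' / conj (toC sR)) = ((3 * a : ℤ) : ℝ) * (A * conj v') := by
      rw [emb_zsmul, hsA, map_div₀, Complex.conj_conj]; push_cast; field_simp
    have n2 : toC sR * ((u' - A) / (M : ℂ)) * conj (emb ν)
        = ((3 * (g01 : ℝ) / (M : ℝ) : ℝ) : ℂ) * ((u' - A) * conj A) := by
      rw [emb_zsmul, hsA, map_mul, map_mul, map_intCast]
      push_cast
      rw [show toC sR * ((u' - A) / (M : ℂ)) * ((g01 : ℂ) * (conj (toC sR) * conj A))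
        = (toC sR * conj (toC sR)) * ((g01 : ℂ) / (M : ℂ)) * ((u' - A) * conj A) by
        field_simp, h3]
      ring
    have n3 : emb μ * conj (emb ν)
        = (((3 * a : ℤ) : ℝ) * (g01 : ℝ) * ((qd p.1 p.2 : ℤ) : ℝ) : ℝ) := by
      rw [emb_zsmul, emb_zsmul, hsA, map_mul, map_mul, map_intCast,
        show ((3 * a : ℤ) : ℂ) * (toC sR * A) * ((g01 : ℂ) * (conj (toC sR) * conj A))
          = ((3 * a : ℤ) : ℂ) * (g01 : ℂ) * ((toC sR * conj (toC sR)) * (A * conj A)) by ring,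
        h3, Complex.mul_conj, ← normSq_demb]
      push_cast
      ring
    simp only [P, n1, n2, n3, Complex.re_ofReal_mul, Complex.ofReal_re]
    -- substitute `g00`, `g01` and `v`
    have hb' : (g01 : ℝ) = 3 * (M : ℝ) * b := by exact_mod_cast congrArg (fun n : ℤ => (n : ℝ)) hb
    have ha'' : (g00 : ℝ) = 1 + 3 * (M : ℝ) * a := by
      exact_mod_cast congrArg (fun n : ℤ => (n : ℝ)) ha
    push_cast
    rw [← normSq_demb]
    have hvr : (A * conj v).re = -(3 * (g01 : ℝ)) * (A * conj u').re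
        + (g00 : ℝ) * (A * conj v').re := by
      rw [hv]; simp [Complex.mul_re]; ring
    rw [hvr, sub_mul, Complex.sub_re, Complex.mul_conj, Complex.ofReal_re,
      show (u' * conj A).re = (A * conj u').re by simp [Complex.mul_re]; ring, hb', ha'']
    field_simp
    ring
  rw [← Complex.exp_add, ← mul_add]
  rw [show ((-(A * conj v).re : ℝ) : ℂ) / (M : ℂ) + (P : ℂ)
      = ((-(A * conj v').re : ℝ) : ℂ) / (M : ℂ)
        + ((qd p.1 p.2 * (3 * b) * (2 - g00) : ℤ) : ℂ) by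
        exact_mod_cast congrArg ((↑) : ℝ → ℂ) hk,
    cexp_two_pi_int]

/-- **The binary series.** Under a matrix in `InGam (3 M)` the binary series transforms with the
factor `c τ + d`, its two arguments moved linearly. -/
theorem bind_law {M : ℕ} [NeZero M] (ψ : CP M → ℂ) {γ : SL(2, ℤ)} (hγ : InGam (3 * M) γ) {τ : ℂ}
    (hτ : 0 < τ.im) (u v : ℂ) :
    bind ψ (3 * (((γ 0 0 : ℂ) * τ + γ 0 1) / ((γ 1 0 : ℂ) * τ + γ 1 1))) u v
      = ((γ 1 0 : ℂ) * τ + γ 1 1) * bind ψ (3 * τ) ((γ 0 0 : ℂ) * u + (γ 1 0 : ℂ) * v / 3)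
          (3 * (γ 0 1 : ℂ) * u + (γ 1 1 : ℂ) * v) := by
  obtain ⟨⟨a, ha⟩, ⟨b, hb⟩, ⟨c, hc⟩, -⟩ := hγ
  push_cast at ha hb hc
  have hM0 : (M : ℂ) ≠ 0 := Nat.cast_ne_zero.2 (NeZero.ne M)
  let δ : SL(2, ℤ) := ⟨!![γ 0 0, (M : ℤ) * γ 0 1; 3 * c, γ 1 1], by
    have := γ.det_coe
    rw [Matrix.det_fin_two, hc] at this
    rw [Matrix.det_fin_two_of]; linear_combination this⟩
  have hδ : JLaw δ := jlaw_of_mem
    (by
      change ((γ 0 0 : ℤ) : ZMod 3) = 1
      rw [show γ 0 0 = 1 + 3 * ((M : ℤ) * a) by linarith]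
      push_cast
      rw [show (3 : ZMod 3) = 0 from rfl, zero_mul, add_zero])
    (by
      change (((3 * c : ℤ)) : ZMod 3) = 0
      push_cast
      rw [show (3 : ZMod 3) = 0 from rfl, zero_mul])
  set σ := ((γ 0 0 : ℂ) * τ + γ 0 1) / ((γ 1 0 : ℂ) * τ + γ 1 1) with hσd
  have hσ : 0 < σ.im := im_mob γ hτ
  have h3σ : 0 < (3 * σ).im := by simp; exact hσ
  have h3τ : 0 < (3 * τ).im := by simp; exact hτ
  have hMτ : 0 < ((M : ℂ) * τ).im := by
    simp; exact mul_pos (Nat.cast_pos.2 (NeZero.pos M)) hτ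
  rw [bind_eq_sum ψ h3σ, bind_eq_sum ψ h3τ, Finset.mul_sum]
  refine Finset.sum_congr rfl fun x _ => ?_
  set A := demb (liftv x)
  set u' := (γ 0 0 : ℂ) * u + (γ 1 0 : ℂ) * v / 3 with hu'
  set v' := 3 * (γ 0 1 : ℂ) * u + (γ 1 1 : ℂ) * v with hv'
  have hdet : (γ 0 0 : ℂ) * γ 1 1 - (γ 0 1 : ℂ) * γ 1 0 = 1 := by
    have := γ.det_coe
    rw [Matrix.det_fin_two] at this
    exact_mod_cast this
  have hv : v = -(3 * (γ 0 1 : ℂ)) * u' + (γ 0 0 : ℂ) * v' := by
    rw [hu', hv']; linear_combination (-v) * hdet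
  have hs := toC_sR_ne
  have hcs : conj (toC sR) ≠ 0 := by simpa using hs
  -- the law of `δ`
  have hj := (hδ ((M : ℂ) * τ) (toC sR * ((u - A) / (M : ℂ))) (v / conj (toC sR)) hMτ).2
  have e00 : (δ 0 0 : ℤ) = γ 0 0 := rfl
  have e01 : (δ 0 1 : ℤ) = (M : ℤ) * γ 0 1 := rfl
  have e10 : (δ 1 0 : ℤ) = 3 * c := rfl
  have e11 : (δ 1 1 : ℤ) = γ 1 1 := rfl
  rw [e00, e01, e10, e11] at hj
  have hc' : (γ 1 0 : ℂ) = 3 * (M : ℂ) * c := by exact_mod_cast congrArg (fun n : ℤ => (n : ℂ)) hc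
  have hden : ((3 * c : ℤ) : ℂ) * ((M : ℂ) * τ) + (γ 1 1 : ℂ) = (γ 1 0 : ℂ) * τ + γ 1 1 := by
    rw [hc']; push_cast; ring
  have hmob : (((γ 0 0 : ℤ) : ℂ) * ((M : ℂ) * τ) + (((M : ℤ) * γ 0 1 : ℤ) : ℂ))
      / ((γ 1 0 : ℂ) * τ + γ 1 1) = (M : ℂ) * (3 * σ) / 3 := by
    rw [hσd]; push_cast; field_simp
  rw [hden, hmob] at hj
  -- the shifts
  set μ : ℤ × ℤ := (3 * a) • bIdx (liftv x)
  set ν : ℤ × ℤ := γ 0 1 • bIdx (liftv x)
  have hsA : emb (bIdx (liftv x)) = toC sR * A := emb_bIdx _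
  have ha' : (γ 0 0 : ℂ) = 1 + 3 * (M : ℂ) * a := by
    have h' : γ 0 0 = 1 + 3 * (M : ℤ) * a := by linarith
    exact_mod_cast congrArg (fun n : ℤ => (n : ℂ)) h'
  have eU : (γ 0 0 : ℂ) * (toC sR * ((u - A) / (M : ℂ))) + ((3 * c : ℤ) : ℂ) * (v / conj (toC sR))
      = toC sR * ((u' - A) / (M : ℂ)) - emb μ := by
    rw [emb_zsmul, hsA, hu', hc', div_conj_toC_sR, ha']
    push_cast
    field_simp
    ring
  have eV : (((M : ℤ) * γ 0 1 : ℤ) : ℂ) * (toC sR * ((u - A) / (M : ℂ)))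
      + (γ 1 1 : ℂ) * (v / conj (toC sR)) = v' / conj (toC sR) - emb ν := by
    rw [emb_zsmul, hsA, hv', div_conj_toC_sR, div_conj_toC_sR]
    push_cast
    field_simp
    ring
  rw [eU, eV, jac_shift] at hj
  rw [jacd_eq_jac, jacd_eq_jac, hj, show (M : ℂ) * (3 * τ) / 3 = (M : ℂ) * τ by ring]
  -- the phases
  rw [← cexp_phase_shift (g00 := γ 0 0) (g01 := γ 0 1) (a := a) (b := b) (by linarith) (by linarith)
    (liftv x) hv]
  ring

/-- The change of the indices. -/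
def rowG (γ : SL(2, ℤ)) : ℤ × ℤ ≃ ℤ × ℤ where
  toFun v := (γ 1 1 * v.1 + γ 0 1 * v.2, γ 1 0 * v.1 + γ 0 0 * v.2)
  invFun v := (γ 0 0 * v.1 - γ 0 1 * v.2, -γ 1 0 * v.1 + γ 1 1 * v.2)
  left_inv v := by
    have h := γ.det_coe
    rw [Matrix.det_fin_two] at h
    refine Prod.ext ?_ ?_
    · simp only; linear_combination v.1 * h
    · simp only; linear_combination v.2 * h
  right_inv v := by
    have h := γ.det_coe
    rw [Matrix.det_fin_two] at h
    refine Prod.ext ?_ ?_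
    · simp only; linear_combination v.1 * h
    · simp only; linear_combination v.2 * h

/-- **Weight one.** The lattice series of a periodic `Ψ` has weight one under `InGam (9 N)`. -/
theorem lat_law {Ψ : Lz → ℂ} (hΨ : LT3.Per N Ψ) {γ : SL(2, ℤ)} (hγ : InGam (3 * (3 * N)) γ)
    {τ : ℂ} (hτ : 0 < τ.im) (w : H3) :
    lat N Ψ (((γ 0 0 : ℂ) * τ + γ 0 1) / ((γ 1 0 : ℂ) * τ + γ 1 1)) w
      = ((γ 1 0 : ℂ) * τ + γ 1 1) * lat N Ψ τ w := by
  obtain ⟨z, t, ht, rfl⟩ : ∃ z t, 0 < t ∧ H3.mk z t = w :=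
    ⟨_, _, H3.coord_pos w, H3.mk_coord w⟩
  set σ := ((γ 0 0 : ℂ) * τ + γ 0 1) / ((γ 1 0 : ℂ) * τ + γ 1 1) with hσdef
  -- both sides are lattice sums; reindex by the action of `γ` on rows
  rw [lat_eq_mix hΨ (im_mob γ hτ) z ht, lat_eq_mix hΨ hτ z ht,
    ← (rowG γ).tsum_eq (fun v => ((gd N τ t v : ℝ) : ℂ) *
      bind (psiK N Ψ v.1 v.2) (3 * τ) ((v.2 : ℂ) * z) (3 * ((v.1 : ℂ) * z))),
    ← mul_assoc, mul_comm ((γ 1 0 : ℂ) * τ + γ 1 1), mul_assoc]
  congr 1
  rw [← tsum_mul_left]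
  refine tsum_congr fun v => ?_
  have hd := denom_ne γ hτ
  -- the Gaussian weight moves with the row
  have hg : gd N σ t v = gd N τ t (rowG γ v) := by
    rw [gd, gd]
    congr 2
    have him : σ.im = τ.im / Complex.normSq ((γ 1 0 : ℂ) * τ + γ 1 1) := im_mob_eq γ τ
    have hnum : (v.1 : ℂ) + (v.2 : ℂ) * σ
        = (((rowG γ v).1 : ℂ) + ((rowG γ v).2 : ℂ) * τ) / ((γ 1 0 : ℂ) * τ + γ 1 1) := by
      rw [eq_div_iff hd, hσdef, add_mul, mul_assoc, div_mul_cancel₀ _ hd]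
      simp [rowG]
      ring
    have := (Complex.normSq_pos.2 hd).ne'
    rw [hnum, Complex.normSq_div, him]
    generalize Complex.normSq ((γ 1 0 : ℂ) * τ + γ 1 1) = P at this ⊢
    generalize Complex.normSq (((rowG γ v).1 : ℂ) + ((rowG γ v).2 : ℂ) * τ) = Q
    field_simp
  -- the kernel only depends on the row modulo `N`
  have hpsi : psiK N Ψ v.1 v.2 = psiK N Ψ (rowG γ v).1 (rowG γ v).2 := by
    obtain ⟨⟨a, ha⟩, ⟨b, hb⟩, ⟨c, hc⟩, ⟨d, hd'⟩⟩ := hγ
    push_cast at ha hb hc hd'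
    have e1 : ((rowG γ v).1 : ZMod N) = (v.1 : ZMod N) := by
      have h' : γ 1 1 = 1 + 9 * (N : ℤ) * d := by linarith
      simp [rowG, h', hb]
    have e2 : ((rowG γ v).2 : ZMod N) = (v.2 : ZMod N) := by
      have h' : γ 0 0 = 1 + 9 * (N : ℤ) * a := by linarith
      simp [rowG, h', hc]
    funext x
    simp only [psiK, hatA, e1]
    exact Finset.sum_congr rfl fun i _ => by rw [hΨ.eq_of_red (Y := ((i.val : ℤ), liftv x,
      (rowG γ v).2)) (by simp [red4, e2])]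
  -- and `bind` carries the automorphy factor
  rw [hg, bind_law _ hγ hτ, hpsi, mul_left_comm]
  congr 3
  · simp [rowG]; ring
  · simp [rowG]; ring

end Fermat.LTG.W1
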