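import Fermat.Agent.LTG.W1.Input
import Fermat.Agent.LTG.W1.Auto
import Fermat.Agent.LTG.Space
import Fermat.Agent.LT3.BridgeOps
import Fermat.Agent.LT3.Per.HeckeV
import Fermat.Agent.LT3.DAct

/-!
# Weight one: adelic points from matrices modulo `9E`

`ptT g o` is the point with component `g` at the places over `3E` and those of `o` elsewhere; the
components come from integral lifts `liftK` of classes modulo `9E` and from the matrices `aD`, that
is `[[d, 3E b], [0, 1]]`.
-/

set_option autoImplicit false
set_option linter.unusedSectionVars false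
open Matrix
open scoped Classical

namespace Fermat.LTG.W1
open Fermat.LT Fermat.LT3

variable {K : Type*} [Field K] [NumberField K]

section Local

variable (v : Valuation K (WithZero (Multiplicative ℤ)))

omit [NumberField K] in
/-- An element close to one has valuation one. -/
lemma v_eq_one_of_sub {x : K} (h : v (x - 1) < 1) : v x = 1 := by
  rw [show x = (x - 1) + 1 by ring, Valuation.map_add_eq_of_lt_right v (by rwa [map_one]), map_one]

omit [NumberField K] in
/-- A positive power of the prime is less than one. -/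
lemma exp_neg_lt_one {n : ℕ} (hn : 1 ≤ n) :
    WithZero.exp (-(n : ℤ)) < (1 : WithZero (Multiplicative ℤ)) := by
  rw [← WithZero.exp_zero, WithZero.exp_lt_exp]; omega

/-- Congruent integral matrices differ by a deep one. -/
lemma inv_mul_mem_congN {n : ℕ} {g g' : GL (Fin 2) K} (hg : g ∈ intGL v) (hg' : g' ∈ intGL v)
    (h : ∀ i j, v (g'.val i j - g.val i j) ≤ WithZero.exp (-(n : ℤ))) : g⁻¹ * g' ∈ congN v n := by
  refine ⟨(intGL v).mul_mem ((intGL v).inv_mem hg) hg', fun i j => ?_⟩
  have e : (g⁻¹ * g').val i j - (1 : Matrix (Fin 2) (Fin 2) K) i j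
      = ∑ k, (g⁻¹).val i k * (g'.val k j - g.val k j) := by
    have h1 : ∑ k, (g⁻¹).val i k * g.val k j = (1 : Matrix (Fin 2) (Fin 2) K) i j := by
      rw [← Matrix.mul_apply, ← Units.val_mul, inv_mul_cancel]; simp
    simp only [mul_sub, Finset.sum_sub_distrib, h1, Units.val_mul, Matrix.mul_apply]
  rw [e]
  refine v.map_sum_le fun k _ => ?_
  rw [map_mul]
  exact (mul_le_of_le_one_left' (v_entry_le_one v ((intGL v).inv_mem hg) i k)).trans (h k j)

end Local

variable (D : KData K) (E : ℕ) [NeZero E]

/-- The places over `3E`. -/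
def InT (v : Place K) : Prop := D.e ((3 * E : ℕ) : EI) ∈ v.asIdeal

/-- The exponent of `3E`. -/
noncomputable def nT (v : Place K) : ℕ :=
  (-(WithZero.log (v.valuation K (D.ι ((3 * E : ℕ) : EI))))).toNat

omit [NeZero E] in
/-- The embedding kills only zero. -/
lemma iota_ne_zero {x : EI} (h : x ≠ 0) : D.ι x ≠ 0 :=
  fun e => h (D.ι_injective (e.trans (map_zero D.ι).symm))

/-- `3E` is not zero in `ℤ[ω]`. -/
lemma natN_ne_zero : ((3 * E : ℕ) : EI) ≠ 0 := Nat.cast_ne_zero.2 three_E_ne_zero

/-- The valuation of `3E` is given by its exponent. -/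
lemma val_N (v : Place K) :
    v.valuation K (D.ι ((3 * E : ℕ) : EI)) = WithZero.exp (-(nT D E v : ℤ)) := by
  have h0 : v.valuation K (D.ι ((3 * E : ℕ) : EI)) ≠ 0 :=
    (v.valuation K).ne_zero_iff.2 (iota_ne_zero D (natN_ne_zero E))
  have hle := D.valuation_le_one v ((3 * E : ℕ) : EI)
  rw [← WithZero.exp_log h0, ← WithZero.exp_zero, WithZero.exp_le_exp] at hle
  conv_lhs => rw [← WithZero.exp_log h0]
  congr 1
  rw [nT]; omega

variable {E} in
/-- The exponent at a place over `3E` is positive. -/
lemma one_le_nT {v : Place K} (h : InT D E v) : 1 ≤ nT D E v := by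
  have h1 := (D.valuation_lt_one_iff v ((3 * E : ℕ) : EI)).2 h
  rw [val_N D E v, ← WithZero.exp_zero, WithZero.exp_lt_exp] at h1
  omega

/-- Only finitely many places divide `3E`. -/
lemma finite_inT : {v : Place K | InT D E v}.Finite := by
  refine (Ideal.finite_factors (I := Ideal.span {D.e ((3 * E : ℕ) : EI)}) ?_).subset fun v hv => ?_
  · rw [Ne, Ideal.zero_eq_bot, Ideal.span_singleton_eq_bot]
    exact fun e => natN_ne_zero E (D.e.injective (e.trans (map_zero D.e).symm))
  · rw [Set.mem_ofPred_eq, Ideal.dvd_iff_le, Ideal.span_singleton_le_iff_mem]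
    exact hv

/-- The level data: `E` reaches the depth at the places of the level and the excepted places lie
over `3 E`. -/
structure BData (S : Lev K) (Z : Set (Place K)) : Prop where
  /-- `E` is divisible at each place of the level to at least the depth. -/
  depth : ∀ v ∈ S, v.valuation K (D.ι (E : EI)) ≤ WithZero.exp (-(S.depth v : ℤ))
  /-- The excepted places lie over `3E`. -/
  bad : ∀ v ∈ Z, InT D E v

/-- Agreement at the places over `3E` up to the congruence subgroups. -/
def TCong (g g' : GL (Fin 2) K) : Prop :=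
  ∀ v, InT D E v → g⁻¹ * g' ∈ congN (v.valuation K) (nT D E v)

variable {D E}

/-- A unit modulo `3E` is a local unit over `3E`. -/
lemma isUnit_toLoc {v : Place K} (hv : InT D E v) {x : EI} (hx : IsUnit (red (3 * E) x)) :
    v.valuation K (D.ι x) = 1 :=
  v.valuation_eq_one_iff_notMem.2 (rMod_isUnit D v hv hx)

/-- Integral matrices with unit determinant modulo `3E`. -/
lemma mem_intGL_of_red {v : Place K} (hv : InT D E v) {a : Matrix (Fin 2) (Fin 2) EI}
    {g : GL (Fin 2) K} (hg : g.val = a.map D.ι) (ha : IsUnit (red (3 * E) a.det)) :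
    g ∈ intGL (v.valuation K) := by
  have hu : IsUnit (a.map (toLoc D v)).det := by
    rw [← RingHom.mapMatrix_apply, ← RingHom.map_det, isUnit_integer_iff]
    exact isUnit_toLoc hv ha
  exact ⟨((Matrix.isUnit_iff_isUnit_det _).2 hu).unit, Units.ext (by rw [hg]; rfl)⟩

/-- Integral matrices equal modulo `3E` with unit determinant agree over `3E`. -/
lemma tcong_of_map {a a' : Matrix (Fin 2) (Fin 2) EI} {g g' : GL (Fin 2) K} (hg : g.val = a.map D.ι)
    (hg' : g'.val = a'.map D.ι) (ha : IsUnit (red (3 * E) a.det))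
    (h : a.map (red (3 * E)) = a'.map (red (3 * E))) : TCong D E g g' := fun v hv => by
  have ha' : IsUnit (red (3 * E) a'.det) := by
    rw [RingHom.map_det] at ha ⊢
    rwa [RingHom.mapMatrix_apply, ← h]
  refine inv_mul_mem_congN _ (mem_intGL_of_red hv hg ha) (mem_intGL_of_red hv hg' ha') fun i j => ?_
  rw [hg, hg', Matrix.map_apply, Matrix.map_apply, ← map_sub]
  obtain ⟨k, hk⟩ := (red_eq_zero_iff (3 * E) (a' i j - a i j)).1 (by
    rw [map_sub, sub_eq_zero]; exact (congrFun (congrFun h i) j).symm)
  rw [hk, map_mul, map_mul, ← val_N D E v]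
  exact mul_le_of_le_one_right' (D.valuation_le_one v k)

variable (D)

/-- A lift of an invertible class has nonzero determinant. -/
lemma det_liftM_ne (M : GN (3 * E)) : ((liftM M.val).map D.ι).det ≠ 0 := by
  rw [← RingHom.mapMatrix_apply, ← RingHom.map_det]
  refine iota_ne_zero D (LT3.ne_zero_of_unit_red (E := E) ?_)
  rw [RingHom.map_det, RingHom.mapMatrix_apply, red_liftM,
    ← Matrix.GeneralLinearGroup.val_det_apply]
  exact Units.isUnit _

/-- A lift in `GL₂(K)`. -/
noncomputable def liftK (M : GN (3 * E)) : GL (Fin 2) K :=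
  Matrix.GeneralLinearGroup.mkOfDetNeZero ((liftM M.val).map D.ι) (det_liftM_ne D M)

/-- The entries of the lift. -/
@[simp] lemma liftK_val (M : GN (3 * E)) : (liftK D M).val = (liftM M.val).map D.ι := rfl

omit [NumberField K] [Field K] in
/-- The lift reduces modulo `3E` to the reduction of the class. -/
lemma liftM_redD (M : GN (3 * E)) : (liftM M.val).map (red (3 * E)) = M.val.map (redD E) := by
  conv_rhs => rw [← red_liftM M.val]
  ext i j : 1
  exact (redD_red E _).symm

omit [NumberField K] [Field K] in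
/-- The determinant of a lift is a unit modulo `3E`. -/
lemma isUnit_red_liftM (M : GN (3 * E)) : IsUnit (red (3 * E) (liftM M.val).det) := by
  rw [RingHom.map_det, RingHom.mapMatrix_apply, liftM_redD, ← RingHom.mapMatrix_apply,
    ← RingHom.map_det, ← Matrix.GeneralLinearGroup.val_det_apply]
  exact (Units.isUnit _).map _

/-- A lift is integral with integral inverse at the places over `3E`. -/
lemma liftK_mem_intGL {v : Place K} (hv : InT D E v) (M : GN (3 * E)) :
    liftK D M ∈ intGL (v.valuation K) :=
  mem_intGL_of_red hv rfl (isUnit_red_liftM M)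

/-- Congruence from the class modulo `3E`. -/
lemma tcong_liftK {a : Matrix (Fin 2) (Fin 2) EI} {g : GL (Fin 2) K} (hg : g.val = a.map D.ι)
    {M : GN (3 * E)} (h : a.map (red (3 * E)) = M.val.map (redD E)) : TCong D E g (liftK D M) := by
  refine tcong_of_map hg (liftK_val D M) ?_ (by rw [h, liftM_redD])
  rw [RingHom.map_det, RingHom.mapMatrix_apply, h, ← RingHom.mapMatrix_apply, ← RingHom.map_det,
    ← Matrix.GeneralLinearGroup.val_det_apply]
  exact (Units.isUnit _).map _

variable (E) in
/-- `[[d, 3E b], [0, 1]]`. -/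
noncomputable def aD {d : EI} (hd : d ≠ 0) (b : EI) : GL (Fin 2) K :=
  upMat (piU D hd) (D.ι (((3 * E : ℕ) : EI) * b))

variable (E) {S : Lev K}

/-- The point with prescribed component over `3E`. -/
noncomputable def ptT (g : GL (Fin 2) K) (o : FinPt K S) : FinPt K S :=
  ⟨fun v => if InT D E v then (g : Vert S v) else o.1 v, by
    filter_upwards [o.2, (finite_inT D E).compl_mem_cofinite] with v hv hT
    rw [if_neg (by simpa using hT), hv]⟩

variable {D E}

/-- The component over `3E`. -/
lemma ptT_of_mem {v : Place K} (hv : InT D E v) (g : GL (Fin 2) K) (o : FinPt K S) :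
    (ptT D E g o).1 v = (g : Vert S v) := if_pos hv

/-- The component away from `3E`. -/
lemma ptT_of_not {v : Place K} (hv : ¬ InT D E v) (g : GL (Fin 2) K) (o : FinPt K S) :
    (ptT D E g o).1 v = o.1 v := if_neg hv

/-- Translating a prescribed point translates its component and its base. -/
lemma smul_ptT (γ g : GL (Fin 2) K) (o : FinPt K S) :
    γ • ptT D E g o = ptT D E (γ * g) (γ • o) := by
  refine Subtype.ext (funext fun v => ?_)
  rw [FinPt.smul_apply]
  by_cases hv : InT D E v
  · rw [ptT_of_mem hv, ptT_of_mem hv, MulAction.Quotient.smul_coe, smul_eq_mul]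
  · rw [ptT_of_not hv, ptT_of_not hv, FinPt.smul_apply]

/-- Only the places off `3E` of the background matter. -/
lemma ptT_congr (g : GL (Fin 2) K) {o o' : FinPt K S} (h : ∀ v, ¬ InT D E v → o.1 v = o'.1 v) :
    ptT D E g o = ptT D E g o' := by
  refine Subtype.ext (funext fun v => ?_)
  by_cases hv : InT D E v
  · rw [ptT_of_mem hv, ptT_of_mem hv]
  · rw [ptT_of_not hv, ptT_of_not hv, h v hv]

/-- Scalars are absorbed. -/
lemma ptT_scal_mul (c : Kˣ) (g : GL (Fin 2) K) (o : FinPt K S) :
    ptT D E (scal c * g) o = ptT D E g o := by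
  refine Subtype.ext (funext fun v => ?_)
  by_cases hv : InT D E v
  · rw [ptT_of_mem hv, ptT_of_mem hv, eq_comm, QuotientGroup.eq, scal_comm, inv_mul_cancel_left]
    exact scal_mem_lev S v c
  · rw [ptT_of_not hv, ptT_of_not hv]

variable {Z : Set (Place K)}

/-- The places of the level lie over `3E`. -/
lemma BData.inT (hB : BData D E S Z) {v : Place K} (hv : v ∈ S) : InT D E v := by
  have hd : 1 ≤ S.depth v := Nat.one_le_iff_ne_zero.2 hv
  have h := (D.valuation_lt_one_iff v (E : EI)).1
    (lt_of_le_of_lt (hB.depth v hv) (exp_neg_lt_one hd))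
  rw [InT, Nat.cast_mul, map_mul]
  exact v.asIdeal.mul_mem_left _ h

/-- The depth is at most the exponent of `3E`. -/
lemma BData.depth_le (hB : BData D E S Z) (v : Place K) : S.depth v ≤ nT D E v := by
  by_cases hv : v ∈ S
  · have h : v.valuation K (D.ι ((3 * E : ℕ) : EI)) ≤ WithZero.exp (-(S.depth v : ℤ)) := by
      rw [Nat.cast_mul, map_mul, map_mul]
      exact (mul_le_of_le_one_left' (D.valuation_le_one v _)).trans (hB.depth v hv)
    rw [val_N D E v, WithZero.exp_le_exp] at h
    omega
  · rw [Lev.notMem_iff.1 hv]; exact Nat.zero_le _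

/-- Deep elements fix the cosets. -/
lemma BData.mk_mul (hB : BData D E S Z) {v : Place K} (g : GL (Fin 2) K) {p h : GL (Fin 2) K}
    (hv : InT D E v) (hh : h ∈ intGL (v.valuation K)) (hp : p ∈ congN (v.valuation K) (nT D E v)) :
    ((g * p * h : GL (Fin 2) K) : Vert S v) = ((g * h : GL (Fin 2) K) : Vert S v) := by
  have _ := hv
  rw [eq_comm, QuotientGroup.eq, show (g * h)⁻¹ * (g * p * h) = h⁻¹ * p * h by group]
  exact mem_lev_of_congN (hB.depth_le v) (conj_congN_mem _ hh hp)

end Fermat.LTG.W1
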