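import Fermat.Agent.LTG.W1.BridgeOps
import Fermat.Agent.LTG.W1.Per.HeckeB
import Fermat.Agent.LTG.Mult.Coef
import Fermat.Agent.LT3.Coef.Avg

/-!
# Weight one: the classical automorphic function of a cusp form

`autoOf` is this function, with eigenvalues given by `autoOf_lam`.
-/

set_option autoImplicit false
open NumberField MeasureTheory
open scoped Classical

namespace Fermat.LTG.W1
open Fermat.LT Fermat.LT3

variable {K : Type*} [Field K] [NumberField K] [NumberField.IsTotallyComplex K] {D : KData K}
  {E : ℕ} [NeZero E] {S : Lev K} {Z : Set (Place K)} {lam : Place K → ℝ} {Φ : Pt K S → ℂ}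

/-- The pull back of a form is invariant, continuous and smooth. -/
lemma isBas_pull (h : IsForm S Z lam Φ) : Mult.IsBas (Mult.pull Φ) where
  invariant γ g x := by
    change Φ (Mult.toPt S (Mult.dgl γ * g), Mult.act γ x) = Φ (Mult.toPt S g, x)
    rw [Mult.toPt_dgl_mul]
    exact isInvariant_iff.1 h.invariant γ (Mult.toPt S g, x)
  continuous g := h.continuous (Mult.toPt S g)
  smooth := ⟨S, Mult.isLevel_pull Φ⟩

/-- The slices are periodic. -/
lemma isPer_slice (h : IsForm S Z lam Φ) (o : FinPt K S) {t : ℝ} (ht : 0 < t) :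
    LT.Mult.IsPer fun z : InfinitePlace K → ℂ => Φ (o, fun w => H3.mk (z w) t) := by
  have h1 := ((isBas_pull h).isNice (Mult.sec o)).isPer_sl (t := fun _ => t) fun _ => ht
  rw [show (fun z : InfinitePlace K → ℂ => Φ (o, fun w => H3.mk (z w) t))
    = Mult.sl (Mult.pull Φ (Mult.sec o)) (fun _ => t) from funext fun z => by
      change Φ (o, _) = Φ (Mult.toPt S (Mult.sec o), _)
      rw [Mult.toPt_sec]; rfl]
  exact h1

omit [IsTotallyComplex K] in
/-- With one infinite place a slice is given by its coordinate. -/
lemma slice_eq (D : KData K) (z : InfinitePlace K → ℂ) (w₀ : InfinitePlace K) (t : ℝ) :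
    (fun _ : InfinitePlace K => H3.mk (z w₀) t) = fun w => H3.mk (z w) t := by
  have := D.unique
  exact funext fun w => by rw [Subsingleton.elim w w₀]

variable {d : EI} {R : Finset EI}

/-- The classical function is continuous. -/
lemma cl_cont (h : IsForm S Z lam Φ) (hd : d ≠ 0) (h0 M : GN (3 * E)) :
    Continuous (cl D hd R h0 Φ M) := by
  unfold cl sumT
  exact continuous_finsetSum _ fun b _ =>
    (h.continuous _).comp (continuous_pi fun _ => continuous_id)

/-- The classical function is bounded. -/
lemma cl_bound (h : IsForm S Z lam Φ) (hd : d ≠ 0) (h0 : GN (3 * E)) :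
    ∃ C, ∀ M w, ‖cl D hd R h0 Φ M w‖ ≤ C := by
  obtain ⟨C, hC⟩ := h.bounded
  refine ⟨R.card * C, fun M w => ?_⟩
  rw [cl, sumT]
  refine (norm_sum_le _ _).trans ((Finset.sum_le_sum fun b _ => hC _).trans_eq ?_)
  rw [Finset.sum_const, nsmul_eq_mul]

/-- The classical function is an eigenfunction of the archimedean operators. -/
lemma cl_arch (h : IsForm S Z lam Φ) (hd : d ≠ 0) (h0 : GN (3 * E)) (k : ℝ → ℝ) (hk : Continuous k)
    (hks : HasCompactSupport k) (M : GN (3 * E)) (w : H3) :
    ∫ u, (k (coshd w u) : ℂ) * cl D hd R h0 Φ M u ∂hmeas = hhat0 k * cl D hd R h0 Φ M w := by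
  obtain ⟨C, hC⟩ := h.bounded
  have := D.unique
  obtain ⟨w0⟩ := (inferInstance : Nonempty (InfinitePlace K))
  simp only [cl, sumT, Finset.mul_sum]
  have hc : ∀ o : FinPt K S, Continuous fun u : H3 => Φ (o, fun _ => u) := fun o =>
    (h.continuous o).comp (continuous_pi fun _ => continuous_id)
  rw [integral_finsetSum _ fun b _ => ?_]
  · refine Finset.sum_congr rfl fun b _ => ?_
    set o := ptT D E (liftK D M * aD D E hd b * liftK D h0) (FinPt.base : FinPt K S)
    have e := h.arch w0 k hk hks (o, fun _ => w)
    simp only at e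
    rw [show (fun y : H3 => (k (coshd w y) : ℂ) * Φ (o, Function.update (fun _ => w) w0 y))
      = fun y => (k (coshd w y) : ℂ) * Φ (o, fun _ => y) from funext fun y => by
        rw [show Function.update (fun _ : InfinitePlace K => w) w0 y = fun _ => y from
            funext fun u => by
          rw [Subsingleton.elim u w0, Function.update_self]],
      hIntegral_eq_integral (show Continuous fun y : H3 =>
        (k (coshd w y) : ℂ) * Φ (o, fun _ => y) from
        (Complex.continuous_ofReal.comp (hk.comp (continuous_coshd.comp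
          (continuous_const.prodMk continuous_id)))).mul (hc o)).aestronglyMeasurable] at e
    exact e
  · exact Theta.integrable_kernel_mul hk hks w (hc (ptT D E (liftK D M * aD D E hd b * liftK D h0)
      (FinPt.base : FinPt K S))).measurable (C := C) fun _ _ => hC _

/-- The means of the classical function over the horospheres vanish. -/
lemma cl_cusp (h : IsForm S Z lam Φ) (hd : d ≠ 0) (h0 M : GN (3 * E)) {t : ℝ} (ht : 0 < t)
    (w₀ : InfinitePlace K) :
    LT.Mult.mean (fun v : InfinitePlace K → ℂ => cl D hd R h0 Φ M (H3.mk (v w₀) t)) = 0 := by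
  simp only [cl, sumT, slice_eq D]
  rw [LT.Mult.mean_sum R fun b _ => isPer_slice h _ ht]
  exact Finset.sum_eq_zero fun b _ => h.cuspidal _ (fun _ => t) fun _ => ht

variable (hB : BData D E S Z) (hd : DData D E d R) (h0 : GN (3 * E)) (h : IsForm S Z lam Φ)
  (hne : ∃ M w, cl D hd.ne_zero R h0 Φ M w ≠ 0)

/-- **The automorphic function.** The classical function `cl` of a cusp form, with its invariance,
level, continuity and bound, as an `Auto D E`. -/
noncomputable def autoOf : Auto D E where
  Φ := cl D hd.ne_zero R h0 Φ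
  nonzero := hne
  inv γ M w := cl_inv hB hd h0 h.invariant γ M w
  scal z M w := cl_scal hB hd h0 Φ z M w
  level k M hk w := cl_level hB hd h0 Φ k M hk w
  cont M := cl_cont h hd.ne_zero h0 M
  bound := cl_bound h hd.ne_zero h0
  arch := cl_arch h hd.ne_zero h0
  lam π := if hπ : Prime π then lam (piPlace D hπ) else 0
  hecke π hπ hu T hT M w := by
    rw [dif_pos hπ]; exact cl_hecke hB hd h0 h.invariant h.hecke hπ hu T hT M w
  cusp M _ ht w₀ := cl_cusp h hd.ne_zero h0 M ht w₀

/-- The components of the automorphic function. -/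
@[simp] lemma autoOf_Phi : (autoOf hB hd h0 h hne).Φ = cl D hd.ne_zero R h0 Φ := rfl

/-- Its eigenvalue at a prime is that of the form at the place. -/
lemma autoOf_lam {π : EI} (hπ : Prime π) :
    (autoOf hB hd h0 h hne).lam π = lam (piPlace D hπ) := dif_pos hπ

end Fermat.LTG.W1
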