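import Fermat.Agent.LTG.W1.BridgeSum
import Fermat.Agent.LTG.SphKer

/-!
# Weight one: the classical function and its Hecke relations

`cl` is the function on matrices modulo `9E`; `cl_hecke` is its Hecke relation.
-/

set_option autoImplicit false
open Matrix
open scoped Classical

namespace Fermat.LTG.W1
open Fermat.LT Fermat.LT3

variable {K : Type*} [Field K] [NumberField K] (D : KData K) {E : ℕ} [NeZero E] {S : Lev K}

/-- The function on matrices modulo `9E`. -/
noncomputable def cl {d : EI} (hd : d ≠ 0) (R : Finset EI) (h0 : GN (3 * E)) (Φ : Pt K S → ℂ)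
    (M : GN (3 * E)) (w : H3) : ℂ :=
  sumT D E hd R (liftK D h0) Φ (liftK D M) (FinPt.base) fun _ => w

variable {D} {d : EI} {R : Finset EI} {Z : Set (Place K)} (hB : BData D E S Z) (hd : DData D E d R)
  (h0 : GN (3 * E))
include hB

/-- The classical function may be computed with any congruent lift. -/
lemma cl_of_tcong (Φ : Pt K S → ℂ) {g : GL (Fin 2) K} {M : GN (3 * E)}
    (h : TCong D E g (liftK D M)) (w : H3) :
    cl D hd.ne_zero R h0 Φ M w
      = sumT D E hd.ne_zero R (liftK D h0) Φ g (FinPt.base) fun _ => w :=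
  sumT_congr hB hd (fun _ hv => liftK_mem_intGL D hv h0) h Φ _ _

/-- The classical function depends on the class modulo `3E` only. -/
lemma cl_congr (Φ : Pt K S → ℂ) {M M' : GN (3 * E)} (h : M.val.map (redD E) = M'.val.map (redD E))
    (w : H3) : cl D hd.ne_zero R h0 Φ M' w = cl D hd.ne_zero R h0 Φ M w := by
  rw [cl_of_tcong hB hd h0 Φ (g := liftK D M) (M := M')
    (tcong_liftK D (liftK_val D M) (by rw [liftM_redD, h])) w, cl]

/-- The classical function is invariant under the classes of one modulo `3E`. -/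
lemma cl_level (Φ : Pt K S → ℂ) (k M : GN (3 * E)) (hk : k.val.map (redD E) = 1) (w : H3) :
    cl D hd.ne_zero R h0 Φ (M * k) w = cl D hd.ne_zero R h0 Φ M w :=
  cl_congr hB hd h0 Φ (by rw [Units.val_mul, Matrix.map_mul, hk, Matrix.mul_one]) w

/-- The classical function is invariant under scalars. -/
lemma cl_scal (Φ : Pt K S → ℂ) (z : (RN E)ˣ) (M : GN (3 * E)) (w : H3) :
    cl D hd.ne_zero R h0 Φ (upG z 0 z * M) w = cl D hd.ne_zero R h0 Φ M w := by
  obtain ⟨x, hx⟩ := red_surjective (3 * (3 * E)) (z : RN E)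
  have hx0 : x ≠ 0 := LT3.ne_zero_of_unit_red (E := E) (by rw [hx]; exact z.isUnit)
  rw [cl_of_tcong hB hd h0 Φ (g := scal (piU D hx0) * liftK D M) (tcong_liftK D
    (a := x • liftM M.val) ?_ ?_) w, cl, sumT, sumT]
  · simp only [mul_assoc (scal (piU D hx0)), ptT_scal_mul]
  · rw [Units.val_mul, scal_coe, liftK_val]
    ext i j
    fin_cases i <;> fin_cases j <;> simp [Matrix.mul_apply, Fin.sum_univ_two, piU]
  · rw [Units.val_mul, Matrix.map_mul, ← liftM_redD M, upG_val, map_fin_two_of, map_zero,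
      show redD E (z : RN E) = red (3 * E) x by rw [← hx, redD_red]]
    refine Matrix.ext fun i j => ?_
    fin_cases i <;> fin_cases j <;> simp [Matrix.mul_apply, Fin.sum_univ_two]

variable {Φ : Pt K S → ℂ}

/-- The classical function is invariant under `GL₂(ℤ[ω])`. -/
lemma cl_inv (hI : IsInvariant Φ) (γ : GL (Fin 2) EI) (M : GN (3 * E)) (w : H3) :
    cl D hd.ne_zero R h0 Φ (gr (3 * (3 * E)) γ * M) (gC γ • w) = cl D hd.ne_zero R h0 Φ M w := by
  rw [cl_of_tcong hB hd h0 Φ (g := D.gK γ * liftK D M)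
    (tcong_liftK D (a := γ.val * liftM M.val) ?_ ?_) (gC γ • w), cl, sumT, sumT]
  · refine Finset.sum_congr rfl fun b _ => ?_
    rw [← isInvariant_iff.1 hI (D.gK γ)
      (ptT D E (liftK D M * aD D E hd.ne_zero b * liftK D h0) FinPt.base, fun _ => w)]
    congr 1
    refine Prod.ext ?_ (funext fun u => ?_)
    · rw [Pt.smul_fst, smul_ptT]
      simp only [mul_assoc]
      refine ptT_congr _ fun v hv => ?_
      have hvS : v ∉ S := fun h => hv (hB.inT h)
      rw [FinPt.smul_apply, show (FinPt.base : FinPt K S).1 v =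
        ((1 : GL (Fin 2) K) : Vert S v) from rfl,
        MulAction.Quotient.smul_coe, QuotientGroup.eq, lev_of_not_mem hvS, smul_eq_mul,
          inv_one, one_mul,
        mul_one]
      exact le_withScalars _ (D.gK_mem_intGL v γ)
    · rw [Pt.smul_snd, D.atInf_gK]
  · rw [Units.val_mul, Matrix.map_mul, liftK_val]
    rfl
  · rw [Units.val_mul, Matrix.map_mul, Matrix.map_mul, liftM_redD]
    congr 1
    rw [gr_coe]
    exact Matrix.ext fun i j => (redD_red E _).symm

omit hB in
omit [NeZero E] in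
/-- A prime that is a unit at the level gives a place away from `3E`. -/
lemma piPlace_not_inT {π : EI} (hπ : Prime π) (hu : IsUnit (red (3 * (3 * E)) π)) :
    ¬ InT D E (piPlace D hπ) := fun hv =>
  rMod_isUnit D (piPlace D hπ) (n := 3 * (3 * E)) (by
    rw [Nat.cast_mul, map_mul]; exact Ideal.mul_mem_left _ _ hv) hu ((mem_piPlace D hπ π).2 dvd_rfl)

/-- The sum at a neighbouring coset at `π` is `cl` at the translated matrix and point. -/
lemma sum_nbr (hI : IsInvariant Φ) {π : EI} (hπ : Prime π) (hu : IsUnit (red (3 * (3 * E)) π))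
    (A : Matrix (Fin 2) (Fin 2) EI) (g : GL (Fin 2) K) (hA : g.val = A.map D.ι) (X : GN (3 * E))
    (hX : A.map (red (3 * (3 * E))) = X.val) (G : GL (Fin 2) ℂ) (hG : ∀ w', atInf w' g = G)
    (hg : ∀ u, u ≠ piPlace D hπ → g ∈ U0 (u.valuation K)) (M : GN (3 * E)) (w : H3) :
    ∑ b ∈ R, Φ ((ptT D E (liftK D M * aD D E hd.ne_zero b * liftK D h0) FinPt.base).set
        (piPlace D hπ) (g : Vert S (piPlace D hπ)), fun _ => w)
      = cl D hd.ne_zero R h0 Φ (X⁻¹ * M) (G⁻¹ • w) := by
  have hc : TCong D E (g * liftK D (X⁻¹ * M)) (liftK D M) := by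
    refine tcong_liftK D (a := A * liftM (X⁻¹ * M).val) ?_ ?_
    · rw [Units.val_mul, Matrix.map_mul, hA, liftK_val]
    · rw [Matrix.map_mul, liftM_redD, show A.map (red (3 * E)) = X.val.map (redD E) by
        rw [← hX]; exact Matrix.ext fun i j => (redD_red E _).symm, ← Matrix.map_mul,
          ← Units.val_mul,
        mul_inv_cancel_left]
  have hc' : TCong D E (liftK D (X⁻¹ * M)) (g⁻¹ * liftK D M) := fun v hv => by
    rw [show (liftK D (X⁻¹ * M))⁻¹ * (g⁻¹ * liftK D M)
      = (g * liftK D (X⁻¹ * M))⁻¹ * liftK D M by group]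
    exact hc v hv
  have hv := piPlace_not_inT hπ hu (D := D) (E := E)
  rw [cl, ← sumT_congr hB hd (fun _ hv' => liftK_mem_intGL D hv' h0) hc' Φ _ _, sumT]
  refine Finset.sum_congr rfl fun b _ => ?_
  rw [← isInvariant_iff.1 hI g
    (ptT D E (g⁻¹ * liftK D M * aD D E hd.ne_zero b * liftK D h0) FinPt.base, fun _ => G⁻¹ • w)]
  congr 1
  refine Prod.ext (Subtype.ext (funext fun u => ?_)) (funext fun w' => ?_)
  · rw [Pt.smul_fst, FinPt.smul_apply]
    by_cases huT : InT D E u
    · rw [FinPt.set_of_ne _ (fun e : u = piPlace D hπ => hv (e ▸ huT)), ptT_of_mem huT,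
        ptT_of_mem huT, MulAction.Quotient.smul_coe, smul_eq_mul]
      simp only [mul_assoc, mul_inv_cancel_left]
    · rcases eq_or_ne u (piPlace D hπ) with rfl | hne
      · rw [FinPt.set_self, ptT_of_not huT,
          show (FinPt.base : FinPt K S).1 (piPlace D hπ) = ((1 : GL (Fin 2) K) : Vert S _) from rfl,
          MulAction.Quotient.smul_coe, smul_eq_mul, mul_one]
      · rw [FinPt.set_of_ne _ hne, ptT_of_not huT, ptT_of_not huT,
          show (FinPt.base : FinPt K S).1 u = ((1 : GL (Fin 2) K) : Vert S _) from rfl,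
          MulAction.Quotient.smul_coe, smul_eq_mul, mul_one, eq_comm, QuotientGroup.eq,
          lev_of_not_mem (fun h => huT (hB.inT h)), mul_one]
        exact (U0 _).inv_mem (hg u hne)
  · rw [Pt.smul_snd, hG, smul_inv_smul]

/-- **Hecke relation.** The function `cl` satisfies at a good prime `π` the Hecke relation with the
eigenvalue of the form at `π`. -/
theorem cl_hecke (hI : IsInvariant Φ) {lam : Place K → ℝ}
    (hH : ∀ v ∉ S, v ∉ Z → ∀ p, heckeT v Φ p = (lam v : ℂ) * Φ p)
    {π : EI} (hπ : Prime π) (hu : IsUnit (red (3 * (3 * E)) π)) (T : Finset EI)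
    (hT : ∀ x : EI, ∃! u, u ∈ T ∧ π ∣ x - u) (M : GN (3 * E)) (w : H3) :
    (∑ u ∈ T, cl D hd.ne_zero R h0 Φ ((upG hu.unit (red (3 * (3 * E)) u) 1)⁻¹ * M)
        ((aC π u hπ.ne_zero)⁻¹ • w))
      + cl D hd.ne_zero R h0 Φ ((upG 1 0 hu.unit)⁻¹ * M) ((aInf π hπ.ne_zero)⁻¹ • w)
      = (lam (piPlace D hπ) : ℂ) * cl D hd.ne_zero R h0 Φ M w := by
  set v := piPlace D hπ with hvdef
  have hvT : ¬ InT D E v := piPlace_not_inT hπ hu
  have hv : v ∉ S := fun h => hvT (hB.inT h)
  have hvZ : v ∉ Z := fun h => hvT (hB.bad v h)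
  let f : Option T → Vert S v := fun o =>
    match o with
    | some u => ((aK D hπ.ne_zero (u : EI) : GL (Fin 2) K) : Vert S v)
    | none => ((aKi D hπ.ne_zero : GL (Fin 2) K) : Vert S v)
  obtain ⟨hinj, hnbr⟩ := nbr_enum hπ T hT (lev_of_not_mem hv) vd vd_mk (f := f) rfl fun _ => rfl
  have hnb : ∀ o, vd ((1 : GL (Fin 2) K) : Vert S v) (f o) = 1 := fun o =>
    (hnbr _).2 (Finset.mem_image_of_mem f (Finset.mem_univ o))
  -- the neighbours of the base vertex
  have hrow : (sphKer (S := S) hv Polynomial.X).row ((1 : GL (Fin 2) K) : Vert S v)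
      = Finset.univ.image f := Finset.ext fun y => (mem_row_sphKer_X hv).trans (hnbr y)
  have hone : ∀ X : GL (Fin 2) K, (lam v : ℂ) * Φ (ptT D E X FinPt.base, fun _ => w)
      = Φ ((ptT D E X FinPt.base).set v (f none), fun _ => w)
        + ∑ u : T, Φ ((ptT D E X FinPt.base).set v (f (some u)), fun _ => w) := by
    intro X
    rw [← hH v hv hvZ, heckeT_eq_locAct hv, locAct,
      show (ptT D E X (FinPt.base : FinPt K S)).1 v =
        ((1 : GL (Fin 2) K) : Vert S v) from ptT_of_not hvT _ _,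
      hrow, Finset.sum_image hinj.injOn, Fintype.sum_option]
    simp only [sphKer_apply, hnb, kern_X, if_true, one_mul]
  conv_rhs => rw [cl, sumT, Finset.mul_sum, Finset.sum_congr rfl fun b _ => hone _,
    Finset.sum_add_distrib, Finset.sum_comm, add_comm]
  have hU : ∀ u, u ≠ piPlace D hπ → ∀ x : EI, aK D hπ.ne_zero x ∈ U0 (u.valuation K) :=
      fun u hne x =>
    le_withScalars _ (upMat_mem_intGL _ (val_eq_one_of_ne D hπ hne) (D.valuation_le_one u x))
  congr 1
  · -- match the two kinds of neighbours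
    rw [← Finset.sum_coe_sort T]
    refine Finset.sum_congr rfl fun u _ => ?_
    refine (sum_nbr hB hd h0 hI hπ hu !![π, (u : EI); 0, 1] _ ?_ _ ?_ _
      (fun w' => atInf_aK D _ _ w') (fun x hne => hU x hne u) M w).symm
    · ext i j; fin_cases i <;> fin_cases j <;> simp [aK, piU]
    · rw [upG_val, map_fin_two_of, map_zero, map_one, hu.unit_spec, Units.val_one]
  · refine (sum_nbr hB hd h0 hI hπ hu !![1, 0; 0, π] _ ?_ _ ?_ _
      (fun w' => atInf_aKi D _ w') (fun x hne => ?_) M w).symm
    · rw [coe_aKi, map_fin_two_of, map_zero, map_one]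
    · rw [upG_val, map_fin_two_of, map_zero, map_one, hu.unit_spec, Units.val_one]
    · rw [aKi]
      exact (U0 _).mul_mem (scal_mem_withScalars _ _) (le_withScalars _ (upMat_mem_intGL _
        (by rw [Units.val_inv_eq_inv_val, map_inv₀,
          show ((piU D hπ.ne_zero : Kˣ) : K) = D.ι π from rfl, val_eq_one_of_ne D hπ hne, inv_one])
        (by rw [map_zero]; exact zero_le)))

end Fermat.LTG.W1
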