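import Fermat.Agent.LTG.W1.Bridge

/-!
# Weight one: the sums over translates depend on the matrix modulo `3E`

`sumT_congr` is this invariance of the sum `sumT`.
-/

set_option autoImplicit false
open IsDedekindDomain NumberField Matrix
open scoped Classical

namespace Fermat.LTG.W1
open Fermat.LT Fermat.LT3

variable {K : Type*} [Field K] [NumberField K] (D : KData K) (E : ℕ) [NeZero E]

/-- The data of a divisor supported over `3E`. -/
structure DData (d : EI) (R : Finset EI) : Prop where
  /-- The divisor is not zero. -/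
  ne_zero : d ≠ 0
  /-- `R` is a system of representatives modulo `d`. -/
  reps : ∀ x : EI, ∃! u, u ∈ R ∧ d ∣ x - u
  /-- `d` is a unit off `3E`. -/
  supp : ∀ v, ¬ InT D E v → v.valuation K (D.ι d) = 1

variable {S : Lev K}

/-- The sum over the translates. -/
noncomputable def sumT {d : EI} (hd : d ≠ 0) (R : Finset EI) (h : GL (Fin 2) K) (Φ : Pt K S → ℂ)
    (g : GL (Fin 2) K) (o : FinPt K S) (x : InfinitePlace K → H3) : ℂ :=
  ∑ b ∈ R, Φ (ptT D E (g * aD D E hd b * h) o, x)

variable {D E}

/-- Divisibility in `ℤ[ω]` is local. -/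
lemma dvd_of_valuation_le {d y : EI} (hd : d ≠ 0)
    (h : ∀ v : Place K, v.valuation K (D.ι y) ≤ v.valuation K (D.ι d)) : d ∣ y := by
  obtain ⟨r, hr⟩ := HeightOneSpectrum.mem_integers_of_valuation_le_one (R := 𝓞 K) K
    (D.ι y / D.ι d) fun v => by
      rw [map_div₀]; exact (div_le_one₀ (zero_lt_iff.2
        ((v.valuation K).ne_zero_iff.2 (iota_ne_zero D hd)))).2 (h v)
  obtain ⟨c, rfl⟩ := D.e.surjective r
  refine ⟨c, D.ι_injective ?_⟩
  rw [map_mul, show D.ι c = D.ι y / D.ι d from hr, mul_div_cancel₀ _ (iota_ne_zero D hd)]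

omit [NumberField K] in
/-- The entries of a conjugate by two upper triangular matrices. -/
lemma conj_upMat_val (a : Kˣ) (N b c : K) (u : GL (Fin 2) K) :
    ((upMat a (N * c))⁻¹ * u * upMat a (N * b)).val
      = !![u.val 0 0 - N * c * u.val 1 0,
            (u.val 0 0 * (N * b) + u.val 0 1 - N * c * (u.val 1 0 * (N * b) + u.val 1 1)) / (a : K);
          u.val 1 0 * (a : K), u.val 1 0 * (N * b) + u.val 1 1] := by
  have ha : (a : K) ≠ 0 := a.ne_zero
  rw [upMat_inv, Units.val_mul, Units.val_mul, coe_upMat, coe_upMat, Units.val_inv_eq_inv_val]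
  rw [Matrix.eta_fin_two u.val, Matrix.mul_fin_two, Matrix.mul_fin_two]
  ext i j
  fin_cases i <;> fin_cases j <;> simp
  all_goals field_simp
  all_goals ring

variable {d : EI} {R : Finset EI} {Z : Set (Place K)}

/-- The residue matched with `b` by a deep matrix. -/
lemma exists_match (hd : DData D E d R) {u : GL (Fin 2) K}
    (hu : ∀ v, InT D E v → u ∈ congN (v.valuation K) (nT D E v)) (b : EI) :
    ∃ c ∈ R, ∀ v, InT D E v →
      (aD D E hd.ne_zero c)⁻¹ * u * aD D E hd.ne_zero b ∈ congN (v.valuation K) (nT D E v) := by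
  set T := (finite_inT D E).toFinset
  set Nk := D.ι ((3 * E : ℕ) : EI) with hNk
  have hN0 : Nk ≠ 0 := iota_ne_zero D (natN_ne_zero E)
  have hd0 : D.ι d ≠ 0 := iota_ne_zero D hd.ne_zero
  set den := u.val 1 0 * Nk * D.ι b + u.val 1 1 with hden
  set num := u.val 0 0 * D.ι b + u.val 0 1 / Nk with hnum
  have hloc : ∀ v, InT D E v → v.valuation K den = 1 ∧ v.valuation K num ≤ 1 := by
    intro v hv
    have hlt := exp_neg_lt_one (one_le_nT D hv)
    have hent := v_entry_le_one _ (hu v hv).1
    have h01 := (hu v hv).2 0 1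
    have h11 := (hu v hv).2 1 1
    rw [one_apply_ne (show (0 : Fin 2) ≠ 1 by decide), sub_zero] at h01
    rw [one_apply_eq] at h11
    refine ⟨v_eq_one_of_sub _ (lt_of_le_of_lt ?_ hlt), ?_⟩
    · rw [hden, add_sub_assoc]
      refine ((v.valuation K).map_add _ _).trans (max_le ?_ h11)
      rw [map_mul, map_mul, hNk, val_N D E v]
      exact (mul_le_of_le_one_right' (D.valuation_le_one v b)).trans
        (mul_le_of_le_one_left' (hent 1 0))
    · refine ((v.valuation K).map_add _ _).trans (max_le ?_ ?_)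
      · rw [map_mul]; exact mul_le_one' (hent 0 0) (D.valuation_le_one v b)
      · rw [map_div₀, hNk, val_N D E v]
        exact (div_le_one₀ (zero_lt_iff.2 WithZero.exp_ne_zero)).2 h01
  set n := T.sup fun v => (-(WithZero.log (v.valuation K (D.ι d)))).toNat
  -- `c` is `num / den` modulo `d` at the places over `3E`
  obtain ⟨y, hy, hy'⟩ := exists_approx T (fun _ => num / den) n
  have hyint : ∀ v : Place K, v.valuation K y ≤ 1 := fun v => by
    by_cases hv : v ∈ T
    · rw [← sub_add_cancel y (num / den)]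
      refine ((v.valuation K).map_add _ _).trans (max_le ((hy v hv).trans ?_) ?_)
      · exact exp_neg_nat_le_one n
      · obtain ⟨h1, h2⟩ := hloc v ((finite_inT D E).mem_toFinset.1 hv)
        rw [map_div₀, h1, div_one]; exact h2
    · exact hy' v hv
  obtain ⟨r, hr⟩ := HeightOneSpectrum.mem_integers_of_valuation_le_one (R := 𝓞 K) K y hyint
  obtain ⟨c0, rfl⟩ := D.e.surjective r
  obtain ⟨c, ⟨hcR, hcd⟩, -⟩ := hd.reps c0
  refine ⟨c, hcR, fun v hv => ?_⟩
  have hcd' : v.valuation K (D.ι c - num / den) ≤ v.valuation K (D.ι d) := by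
    rw [show D.ι c - num / den = (y - num / den) - D.ι (c0 - c) by
      rw [map_sub, show D.ι c0 = y from hr]; ring]
    refine ((v.valuation K).map_sub _ _).trans (max_le
      ((hy v ((finite_inT D E).mem_toFinset.2 hv)).trans ?_) ?_)
    · have hne : v.valuation K (D.ι d) ≠ 0 := (v.valuation K).ne_zero_iff.2 hd0
      conv_rhs => rw [← WithZero.exp_log hne]
      rw [WithZero.exp_le_exp]
      have h1 : (-(WithZero.log (v.valuation K (D.ι d)))).toNat ≤ n :=
        Finset.le_sup (f := fun v : Place K => (-(WithZero.log (v.valuation K (D.ι d)))).toNat)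
          ((finite_inT D E).mem_toFinset.2 hv)
      omega
    · obtain ⟨k, hk⟩ := hcd
      rw [hk, map_mul, map_mul]
      exact mul_le_of_le_one_right' (D.valuation_le_one v k)
  obtain ⟨hden1, -⟩ := hloc v hv
  have hden0 : den ≠ 0 := fun e => by rw [e, map_zero] at hden1; exact zero_ne_one hden1
  have hent := v_entry_le_one _ (hu v hv).1
  have hN : v.valuation K Nk = WithZero.exp (-(nT D E v : ℤ)) := val_N D E v
  have e : ∀ i j, ((aD D E hd.ne_zero c)⁻¹ * u * aD D E hd.ne_zero b).val i j
      = !![u.val 0 0 - Nk * D.ι c * u.val 1 0, Nk * den * (num / den - D.ι c) / D.ι d;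
          u.val 1 0 * D.ι d, den] i j := fun i j => by
    rw [aD, aD, map_mul, map_mul, conj_upMat_val,
      show ((piU D hd.ne_zero : Kˣ) : K) = D.ι d from rfl,
      show Nk * den * (num / den - D.ι c) = Nk * (num - D.ι c * den) by field_simp,
      show Nk * (num - D.ι c * den) = u.val 0 0 * (Nk * D.ι b) + u.val 0 1
          - Nk * D.ι c * (u.val 1 0 * (Nk * D.ι b) + u.val 1 1) by
        rw [mul_sub, hnum, mul_add, mul_div_cancel₀ _ hN0]; ring,
      show den = u.val 1 0 * (Nk * D.ι b) + u.val 1 1 by rw [hden, mul_assoc]]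
  have h00 := (hu v hv).2 0 0
  have h10 := (hu v hv).2 1 0
  rw [one_apply_eq] at h00
  rw [one_apply_ne (show (1 : Fin 2) ≠ 0 by decide), sub_zero] at h10
  refine mem_congN_of_sub _ (one_le_nT D hv) ?_
  simp only [e, Fin.forall_fin_two, Fin.isValue, Matrix.cons_val', Matrix.cons_val_zero,
    Matrix.cons_val_one, Matrix.of_apply, Matrix.empty_val', Matrix.cons_val_fin_one, one_apply_eq,
    one_apply_ne (show (0 : Fin 2) ≠ 1 by decide), one_apply_ne (show (1 : Fin 2) ≠ 0 by decide),
    sub_zero]
  refine ⟨⟨?_, ?_⟩, ?_, ?_⟩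
  · rw [sub_right_comm]
    refine ((v.valuation K).map_sub _ _).trans (max_le h00 ?_)
    rw [map_mul, map_mul, hN]
    exact (mul_le_of_le_one_right' (hent 1 0)).trans
      (mul_le_of_le_one_right' (D.valuation_le_one v c))
  · rw [map_div₀, map_mul, map_mul, hN, hden1, mul_one, Valuation.map_sub_swap, mul_div_assoc]
    exact mul_le_of_le_one_right' ((div_le_one₀ (zero_lt_iff.2
      ((v.valuation K).ne_zero_iff.2 hd0))).2 hcd')
  · rw [map_mul]
    exact (mul_le_of_le_one_right' (D.valuation_le_one v d)).trans h10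
  · have h11 := (hu v hv).2 1 1
    rw [one_apply_eq] at h11
    rw [hden, add_sub_assoc]
    refine ((v.valuation K).map_add _ _).trans (max_le ?_ h11)
    rw [map_mul, map_mul, hN]
    exact (mul_le_of_le_one_right' (D.valuation_le_one v b)).trans
      (mul_le_of_le_one_left' (hent 1 0))

/-- **Invariance of the sum.** The sum `sumT` depends on the matrix only through its class under
`TCong`. -/
theorem sumT_congr (hB : BData D E S Z) (hd : DData D E d R) {h : GL (Fin 2) K}
    (hh : ∀ v, InT D E v → h ∈ intGL (v.valuation K)) {g g' : GL (Fin 2) K} (hT : TCong D E g g')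
    (Φ : Pt K S → ℂ) (o : FinPt K S) (x : InfinitePlace K → H3) :
    sumT D E hd.ne_zero R h Φ g' o x = sumT D E hd.ne_zero R h Φ g o x := by
  -- each `b` matches some `β b` up to the congruence group
  choose β hβR hβ using exists_match hd hT
  -- `β` is injective, as `R` is a set of representatives
  have hinj : Set.InjOn β ↑R := by
    intro b hb b' hb' e
    obtain ⟨u0, -, huniq⟩ := hd.reps b'
    refine (huniq b ⟨hb, ?_⟩).trans (huniq b' ⟨hb', by simp⟩).symm
    refine dvd_of_valuation_le (D := D) hd.ne_zero fun v => ?_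
    by_cases hv : InT D E v
    · have h1 := (congN (v.valuation K) _).mul_mem
        ((congN (v.valuation K) _).inv_mem (hβ b v hv)) (hβ b' v hv)
      rw [e] at h1
      rw [show ((aD D E hd.ne_zero (β b'))⁻¹ * (g⁻¹ * g') * aD D E hd.ne_zero b)⁻¹ *
          ((aD D E hd.ne_zero (β b'))⁻¹ * (g⁻¹ * g') * aD D E hd.ne_zero b')
        = (aD D E hd.ne_zero b)⁻¹ * aD D E hd.ne_zero b' by group] at h1
      have h2 := h1.2 0 1
      rw [aD, aD, upMat_inv, upMat_mul, coe_upMat, one_apply_ne (show (0 : Fin 2) ≠ 1 by decide),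
        sub_zero] at h2
      simp only [Matrix.cons_val', Matrix.cons_val_zero, Matrix.cons_val_one, Matrix.of_apply,
        Matrix.empty_val', Matrix.cons_val_fin_one, Units.val_inv_eq_inv_val, Fin.isValue] at h2
      rw [show ((piU D hd.ne_zero : Kˣ) : K) = D.ι d from rfl,
        show (D.ι d)⁻¹ * D.ι (((3 * E : ℕ) : EI) * b') + -(D.ι d)⁻¹ * D.ι (((3 * E : ℕ) : EI) * b)
          = D.ι ((3 * E : ℕ) : EI) * D.ι (b' - b) / D.ι d by rw [map_mul, map_mul, map_sub]; ring,
        map_div₀, map_mul, val_N D E v, div_le_iff₀ (zero_lt_iff.2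
          ((v.valuation K).ne_zero_iff.2 (iota_ne_zero D hd.ne_zero)))] at h2
      exact le_of_mul_le_mul_left h2 (zero_lt_iff.2 WithZero.exp_ne_zero)
    · rw [hd.supp v hv]; exact D.valuation_le_one v _
  have himg : R.image β = R := Finset.eq_of_subset_of_card_le
    (Finset.image_subset_iff.2 fun b _ => hβR b) (Finset.card_image_of_injOn hinj).ge
  -- so it permutes the summands
  rw [sumT, sumT]
  refine Finset.sum_bij (fun b _ => β b) (fun b _ => hβR b) (fun b hb b' hb' e => hinj hb hb' e)
    (fun c hc => ?_) fun b _ => ?_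
  · rw [← himg] at hc
    obtain ⟨b, hb, e⟩ := Finset.mem_image.1 hc
    exact ⟨b, hb, e⟩
  congr 2
  refine Subtype.ext (funext fun v => ?_)
  by_cases hv : InT D E v
  · rw [ptT_of_mem hv, ptT_of_mem hv,
      ← hB.mk_mul (g * aD D E hd.ne_zero (β b)) hv (hh v hv) (hβ b v hv)]
    congr 1
    group
  · rw [ptT_of_not hv, ptT_of_not hv]

end Fermat.LTG.W1
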