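import Fermat.Agent.LT3.DAct

/-!
# Weight one: equivariant families of periodic functions

A family assigns to every matrix modulo `9E` a periodic function on the dual lattice, compatibly
with the integral matrices. For an arbitrary periodic `Ψ` the family `tw Ψ` satisfies in addition
the rule for all invertible matrices: `tw Ψ (g M) X = tw Ψ M (adj g X)`.
-/

set_option autoImplicit false
open Matrix
open scoped MatrixGroups

namespace Fermat.LTG.W1
open Fermat.LT Fermat.LT3

/-- Families indexed by the matrices modulo `9E`. -/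
abbrev Fam (E : ℕ) [NeZero E] : Type := GN (3 * E) → Lz → ℂ

variable {E : ℕ} [NeZero E]

/-- A family periodic modulo `3E` and equivariant for `GL₂(ℤ[ω])`. -/
structure IsFam (W : Fam E) : Prop where
  /-- Each member is periodic modulo `3E`. -/
  per : ∀ M, LT3.Per (3 * E) (W M)
  /-- The family is equivariant for `GL₂` of the Eisenstein integers. -/
  smul : ∀ (γ : GL (Fin 2) EI) (M : GN (3 * E)) (X : Lz),
    W (gr (3 * (3 * E)) γ * M) (dact (γ : Matrix (Fin 2) (Fin 2) EI) X) = W M X

/-- Bounded and equivariant, not necessarily periodic. -/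
structure IsEqv (W : Fam E) : Prop where
  /-- The family is bounded. -/
  exists_bound : ∃ B, 0 ≤ B ∧ ∀ M X, ‖W M X‖ ≤ B
  /-- The family is equivariant for `GL₂` of the Eisenstein integers. -/
  smul : ∀ (γ : GL (Fin 2) EI) (M : GN (3 * E)) (X : Lz),
    W (gr (3 * (3 * E)) γ * M) (dact (γ : Matrix (Fin 2) (Fin 2) EI) X) = W M X

/-- Compatible with every invertible matrix. -/
structure IsHFam (W : Fam E) : Prop extends IsFam W where
  /-- Left translation by an invertible class acts through the adjugate of an integral lift. -/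
  adj : ∀ (m : Matrix (Fin 2) (Fin 2) EI) (g M : GN (3 * E)),
    m.map (red (3 * (3 * E))) = g.val → ∀ X, W (g * M) X = W M (dact m.adjugate X)

omit [NeZero E] in
/-- The norm of the determinant of a class is that of any lift. -/
lemma ndet_of_map {m : Matrix (Fin 2) (Fin 2) EI} {g : GN (3 * E)}
    (h : m.map (red (3 * (3 * E))) = g.val) :
    ndet g = ((QuadraticAlgebra.norm m.det : ℤ) : ZMod (3 * (3 * E))) := by
  rw [ndet, ← h, ← RingHom.mapMatrix_apply, ← RingHom.map_det, norm_red]

/-- A unit matrix has determinant of norm `1`. -/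
lemma norm_det_unit (γ : GL (Fin 2) EI) : QuadraticAlgebra.norm γ.val.det = 1 :=
  norm_unit_EI (Matrix.GeneralLinearGroup.det γ)

namespace IsFam

variable {W : Fam E} (hW : IsFam W)
include hW

/-- Equivariance as an identity of functions. -/
lemma apply_gr_mul (γ : GL (Fin 2) EI) (M : GN (3 * E)) :
    W (gr (3 * (3 * E)) γ * M) = twist (W M) (gr (3 * (3 * E)) γ) := funext fun X => by
  rw [twist_eq (hW.per M) (m := ((γ⁻¹ : GL (Fin 2) EI) : Matrix (Fin 2) (Fin 2) EI))
    (by rw [← map_inv, gr_coe]), ← hW.smul γ M (dact _ X), ← dact_mul, Units.mul_inv, dact_one]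

/-- A family of periodic functions is bounded. -/
lemma exists_bound : ∃ B, 0 ≤ B ∧ ∀ M X, ‖W M X‖ ≤ B := by
  choose B hB0 hB using fun M => (hW.per M).exists_bound
  exact ⟨∑ M, B M, Finset.sum_nonneg fun M _ => hB0 M, fun M X => (hB M X).trans
    (Finset.single_le_sum (fun N _ => hB0 N) (Finset.mem_univ M))⟩

/-- A periodic equivariant family is bounded and equivariant. -/
lemma eqv : IsEqv W := ⟨hW.exists_bound, hW.smul⟩

/-- The phases. -/
lemma tph : IsFam fun M => tph (3 * E) (W M) where
  per M := (hW.per M).tph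
  smul γ M X := by
    simp only [apply_gr_mul hW, tph_twist (W M) (ndet_gr (N := 3 * E) γ)]
    rw [twist_eq (hW.per M).tph (m := ((γ⁻¹ : GL (Fin 2) EI) : Matrix (Fin 2) (Fin 2) EI))
      (by rw [← map_inv, gr_coe]), ← dact_mul, Units.inv_mul, dact_one]

/-- The Fourier transform. -/
lemma fou : IsFam fun M => fou (3 * E) (W M) where
  per M := per_fou (W M)
  smul γ M X := by
    simp only [apply_gr_mul hW, fou_twist (hW.per M) (ndet_gr (N := 3 * E) γ)]
    rw [twist_eq (per_fou (W M)) (m := ((γ⁻¹ : GL (Fin 2) EI) : Matrix (Fin 2) (Fin 2) EI))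
      (by rw [← map_inv, gr_coe]), ← dact_mul, Units.inv_mul, dact_one]

end IsFam

/-- A scalar with the class of the norm of the determinant. -/
noncomputable def nu (M : GN (3 * E)) : ℤ := ((ndet M).val : ℤ)

/-- The scalar has the class of the norm of the determinant. -/
lemma cast_nu (M : GN (3 * E)) : ((nu M : ℤ) : ZMod (3 * (3 * E))) = ndet M := by
  rw [nu, Int.cast_natCast, ZMod.natCast_zmod_val]

/-- The family of a periodic function. -/
noncomputable def tw (Ψ : Lz → ℂ) : Fam E := fun M X => Ψ (nu M • dact (liftM (M⁻¹).val) X)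

/-- Scaling a matrix by `c` scales the action by the norm of `c`. -/
lemma smul_dact (c : EI) (n : ℤ) (m : Matrix (Fin 2) (Fin 2) EI) (X : Lz)
    (hn : QuadraticAlgebra.norm c = n) : dact (c • m) X = n • dact m X := by
  rw [show c • m = Matrix.diagonal (fun _ => c) * m by
    rw [← Matrix.smul_one_eq_diagonal, Matrix.smul_mul, one_mul], dact_mul]
  generalize dact m X = Y
  subst hn
  simp [dact, bImg, dotE, bY, QuadraticAlgebra.norm_def, Prod.ext_iff, Matrix.diagonal]
  refine ⟨?_, ⟨?_, ?_⟩, ?_⟩ <;> ring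

/-- The family of a periodic function is compatible with every invertible matrix. -/
theorem isHFam_tw {Ψ : Lz → ℂ} (hΨ : LT3.Per (3 * E) Ψ) : IsHFam (tw (E := E) Ψ) := by
  have hper : ∀ M, LT3.Per (3 * E) (tw (E := E) Ψ M) := fun M X μ => by
    change Ψ _ = Ψ _
    rw [dact_add, dact_smul, dact_lam, smul_add, smul_comm]
    rw [show nu M • lam (lact (liftM (M⁻¹).val) μ) = lam (nu M • lact (liftM (M⁻¹).val) μ) from by
      simp [lam, Prod.ext_iff]; constructor <;> ring, hΨ]
  -- scalars only matter modulo `3 (3 E)`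
  have hscal : ∀ {a b : ℤ}, (a : ZMod (3 * (3 * E))) = b → ∀ Z, Ψ (a • Z) = Ψ (b • Z) := by
    intro a b hab Z
    obtain ⟨k, hk⟩ := (ZMod.intCast_eq_intCast_iff_dvd_sub _ _ _).1 hab
    refine hΨ.eq_of_red (red4_of_red34 ?_)
    rw [show b • Z = a • Z + ((3 * (3 * E) : ℕ) : ℤ) • (k • Z) by
      rw [smul_smul, ← add_smul, ← hk, add_sub_cancel], red34_add]
  -- translating by a lift `m` of `g` is the action of the adjugate
  have hadj : ∀ (m : Matrix (Fin 2) (Fin 2) EI) (g M : GN (3 * E)),
      m.map (red (3 * (3 * E))) = g.val → ∀ X,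
        tw Ψ (g * M) X = tw Ψ M (dact m.adjugate X) := by
    intro m g M hm X
    obtain ⟨e, he⟩ := red_surjective (3 * (3 * E)) (g⁻¹).val.det
    set L := liftM (M⁻¹).val
    have hl : (e • (L * m.adjugate)).map (red (3 * (3 * E))) = ((g * M)⁻¹).val := by
      refine (Units.inv_eq_of_mul_eq_one_left ?_).symm
      rw [show (e • (L * m.adjugate)).map (red (3 * (3 * E)))
          = (g⁻¹).val.det • ((M⁻¹).val * (g.val).adjugate) by
        rw [Matrix.map_smul' _ _ _ (map_mul _), Matrix.map_mul, red_liftM, he, ← hm,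
          ← RingHom.mapMatrix_apply, ← RingHom.mapMatrix_apply, RingHom.map_adjugate],
        Units.val_mul, Matrix.smul_mul, Matrix.mul_assoc, ← Matrix.mul_assoc g.val.adjugate,
        Matrix.adjugate_mul, Matrix.smul_mul, Matrix.one_mul, Matrix.mul_smul, smul_smul,
        ← Units.val_mul M⁻¹, inv_mul_cancel, Units.val_one, ← Matrix.det_mul, ← Units.val_mul,
        inv_mul_cancel, Units.val_one, Matrix.det_one, one_smul]
    have hn : ((QuadraticAlgebra.norm e : ℤ) : ZMod (3 * (3 * E))) = ndet g⁻¹ := by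
      rw [← norm_red, he]; rfl
    -- replace `e L adj(m)` by the lift of `(g M)⁻¹`, congruent to it
    obtain ⟨Z, hZ⟩ := exists_of_red34 (red34_congr (N := 3 * E) (m := e • (L * m.adjugate))
      (m' := liftM ((g * M)⁻¹).val) (by rw [hl, red_liftM]) X)
    change Ψ (nu (g * M) • _) = Ψ (nu M • _)
    rw [hZ, smul_dact e _ _ _ rfl, smul_add, smul_comm (nu (g * M)) ((3 * (3 * E) : ℕ) : ℤ),
      hΨ.eq_of_red (red4_of_red34 (red34_add _ _)), smul_smul,
      hscal (b := nu M) (by rw [Int.cast_mul, cast_nu, cast_nu, hn, ndet_mul, mul_right_comm,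
        ← ndet_mul, mul_inv_cancel, ndet_one, one_mul]), dact_mul]
  exact
    { per := hper
      smul := fun γ M X => by
        rw [hadj γ.val _ M (gr_coe _ _).symm, ← dact_mul, Matrix.adjugate_mul,
          smul_dact _ _ _ _ (norm_det_unit γ), dact_one, one_smul]
      adj := hadj }

end Fermat.LTG.W1
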