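import Fermat.Agent.LTG.W1.Galois

/-!
# Weight one: degree one primes of the field of a cyclic group of order six

For `H = ⟨-u⟩` with `u` unipotent the number of primes of norm `p` in the fixed field of `H` is the
number of `g` with `g x g⁻¹ ∈ H` divided by six, `x` being a Frobenius at `p`.
-/

set_option autoImplicit false
set_option linter.constructorNameAsVariable false
open NumberField Fermat.CFT Matrix
open scoped Classical Pointwise

local notation "Γℚ" => (AlgebraicClosure ℚ ≃ₐ[ℚ] AlgebraicClosure ℚ)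
local notation "ℚbar" => AlgebraicClosure ℚ
local notation "G₃" => GL (Fin 2) (ZMod 3)

namespace Fermat.LTG.W1
open Fermat.LT Fermat.LT.Theta.Gal

/-- `-u`. -/
def negU : G₃ :=
  ⟨!![-1, -1; 0, -1], !![-1, 1; 0, -1], by decide, by decide⟩

/-- The group of order six. -/
def h6 : Subgroup G₃ := Subgroup.zpowers negU

/-- The group has order six. -/
lemma card_h6 : Nat.card h6 = 6 := by
  rw [h6, Nat.card_zpowers]
  refine (orderOf_eq_iff (by norm_num)).2 ⟨by decide, fun m hm h0 => ?_⟩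
  interval_cases m <;> decide

/-- The group consists of upper triangular matrices of determinant one. -/
lemma h6_shape {g : G₃} (hg : g ∈ h6) :
    (g : Matrix (Fin 2) (Fin 2) (ZMod 3)) 1 0 = 0 ∧
      (g : Matrix (Fin 2) (Fin 2) (ZMod 3)).det = 1 := by
  rw [h6, ← mem_powers_iff_mem_zpowers] at hg
  obtain ⟨k, rfl⟩ := hg
  beta_reduce
  induction k with
  | zero => simp
  | succ k ih =>
    rw [pow_succ, Units.val_mul, Matrix.det_mul, Matrix.mul_apply, Fin.sum_univ_two, ih.1, ih.2,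
      zero_mul, zero_add, one_mul]
    refine ⟨?_, ?_⟩
    · rw [show (negU : Matrix (Fin 2) (Fin 2) (ZMod 3)) 1 0 = 0 from rfl, mul_zero]
    · decide

/-- The value at `(c, d)` of the lower left entry of a conjugate of `(e, f; h, i)`. -/
def lowE (e f h i c d : ZMod 3) : ZMod 3 := c * e * d + d * d * h - c * c * f - c * d * i

/-- Conjugators up to order. -/
def conjs (e f h i : ZMod 3) : Finset ((ZMod 3 × ZMod 3) × ZMod 3 × ZMod 3) :=
  Finset.univ.filter fun q =>
    q.1.1 * q.2.2 - q.1.2 * q.2.1 ≠ 0 ∧ lowE e f h i q.2.1 q.2.2 = 0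

/-- The number of conjugators, by enumeration. -/
lemma conjs_table : ∀ e f h i : ZMod 3, e * i - f * h = 1 →
    (conjs e f h i).card ≤
      if f = 0 ∧ h = 0 ∧ e = i then 48 else if e + i = 0 then 0 else 12 := by
  decide +kernel

/-- An element of nonzero trace in `SL₂(𝔽₃)` has cube `±1`, by enumeration. -/
lemma cube_table : ∀ e f h i : ZMod 3, e * i - f * h = 1 → e + i ≠ 0 →
    let m : Matrix (Fin 2) (Fin 2) (ZMod 3) := !![e, f; h, i]
    m * m * m = 1 ∨ m * m * m = -1 := by
  decide +kernel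

/-- The conjugators: invertible with the lower left entry of the conjugate zero. -/
lemma mem_conjs {e f h i : ZMod 3} {q : (ZMod 3 × ZMod 3) × ZMod 3 × ZMod 3} :
    q ∈ conjs e f h i ↔ q.1.1 * q.2.2 - q.1.2 * q.2.1 ≠ 0 ∧ lowE e f h i q.2.1 q.2.2 = 0 :=
  (Finset.mem_filter).trans (and_iff_right (Finset.mem_univ q))

attribute [irreducible] conjs

/-- The bound on the number of conjugators into `h6`. -/
noncomputable def h6Bd (x : G₃) : ℕ :=
  if (x : Matrix (Fin 2) (Fin 2) (ZMod 3)).det = 1 then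
    if (x : Matrix (Fin 2) (Fin 2) (ZMod 3)) = 1 ∨
      (x : Matrix (Fin 2) (Fin 2) (ZMod 3)) = -1 then 48
    else if InQ8 x then 0 else 12
  else 0

/-- The number of conjugators into the group of order six is bounded. -/
theorem card_conj_le (x : G₃) : Nat.card {g : G₃ // g * x * g⁻¹ ∈ h6} ≤ h6Bd x := by
  set m : Matrix (Fin 2) (Fin 2) (ZMod 3) := (x : Matrix (Fin 2) (Fin 2) (ZMod 3)) with hm
  rw [Nat.card_eq_fintype_card, Fintype.card_subtype, h6Bd]
  by_cases hd : m.det = 1
  swap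
  · rw [if_neg hd, Nat.le_zero, Finset.card_eq_zero]
    refine Finset.filter_eq_empty_iff.2 fun g _ hg => hd ?_
    have := (h6_shape hg).2
    rwa [Matrix.GeneralLinearGroup.coe_mul, Matrix.GeneralLinearGroup.coe_mul,
      Matrix.det_units_conj] at this
  rw [if_pos hd]
  have hd' : m 0 0 * m 1 1 - m 0 1 * m 1 0 = 1 := by rw [← hd, Matrix.det_fin_two]
  set φ : G₃ → (ZMod 3 × ZMod 3) × ZMod 3 × ZMod 3 := fun g =>
    ((g.val 0 0, g.val 0 1), g.val 1 0, g.val 1 1) with hφ
  have htab := conjs_table (m 0 0) (m 0 1) (m 1 0) (m 1 1) hd'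
  -- inject the conjugators into the table
  refine le_trans (Finset.card_le_card_of_injOn (t := conjs (m 0 0) (m 0 1) (m 1 0) (m 1 1)) φ
    (fun g hg => ?_) fun g _ g' _ e => ?_) (htab.trans (le_of_eq ?_))
  · rw [Finset.mem_coe, Finset.mem_filter] at hg
    rw [Finset.mem_coe, mem_conjs]
    obtain ⟨-, hg⟩ := hg
    have h0 := (h6_shape hg).1
    have hu : IsUnit g.val.det := (Matrix.GeneralLinearGroup.det g).isUnit
    refine ⟨?_, ?_⟩
    · rw [Matrix.det_fin_two] at hu; exact hu.ne_zero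
    rw [Units.val_mul, Units.val_mul, Matrix.coe_units_inv, Matrix.inv_def, Matrix.mul_smul,
      Matrix.smul_apply, smul_eq_mul, Ring.inverse_eq_inv] at h0
    rcases mul_eq_zero.1 h0 with h | h
    · exact absurd (inv_eq_zero.1 h) hu.ne_zero
    rw [Matrix.adjugate_fin_two] at h
    simp [Matrix.mul_apply, Fin.sum_univ_two] at h
    simp only [hφ, lowE]
    linear_combination h
  · simp only [hφ, Prod.mk.injEq] at e
    refine Units.ext (Matrix.ext fun i j => ?_)
    fin_cases i <;> fin_cases j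
    exacts [e.1.1, e.1.2, e.2.1, e.2.2]
  · -- compare the two bounds
    have hq : InQ8 x ↔ (m 0 0 + m 1 1 = 0 ∨ (m = 1 ∨ m = -1)) := by
      rw [InQ8, ← Matrix.trace_fin_two m]
      exact and_iff_right hd
    have hc : (m 0 1 = 0 ∧ m 1 0 = 0 ∧ m 0 0 = m 1 1) ↔ (m = 1 ∨ m = -1) := by
      constructor
      · rintro ⟨h1, h2, h3⟩
        rw [h1, h2, ← h3, mul_zero, sub_zero] at hd'
        rcases mul_self_eq_one_iff.1 hd' with e | e
        · left; refine Matrix.ext fun i j => ?_
          fin_cases i <;> fin_cases j <;> simp [h1, h2, ← h3, e]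
        · right; refine Matrix.ext fun i j => ?_
          fin_cases i <;> fin_cases j <;> simp [h1, h2, ← h3, e]
      · rintro (e | e) <;> simp [e]
    rw [if_congr hc rfl rfl]
    split_ifs with h1 h2 h3 h3
    · rfl
    · rfl
    · exact absurd (hq.2 (Or.inl h2)) h3
    · exact absurd ((hq.1 h3).resolve_right h1) h2
    · rfl

/-- A determinant one matrix outside `Q₈` cubes to `±1`. -/
theorem cube_eq {x : G₃} (hd : (x : Matrix (Fin 2) (Fin 2) (ZMod 3)).det = 1) (h8 : ¬ InQ8 x) :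
    ((x ^ 3 : G₃) : Matrix (Fin 2) (Fin 2) (ZMod 3)) = 1 ∨
      ((x ^ 3 : G₃) : Matrix (Fin 2) (Fin 2) (ZMod 3)) = -1 := by
  set m : Matrix (Fin 2) (Fin 2) (ZMod 3) := (x : Matrix (Fin 2) (Fin 2) (ZMod 3)) with hm
  have hd' : m 0 0 * m 1 1 - m 0 1 * m 1 0 = 1 := by rw [← hd, Matrix.det_fin_two]
  have ht : m 0 0 + m 1 1 ≠ 0 := fun e => h8 ⟨hd, Or.inl (by rw [Matrix.trace_fin_two]; exact e)⟩
  have h := cube_table _ _ _ _ hd' ht
  simp only [← Matrix.eta_fin_two m] at h
  rw [Units.val_pow_eq_pow_val, pow_succ, pow_two]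
  exact h

section Count

variable {L : Type*} [Field L] [NumberField L] [IsGalois ℚ L]

omit [IsGalois ℚ L] in
/-- A conjugate of a Frobenius is a Frobenius at the moved prime. -/
lemma isFrobeniusMod_conj {p : ℕ} {Q : Ideal (𝓞 L)} {φ : L ≃ₐ[ℚ] L} (h : IsFrobeniusMod φ Q p)
    (g : L ≃ₐ[ℚ] L) : IsFrobeniusMod (g * φ * g⁻¹) (g • Q) p := fun x => by
  have h1 := Ideal.smul_mem_pointwise_smul g _ _ (h (g⁻¹ • x))
  rwa [smul_sub, smul_pow', smul_inv_smul, ← mul_smul, ← mul_smul] at h1

/-- **Degree one primes of a fixed field and conjugators.** `|H|` times the number of degree one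
primes over `p` is at most the number of conjugators of a Frobenius into `H`. -/
theorem card_mul_idealCount_le (H : Subgroup (L ≃ₐ[ℚ] L)) {p : ℕ} (hp : p.Prime)
    (hgood : p ∉ exceptionalPrimes L) {Q0 : Ideal (𝓞 L)} (hQ0 : Q0.IsPrime)
    (hpQ0 : (p : 𝓞 L) ∈ Q0) {φ : L ≃ₐ[ℚ] L} (hφ : IsFrobeniusMod φ Q0 p) :
    Nat.card H * idealCount (IntermediateField.fixedField H) p
      ≤ Nat.card {g : L ≃ₐ[ℚ] L // g * φ * g⁻¹ ∈ H} := by
  -- the left side is the sum of the orders of Frobenius over the primes with Frobenius in `H`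
  rw [← sum_orderOf_frobPrimes H hp hgood, Nat.card_eq_fintype_card, Fintype.card_subtype]
  set F := frobPrimes L hp (H : Set (L ≃ₐ[ℚ] L))
  set S := Finset.univ.filter fun g : L ≃ₐ[ℚ] L => g * φ * g⁻¹ ∈ H
  -- for such a prime `Q = g Q0` the coset `g ⟨φ⟩` lies in the fibre over `Q`
  have key : ∀ Q ∈ F, orderOf (frobMod L Q p) ≤ (S.filter fun g => g • Q0 = Q).card := by
    intro Q hQ
    obtain ⟨⟨hQp, hpQ⟩, hH⟩ := (mem_frobPrimes hp).1 hQ
    obtain ⟨g, hg⟩ := Algebra.IsInvariant.exists_smul_of_under_eq ℤ (𝓞 L) (L ≃ₐ[ℚ] L) Q0 Q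
      ((under_int_eq_span hp hQ0 hpQ0).trans (under_int_eq_span hp hQp hpQ).symm)
    have hc := isFrobeniusMod_conj hφ g
    rw [← hg] at hc
    have he : frobMod L Q p = g * φ * g⁻¹ :=
      mul_inv_eq_one.mp (inertia_eq_one hp hgood hQp hpQ fun y => by
        simpa [mul_smul] using Q.sub_mem (isFrobeniusMod_frobMod hp hQp hpQ ((g * φ * g⁻¹)⁻¹ • y))
          (hc ((g * φ * g⁻¹)⁻¹ • y)))
    have hs : φ • Q0 = Q0 := hφ.smul_eq hQ0
    rw [show orderOf (frobMod L Q p) = orderOf φ by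
      rw [he, ← MulAut.conj_apply, MulEquiv.orderOf_eq], ← Nat.card_zpowers,
      Nat.card_eq_fintype_card, ← Finset.card_univ]
    refine Finset.card_le_card_of_injOn (fun k => g * (k : L ≃ₐ[ℚ] L)) (fun k _ => ?_)
        fun a _ b _ e =>
      Subtype.ext (mul_left_cancel e)
    obtain ⟨k, hk⟩ := k
    have hcomm : k * φ * k⁻¹ = φ := by
      obtain ⟨n, rfl⟩ := hk
      change φ ^ n * φ * (φ ^ n)⁻¹ = φ
      rw [(Commute.zpow_self φ n).eq, mul_inv_cancel_right]
    refine Finset.mem_filter.2 ⟨Finset.mem_filter.2 ⟨Finset.mem_univ _, ?_⟩, ?_⟩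
    · change g * k * φ * (g * k)⁻¹ ∈ H
      rw [show g * k * φ * (g * k)⁻¹ = g * (k * φ * k⁻¹) * g⁻¹ by group, hcomm, ← he]
      exact hH
    · change (g * k) • Q0 = Q
      rw [mul_smul, show k • Q0 = Q0 from
        (Subgroup.zpowers_le.2 (MulAction.mem_stabilizer_iff.2 hs) hk :), ← hg]
  -- and the fibres are disjoint
  calc ∑ Q ∈ F, orderOf (frobMod L Q p)
      ≤ ∑ Q ∈ F, (S.filter fun g => g • Q0 = Q).card := Finset.sum_le_sum key
    _ ≤ S.card := by
        rw [← Finset.card_biUnion fun a _ b _ hab => Finset.disjoint_filter.2 fun g _ h1 h2 =>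
          hab (h1.symm.trans h2)]
        exact Finset.card_le_card (Finset.biUnion_subset.2 fun Q _ => Finset.filter_subset _ _)

end Count

section NField

variable {ρ : Γℚ →* G₃} [NumberField (LT.Theta.Gal.nField ρ)] [Normal ℚ (LT.Theta.Gal.nField ρ)]

/-- The subgroup of the group of the field. -/
noncomputable def hN (hρ : GenRho ρ) :
    Subgroup (LT.Theta.Gal.nField ρ ≃ₐ[ℚ] LT.Theta.Gal.nField ρ) :=
  h6.comap (nEquiv hρ.continuous hρ.surjective).toMonoidHom

/-- The count of degree one primes. -/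
noncomputable def cnt6 (hρ : GenRho ρ) (p : ℕ) : ℕ :=
  idealCount (IntermediateField.fixedField (hN hρ)) p

/-- **The count in terms of Frobenius.** Six times the number of degree one primes over a good `p`
in the fixed field is at most `h6Bd` of a Frobenius at `p`. -/
theorem six_mul_cnt6_le (hρ : GenRho ρ) {p : ℕ} (hp : p.Prime)
    (hgood : p ∉ exceptionalPrimes (LT.Theta.Gal.nField ρ)) {A : ValuationSubring ℚbar}
    (hA : A.LiesOverPrime p) {φ : Γℚ} (hφ : A.IsFrobeniusAt φ p) :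
    6 * cnt6 hρ p ≤ h6Bd (ρ φ) := by
  set N := LT.Theta.Gal.nField ρ
  have : IsGalois ℚ N := isGalois_nField hρ.continuous
  have h := card_mul_idealCount_le (hN hρ) hp hgood (primeBelow_isPrime N A)
    (natCast_mem_primeBelow N hA) (isFrobeniusMod_restrict N hp hA hφ)
  rw [show Nat.card (hN hρ) = 6 by
    rw [← card_h6]
    exact Nat.card_congr
      ((nEquiv hρ.continuous hρ.surjective).toEquiv.subtypeEquiv fun g => Iff.rfl)] at h
  refine h.trans (le_of_eq_of_le ?_ (card_conj_le (ρ φ)))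
  refine Nat.card_congr ((nEquiv hρ.continuous hρ.surjective).toEquiv.subtypeEquiv fun g => ?_)
  change nEquiv hρ.continuous hρ.surjective (g * AlgEquiv.restrictNormalHom N φ * g⁻¹) ∈ h6 ↔ _
  rw [map_mul, map_mul, map_inv, nEquiv_restrict hρ.continuous hρ.surjective]
  rfl

end NField

end Fermat.LTG.W1
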