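import Fermat.Agent.LTG.W1.Bridge
import Fermat.Agent.LTG.Gal.Fields
import Fermat.Agent.LT3.Main.Frob

/-!
# Weight one: eigenvalues at the good places through Frobenius elements

At a prime `p` prime to `3E` all Frobenius elements are conjugate in the image; the eigenvalue at a
place of `K` over `p` is the lift of the trace of a power of one of them, or a root of the cubic.
-/

set_option autoImplicit false
open IsDedekindDomain NumberField Fermat.CFT
open scoped Classical Pointwise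

local notation "Γℚ" => (AlgebraicClosure ℚ ≃ₐ[ℚ] AlgebraicClosure ℚ)
local notation "ℚbar" => AlgebraicClosure ℚ

namespace Fermat.LTG.W1
open Fermat.LT Fermat.LT3 Fermat.LT.Theta.Gal

/-- A place of `ℚ̄` over a place of a number field. -/
theorem exists_place_above {L : Type} [Field L] [NumberField L] (ι : L →+* ℚbar) (w : Place L)
    {p : ℕ} (hpw : (p : 𝓞 L) ∈ w.asIdeal) :
    ∃ A : ValuationSubring ℚbar, A.LiesOverPrime p ∧ Under ι A w := by
  set φ : 𝓞 L →+* ℚbar := (algebraMap (𝓞 ℚbar) ℚbar).comp (RingOfIntegers.mapRingHom ι) with hφ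
  have hinj : Function.Injective φ := fun x y h => RingOfIntegers.ext (ι.injective h)
  have hne : w.asIdeal.map φ.rangeRestrict ≠ ⊤ := by
    have hb : Function.Bijective φ.rangeRestrict :=
      ⟨fun x y h => hinj (by have h2 := congrArg Subtype.val h; exact h2),
        φ.rangeRestrict_surjective⟩
    intro h
    apply w.isPrime.ne_top
    rw [← Ideal.comap_map_of_bijective _ hb (I := w.asIdeal), h, Ideal.comap_top]
  obtain ⟨B, -, hB⟩ := Ideal.image_subset_nonunits_valuationSubring _ hne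
  have hsub : w.asIdeal ≤ (primeOf B).comap (RingOfIntegers.mapRingHom ι) := fun x hx => by
    rw [Ideal.mem_comap, mem_primeOf]
    exact hB ⟨φ.rangeRestrict x, Ideal.mem_map_of_mem _ hx, rfl⟩
  have e := w.isMaximal.eq_of_le (Ideal.IsPrime.comap _).ne_top hsub
  refine ⟨B, ?_, fun x => by rw [e]; rfl⟩
  have := hsub hpw
  rw [Ideal.mem_comap, map_natCast] at this
  exact liesOverPrime_iff.mpr this

variable {K L : Type} [Field K] [NumberField K] [Field L] [NumberField L] [Algebra K L]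
  {ρ : Γℚ →* GL (Fin 2) (ZMod 3)} {ι : L →+* ℚbar} {σ : L ≃ₐ[K] L}

/-- A Frobenius attached to a place of `K`. -/
theorem exists_frob_over (ι : L →+* ℚbar) (v : Place K) {p : ℕ} (hp : p.Prime)
    (hv : (p : 𝓞 K) ∈ v.asIdeal) :
    ∃ (B : ValuationSubring ℚbar) (w : Place L) (φ : Γℚ), B.LiesOverPrime p ∧ Under ι B w ∧
      (p : 𝓞 L) ∈ w.asIdeal ∧ below K w = v ∧ B.IsFrobeniusAt φ p := by
  obtain ⟨Q, hQ, hQv⟩ :=
    Ideal.exists_ideal_over_prime_of_isIntegral_of_isDomain (S := 𝓞 L) v.asIdeal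
    (by rw [RingHom.ker_eq_bot_iff_eq_zero _ |>.2 fun x hx =>
      FaithfulSMul.algebraMap_injective (𝓞 K) (𝓞 L) (hx.trans (map_zero _).symm)]; exact bot_le)
  have hpQ : (p : 𝓞 L) ∈ Q := by
    rw [← hQv, Ideal.mem_comap, map_natCast] at hv; exact hv
  set w : Place L := ⟨Q, hQ, ne_bot_of_natCast_mem hp hpQ⟩
  obtain ⟨B, hB, hw⟩ := exists_place_above ι w hpQ
  obtain ⟨φ, hφ⟩ := exists_isFrobeniusAt hp hB
  exact ⟨B, w, φ, hB, hw, hpQ, HeightOneSpectrum.ext hQv, hφ⟩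

section Class

variable [NumberField (LT.Theta.Gal.nField ρ)] [Normal ℚ (LT.Theta.Gal.nField ρ)]

/-- **The class of Frobenius is well defined.** -/
theorem frob_conj (hρ : GenRho ρ) {p : ℕ} (hp : p.Prime)
    (hgood : p ∉ exceptionalPrimes (LT.Theta.Gal.nField ρ)) {A B : ValuationSubring ℚbar}
    (hA : A.LiesOverPrime p) (hB : B.LiesOverPrime p) {φ ψ : Γℚ} (hφ : A.IsFrobeniusAt φ p)
    (hψ : B.IsFrobeniusAt ψ p) : ∃ g : GL (Fin 2) (ZMod 3), ρ ψ = g * ρ φ * g⁻¹ := by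
  set N := LT.Theta.Gal.nField ρ
  have : IsGalois ℚ N := isGalois_nField hρ.continuous
  obtain ⟨g, hg⟩ := Algebra.IsInvariant.exists_smul_of_under_eq ℤ (𝓞 N) (N ≃ₐ[ℚ] N)
    (primeBelow N A) (primeBelow N B)
    ((under_int_eq_span hp inferInstance (natCast_mem_primeBelow N hA)).trans
      (under_int_eq_span hp inferInstance (natCast_mem_primeBelow N hB)).symm)
  have h1 := isFrobeniusMod_restrict N hp hA hφ
  have h2 : IsFrobeniusMod (g * AlgEquiv.restrictNormalHom N φ * g⁻¹) (primeBelow N B) p :=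
      fun x => by
    have h := Ideal.smul_mem_pointwise_smul g _ _ (h1 (g⁻¹ • x))
    rw [← hg, smul_sub, smul_pow', smul_inv_smul, ← mul_smul, ← mul_smul] at h
    exact h
  have h3 := isFrobeniusMod_unique N hp hgood inferInstance (natCast_mem_primeBelow N hB)
    (isFrobeniusMod_restrict N hp hB hψ) h2
  refine ⟨nEquiv hρ.continuous hρ.surjective g, ?_⟩
  rw [← nEquiv_restrict hρ.continuous hρ.surjective ψ,
    ← nEquiv_restrict hρ.continuous hρ.surjective φ, h3, map_mul, map_mul, map_inv]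

end Class

/-- The primes prime to `3E` are good. -/
structure GoodE (K L : Type) [Field K] [NumberField K] [Field L] [NumberField L] [Algebra K L]
    (ρ : Γℚ →* GL (Fin 2) (ZMod 3)) [NumberField (LT.Theta.Gal.nField ρ)] (ZL : Set (Place L))
    (S : Lev K) (Z : Set (Place K)) (E : ℕ) : Prop where
  /-- The places of `K` over primes prime to `3E` avoid `S`, `Z` and the ramified set. -/
  placeK : ∀ p : ℕ, p.Prime → Nat.Coprime p (3 * E) → ∀ v : Place K, (p : 𝓞 K) ∈ v.asIdeal →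
    v ∉ S ∧ v ∉ Z ∧ v ∉ ramSet K L
  /-- The places of `L` over primes prime to `3E` avoid `ZL`. -/
  placeL : ∀ p : ℕ, p.Prime → Nat.Coprime p (3 * E) → ∀ w : Place L, (p : 𝓞 L) ∈ w.asIdeal → w ∉ ZL
  /-- The primes prime to `3E` are not exceptional for the field of `ρ`. -/
  exc : ∀ p : ℕ, p.Prime → Nat.Coprime p (3 * E) → p ∉ exceptionalPrimes (LT.Theta.Gal.nField ρ)

/-- The clause on the lift of the eigenvalues. -/
def Lifts (S : Lev K) (Z : Set (Place K)) (lam : Place L → ℝ) (lamK : Place K → ℝ) : Prop :=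
  ∀ v : Place K, v ∉ S → v ∉ Z → ∀ w : Place L, LT.LiesOver K L w v →
    (LT.pnorm w = LT.pnorm v → lam w = lamK v) ∧
    (LT.pnorm w ≠ LT.pnorm v → lam w = lamK v ^ 3 - 3 * (LT.pnorm v : ℝ) * lamK v)

variable [NumberField (LT.Theta.Gal.nField ρ)] {ZL : Set (Place L)} {lam : Place L → ℝ}
  {S : Lev K} {Z : Set (Place K)} {lamK : Place K → ℝ} {E : ℕ}

/-- **The eigenvalue below a place of `ℚ̄`.** -/
theorem eigen_below (hF : FieldData K L ρ ι) (hc : Cyc3 K L σ) (D : KData K)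
    (hE : IsRhoEigenOff L ρ ι ZL lam) (hl : Lifts S Z lam lamK) (hG : GoodE K L ρ ZL S Z E)
    {p : ℕ} (hp : p.Prime) (hco : Nat.Coprime p (3 * E)) {A : ValuationSubring ℚbar}
    (hA : A.LiesOverPrime p) {w : Place L} (hw : Under ι A w) (hpw : (p : 𝓞 L) ∈ w.asIdeal)
    {φ : Γℚ} (hφ : A.IsFrobeniusAt φ p) :
    (InQ8 (ρ (φ ^ fdeg p)) → lamK (below K w)
        = Real.sqrt ((p ^ fdeg p : ℕ) : ℝ) * (liftTr (ρ (φ ^ fdeg p)) : ℝ)) ∧
    (¬ InQ8 (ρ (φ ^ fdeg p)) → lamK (below K w) ^ 3 - 3 * ((p ^ fdeg p : ℕ) : ℝ) * lamK (below K w)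
        = Real.sqrt (((p ^ fdeg p : ℕ) : ℝ) ^ 3) * (liftTr (ρ (φ ^ fdeg p) ^ 3) : ℝ)) := by
  obtain ⟨hS, hZ, hram⟩ := hG.placeK p hp hco _ (natCast_mem_below (K := K) hpw)
  exact eigen_cases hF hc D hp (ne_three_of_coprime hco) hA hw hpw hφ hram
    (hl _ hS hZ w (liesOver_below w))
    (hE w (hG.placeL p hp hco w hpw) A fun x => hw.nonunits x)

/-- **Bound, and sign at the inert places.** -/
theorem lam_over (hF : FieldData K L ρ ι) (hc : Cyc3 K L σ) (D : KData K)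
    (hE : IsRhoEigenOff L ρ ι ZL lam) (hl : Lifts S Z lam lamK) (hG : GoodE K L ρ ZL S Z E)
    {p : ℕ} (hp : p.Prime) (hco : Nat.Coprime p (3 * E)) {v : Place K}
    (hv : (p : 𝓞 K) ∈ v.asIdeal) :
    |lamK v| ≤ 2 * Real.sqrt ((p ^ fdeg p : ℕ) : ℝ) ∧ (p % 3 ≠ 1 → 0 ≤ lamK v) := by
  obtain ⟨B, w, φ, hB, hw, hpw, rfl, hφ⟩ := exists_frob_over ι v hp hv
  have hp3 := ne_three_of_coprime hco
  obtain ⟨h1, h2⟩ := eigen_below hF hc D hE hl hG hp hco hB hw hpw hφ
  constructor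
  · by_cases h8 : InQ8 (ρ (φ ^ fdeg p))
    · rw [h1 h8, abs_mul, abs_of_nonneg (Real.sqrt_nonneg _), mul_comm]
      exact mul_le_mul_of_nonneg_right (abs_liftTr_le _) (Real.sqrt_nonneg _)
    · exact abs_le_of_cubic (Nat.cast_pos.2 (pow_pos hp.pos _)) (abs_liftTr_le _) (h2 h8).symm
  · intro h3
    have hdet : Matrix.GeneralLinearGroup.det (ρ φ) ≠ 1 :=
      fun e => h3 ((det_frob_iff hF D hp hp3 hB hφ).1 e)
    obtain ⟨h8, h0⟩ := inQ8_square hdet
    rw [show fdeg p = 2 from if_neg h3, map_pow] at h1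
    rw [h1 h8]
    exact mul_nonneg (Real.sqrt_nonneg _) (Int.cast_nonneg h0)

end Fermat.LTG.W1
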