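import Fermat.Agent.LTG.W1.Vanish
import Fermat.Agent.LT3.Surj

/-!
# Weight one: every finite adelic point comes from a matrix modulo `9E`

`exists_smul_ptT` gives this, and `cl_one_ne_zero` deduces that the classical function does not
vanish.
-/

set_option autoImplicit false
open IsDedekindDomain NumberField Matrix
open scoped Classical

namespace Fermat.LTG.W1
open Fermat.LT Fermat.LT3

variable {K : Type*} [Field K] [NumberField K] {D : KData K} {E : ℕ} [NeZero E] {S : Lev K}
  {Z : Set (Place K)}

/-- Matrices modulo `9E` realise every family of integral matrices over `3E`. -/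
lemma exists_lift_family (k : Place K → GL (Fin 2) K)
    (hk : ∀ v, InT D E v → k v ∈ intGL (v.valuation K)) :
    ∃ M : GN (3 * E), ∀ v, InT D E v →
      (k v)⁻¹ * liftK D M ∈ congN (v.valuation K) (nT D E v) := by
  set T := (finite_inT D E).toFinset
  set n := T.sup (nT D E) + 1
  -- approximate the entries over `3E` by elements of `ℤ[ω]`
  choose y hy hy' using fun i j : Fin 2 => exists_approx T (fun v => (k v).val i j) n
  have hint : ∀ i j (v : Place K), v.valuation K (y i j) ≤ 1 := fun i j v => by
    by_cases hv : v ∈ T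
    · rw [← sub_add_cancel (y i j) ((k v).val i j)]
      exact ((v.valuation K).map_add _ _).trans (max_le ((hy i j v hv).trans (exp_neg_nat_le_one n))
        (v_entry_le_one _ (hk v ((finite_inT D E).mem_toFinset.1 hv)) i j))
    · exact hy' i j v hv
  choose r hr using fun i j =>
    HeightOneSpectrum.mem_integers_of_valuation_le_one (R := 𝓞 K) K (y i j) (hint i j)
  set a : Matrix (Fin 2) (Fin 2) EI := Matrix.of fun i j => D.e.symm (r i j) with ha
  have hay : ∀ i j, D.ι (a i j) = y i j := fun i j => by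
    rw [← hr i j]; simp [ha]
  have hclose : ∀ v, InT D E v → ∀ i j,
      v.valuation K (D.ι (a i j) - (k v).val i j) ≤ WithZero.exp (-(n : ℤ)) := fun v hv i j => by
    rw [hay]; exact hy i j v ((finite_inT D E).mem_toFinset.2 hv)
  have hlt : WithZero.exp (-(n : ℤ)) < (1 : WithZero (Multiplicative ℤ)) :=
    exp_neg_lt_one (by omega)
  -- the approximation is invertible modulo `9E`
  have hdet : IsUnit (a.map (red (3 * (3 * E)))).det := by
    refine isUnit_of_rMod D fun v hv => ?_
    have hvT : InT D E v := by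
      rw [Nat.cast_mul, map_mul] at hv
      rcases v.isPrime.mem_or_mem hv with h | h
      · rw [InT, Nat.cast_mul, map_mul]; exact v.asIdeal.mul_mem_right _ h
      · exact h
    rw [← RingHom.mapMatrix_apply, ← RingHom.map_det, rMod_red, Ne, rZ_eq_zero_iff]
    refine (v.valuation_eq_one_iff_notMem (K := K)).1 ?_
    have hkv := hk v hvT
    change v.valuation K (D.ι a.det) = 1
    have hd : v.valuation K (D.ι a.det - (k v).val.det) < 1 := by
      rw [Matrix.det_fin_two, Matrix.det_fin_two, map_sub D.ι, map_mul D.ι, map_mul D.ι,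
        show D.ι (a 0 0) * D.ι (a 1 1) - D.ι (a 0 1) * D.ι (a 1 0)
            - ((k v).val 0 0 * (k v).val 1 1 - (k v).val 0 1 * (k v).val 1 0)
          = ((D.ι (a 0 0) - (k v).val 0 0) * D.ι (a 1 1) + (k v).val 0 0 *
            (D.ι (a 1 1) - (k v).val 1 1))
            - ((D.ι (a 0 1) - (k v).val 0 1) * D.ι (a 1 0)
              + (k v).val 0 1 * (D.ι (a 1 0) - (k v).val 1 0)) by ring]
      have hA : ∀ i j p q, v.valuation K ((D.ι (a i j) - (k v).val i j) * D.ι (a p q)) < 1 :=
        fun i j p q => by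
          rw [map_mul]
          exact lt_of_le_of_lt (mul_le_of_le_one_right' (D.valuation_le_one v _))
            (lt_of_le_of_lt (hclose v hvT i j) hlt)
      have hB : ∀ i j p q, v.valuation K ((k v).val p q * (D.ι (a i j) - (k v).val i j)) < 1 :=
        fun i j p q => by
          rw [map_mul]
          exact lt_of_le_of_lt (mul_le_of_le_one_left' (v_entry_le_one _ hkv _ _))
            (lt_of_le_of_lt (hclose v hvT i j) hlt)
      exact lt_of_le_of_lt ((v.valuation K).map_sub _ _) (max_lt
        (lt_of_le_of_lt ((v.valuation K).map_add _ _) (max_lt (hA _ _ _ _) (hB _ _ _ _)))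
        (lt_of_le_of_lt ((v.valuation K).map_add _ _) (max_lt (hA _ _ _ _) (hB _ _ _ _))))
    rw [← sub_add_cancel (D.ι a.det) (k v).val.det, Valuation.map_add_eq_of_lt_right _
      (by rwa [v_det_intGL hkv]), v_det_intGL hkv]
  refine ⟨((Matrix.isUnit_iff_isUnit_det _).2 hdet).unit, fun v hv => ?_⟩
  refine inv_mul_mem_congN _ (hk v hv) (liftK_mem_intGL D hv _) fun i j => ?_
  set M : GN (3 * E) := ((Matrix.isUnit_iff_isUnit_det _).2 hdet).unit
  rw [liftK_val, Matrix.map_apply, show D.ι (liftM M.val i j) - (k v).val i j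
    = D.ι (liftM M.val i j - a i j) + (D.ι (a i j) - (k v).val i j) by rw [map_sub]; ring]
  refine ((v.valuation K).map_add _ _).trans (max_le ?_ ((hclose v hv i j).trans ?_))
  · have hm : M.val = a.map (red (3 * (3 * E))) := rfl
    obtain ⟨c, hc⟩ := (red_eq_zero_iff (3 * (3 * E)) (liftM M.val i j - a i j)).1 (by
      rw [map_sub, sub_eq_zero]
      exact (congrFun (congrFun (red_liftM M.val) i) j).trans (congrFun (congrFun hm i) j))
    rw [hc, Nat.cast_mul 3 (3 * E)]
    simp only [map_mul]
    rw [← val_N D E v]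
    exact (mul_le_of_le_one_right' (D.valuation_le_one v _)).trans
      (mul_le_of_le_one_left' (D.valuation_le_one v _))
  · rw [WithZero.exp_le_exp]
    have h1 : nT D E v ≤ T.sup (nT D E) := Finset.le_sup ((finite_inT D E).mem_toFinset.2 hv)
    omega

/-- **Every finite point is a translate of a classical one.** -/
theorem exists_smul_ptT (hB : BData D E S Z) (o : FinPt K S) :
    ∃ (g : GL (Fin 2) K) (M : GN (3 * E)), g • ptT D E (liftK D M) FinPt.base = o := by
  set T : Finset (Place K) :=
    (Filter.eventually_cofinite.1 o.2).toFinset ∪ (finite_inT D E).toFinset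
  obtain ⟨g, hout, hU⟩ := exists_upMat_U0 D T fun v => (o.1 v).out
  -- the classical part: scale and lift the residues
  have hfib : ∀ v, ∃ c : Kˣ, InT D E v →
      scal c * (g⁻¹ * (o.1 v).out) ∈ intGL (v.valuation K) := fun v => by
    by_cases hv : InT D E v
    · obtain ⟨c, hc⟩ := hU v (Finset.mem_union_right _ ((finite_inT D E).mem_toFinset.2 hv))
      exact ⟨c, fun _ => hc⟩
    · exact ⟨1, fun h => absurd h hv⟩
  choose c hc using hfib
  obtain ⟨M, hM⟩ := exists_lift_family (fun v => scal (c v) * (g⁻¹ * (o.1 v).out)) hc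
  refine ⟨g, M, eq_inv_smul_iff.1 (Subtype.ext (funext fun v => ?_))⟩
  rw [FinPt.smul_apply]
  conv_rhs => rw [← QuotientGroup.out_eq' (o.1 v), MulAction.Quotient.smul_coe, smul_eq_mul]
  by_cases hv : InT D E v
  · rw [ptT_of_mem hv, eq_comm, QuotientGroup.eq]
    have h1 := mem_lev_of_congN (hB.depth_le v) (hM v hv)
    have h2 := (lev S v).mul_mem (scal_mem_lev S v (c v)) h1
    rwa [show scal (c v) * ((scal (c v) * (g⁻¹ * (o.1 v).out))⁻¹ * liftK D M)
      = (g⁻¹ * (o.1 v).out)⁻¹ * liftK D M by
        rw [_root_.mul_inv_rev, ← mul_assoc (scal (c v)), ← mul_assoc (scal (c v)), scal_comm,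
          mul_inv_cancel_right]] at h2
  · have hvS : v ∉ S := fun h => hv (hB.inT h)
    rw [ptT_of_not hv, show (FinPt.base : FinPt K S).1 v = ((1 : GL (Fin 2) K) : Vert S v) from rfl,
      QuotientGroup.eq, inv_one, one_mul]
    refine (lev_of_not_mem hvS).ge ?_
    by_cases hvT : v ∈ T
    · exact hU v hvT
    · simp only [T, Finset.mem_union, Set.Finite.mem_toFinset, Set.mem_ofPred_eq, not_or,
        not_not] at hvT
      rw [hvT.1]
      obtain ⟨u, hu⟩ := QuotientGroup.mk_out_eq_mul (lev S v) (1 : GL (Fin 2) K)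
      rw [hu, one_mul]
      exact (U0 _).mul_mem ((U0 _).inv_mem (le_withScalars _ (hout v (by
        simp only [T, Finset.mem_union, Set.Finite.mem_toFinset, Set.mem_ofPred_eq, not_or, not_not]
        exact hvT)))) (lev_le_U0 S v u.2)

/-- **The classical function does not vanish.** -/
theorem cl_one_ne_zero [NumberField.IsTotallyComplex K] {lam : Place K → ℝ} {Φ : Pt K S → ℂ}
    (hB : BData D E S Z) (h : IsForm S Z lam Φ) :
    ∃ M w, cl D (one_ne_zero : (1 : EI) ≠ 0) {0} (1 : GN (3 * E)) Φ M w ≠ 0 := by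
  have := D.unique
  obtain ⟨w0⟩ := (inferInstance : Nonempty (InfinitePlace K))
  obtain ⟨⟨o, x⟩, hp⟩ := h.nonzero
  obtain ⟨g, M, hg⟩ := exists_smul_ptT hB o
  refine ⟨M, (atInf w0 g)⁻¹ • x w0, fun h00 => hp ?_⟩
  rw [cl_one hB] at h00
  rw [← h00, ← isInvariant_iff.1 h.invariant g
    (ptT D E (liftK D M) FinPt.base, fun _ => (atInf w0 g)⁻¹ • x w0)]
  congr 1
  refine Prod.ext hg.symm (funext fun u => ?_)
  change x u = atInf u g • (atInf w0 g)⁻¹ • x w0
  rw [Subsingleton.elim u w0, smul_inv_smul]

end Fermat.LTG.W1
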