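import Fermat.Agent.LTG.W1.BridgeAuto
import Fermat.Agent.LT3.Per.Four2
import Fermat.Agent.LT3.Per.Induct
import Fermat.Agent.LT3.Main.Conj

/-!
# Weight one: vanishing first coefficients kill the function

The first coefficient of the averaged translate by `[[d, 3E b], [0, 1]]` is
the coefficient at `d` of the function; the recursion along the primes prime to
the level does the rest.
-/

set_option autoImplicit false
set_option linter.unusedSectionVars false
open IsDedekindDomain NumberField Matrix MeasureTheory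
open scoped Classical

namespace Fermat.LTG.W1
open Fermat.LT Fermat.LT3

variable {K : Type*} [Field K] [NumberField K] [NumberField.IsTotallyComplex K] {D : KData K}
  {E : ℕ} [NeZero E] {S : Lev K} {Z : Set (Place K)} {lam : Place K → ℝ} {Φ : Pt K S → ℂ}

/-- A complete system of residues. -/
lemma exists_qreps (D : KData K) {d : EI} (hd : d ≠ 0) :
    ∃ R : Finset EI, R.Nonempty ∧ ∀ x : EI, ∃! u, u ∈ R ∧ d ∣ x - u := by
  have hde : D.e d ≠ 0 := fun e => hd (D.e.injective (e.trans (map_zero D.e).symm))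
  have : Finite (𝓞 K ⧸ Ideal.span {D.e d}) :=
    Ideal.finiteQuotientOfFreeOfNeBot _ (by rwa [Ne, Ideal.span_singleton_eq_bot])
  set f : (𝓞 K ⧸ Ideal.span {D.e d}) → EI := fun q =>
    D.e.symm (Function.surjInv Ideal.Quotient.mk_surjective q)
  have hf : ∀ q, Ideal.Quotient.mk _ (D.e (f q)) = q := fun q => by
    simp only [f, RingEquiv.apply_symm_apply]
    exact Function.surjInv_eq Ideal.Quotient.mk_surjective q
  have key : ∀ x u : EI, d ∣ x - u ↔
      Ideal.Quotient.mk (Ideal.span {D.e d}) (D.e x) = Ideal.Quotient.mk _ (D.e u) := fun x u => by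
    rw [Ideal.Quotient.eq, Ideal.mem_span_singleton, ← map_sub, map_dvd_iff]
  refine ⟨(Set.finite_range f).toFinset, ⟨f 0, by simp⟩, fun x => ?_⟩
  refine ⟨f (Ideal.Quotient.mk _ (D.e x)), ⟨by simp, (key _ _).2 (hf _).symm⟩, ?_⟩
  rintro u ⟨hu, hxu⟩
  obtain ⟨q, rfl⟩ := (Set.finite_range f).mem_toFinset.1 hu
  rw [(key _ _).1 hxu, hf]

/-- The trivial divisor. -/
lemma dData_one : DData D E 1 ({0} : Finset EI) where
  ne_zero := one_ne_zero
  reps x := ⟨0, ⟨Finset.mem_singleton_self _, one_dvd _⟩, fun _ h => Finset.mem_singleton.1 h.1⟩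
  supp v _ := by rw [map_one, map_one]

/-- Components agreeing over `3E` give the same point. -/
lemma ptT_tcong (hB : BData D E S Z) {g g' : GL (Fin 2) K} (h : TCong D E g g') (o : FinPt K S) :
    ptT D E g o = ptT D E g' o := by
  refine Subtype.ext (funext fun v => ?_)
  by_cases hv : InT D E v
  · rw [ptT_of_mem hv, ptT_of_mem hv]
    have h1 := hB.mk_mul g (h := 1) hv (intGL _).one_mem (h v hv)
    rwa [mul_one, mul_one, mul_inv_cancel_left, eq_comm] at h1
  · rw [ptT_of_not hv, ptT_of_not hv]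

omit [NumberField.IsTotallyComplex K] in
/-- The lift of one agrees with one over `3E`. -/
lemma tcong_one : TCong D E 1 (liftK D (1 : GN (3 * E))) :=
  tcong_liftK D (a := 1) (by rw [Units.val_one, Matrix.map_one _ (map_zero _) (map_one _)]) (by
    rw [Units.val_one, Matrix.map_one _ (map_zero _) (map_one _),
      Matrix.map_one _ (map_zero _) (map_one _)])

/-- The basic function is the value at the point of the matrix. -/
lemma cl_one (hB : BData D E S Z) (Φ : Pt K S → ℂ) (M : GN (3 * E)) (w : H3) :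
    cl D (one_ne_zero : (1 : EI) ≠ 0) {0} (1 : GN (3 * E)) Φ M w
      = Φ (ptT D E (liftK D M) FinPt.base, fun _ => w) := by
  rw [cl, sumT, Finset.sum_singleton]
  have ha : aD D E (one_ne_zero : (1 : EI) ≠ 0) 0 = 1 := by
    refine Units.ext (Matrix.ext fun i j => ?_)
    fin_cases i <;> fin_cases j <;> simp [aD, piU]
  rw [ha, mul_one, ← ptT_tcong hB (g := liftK D M) (g' := liftK D M * liftK D (1 : GN (3 * E)))]
  intro v hv
  rw [inv_mul_cancel_left]
  simpa using tcong_one (D := D) v hv

/-- The values at `M = 1` of an averaged translate. -/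
lemma cl_at_one {d : EI} {R : Finset EI} (hB : BData D E S Z) (hd : DData D E d R)
    (hI : IsInvariant Φ) (h0 : GN (3 * E)) (z : ℂ) {t : ℝ} (ht : 0 < t) :
    cl D hd.ne_zero R h0 Φ 1 (H3.mk z t)
      = ∑ b ∈ R, cl D (one_ne_zero : (1 : EI) ≠ 0) {0} (1 : GN (3 * E)) Φ h0
          (H3.mk ((z - toC (((3 * E : ℕ) : EI) * b)) / toC d) (t / ‖toC d‖)) := by
  rw [cl_of_tcong hB hd h0 Φ tcong_one, sumT]
  refine Finset.sum_congr rfl fun b _ => ?_
  rw [cl_one hB, ← aC_inv_smul d _ hd.ne_zero z ht, one_mul,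
    ← isInvariant_iff.1 hI (aD D E hd.ne_zero b)
      (ptT D E (liftK D h0) FinPt.base, fun _ =>
        (aC d (((3 * E : ℕ) : EI) * b) hd.ne_zero)⁻¹ • H3.mk z t)]
  congr 1
  refine Prod.ext ?_ (funext fun u => ?_)
  · rw [Pt.smul_fst, smul_ptT]
    refine ptT_congr _ fun v hv => ?_
    rw [FinPt.smul_apply, show (FinPt.base : FinPt K S).1 v =
      ((1 : GL (Fin 2) K) : Vert S v) from rfl,
      MulAction.Quotient.smul_coe, QuotientGroup.eq,
        lev_of_not_mem (fun h => hv (hB.inT h)), smul_eq_mul,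
      inv_one, one_mul, mul_one]
    exact le_withScalars _ (upMat_mem_intGL _ (hd.supp v hv) (D.valuation_le_one v _))
  · rw [Pt.smul_snd, show atInf u (aD D E hd.ne_zero b) =
      aC d (((3 * E : ℕ) : EI) * b) hd.ne_zero from atInf_aK D hd.ne_zero _ u, smul_inv_smul]

variable (hB : BData D E S Z) (h : IsForm S Z lam Φ)
  (hne : ∃ M w, cl D (one_ne_zero : (1 : EI) ≠ 0) {0} (1 : GN (3 * E)) Φ M w ≠ 0)

/-- The classical function of the form at the trivial divisor. -/
noncomputable abbrev baseAuto : Auto D E :=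
  autoOf hB (dData_one (D := D) (E := E)) (1 : GN (3 * E)) h hne

/-- **The first coefficient of the averaged translate** is `|R|` times the coefficient at `d`. -/
theorem mC_translated {d : EI} {R : Finset EI} (hd : DData D E d R) (h0 : GN (3 * E)) :
    mC D (fun z => cl D hd.ne_zero R h0 Φ 1 (H3.mk z ‖fr E (1 : EI)‖⁻¹) * chiC (-(fr E 1 * z)))
      = (R.card : ℂ) * Bn (baseAuto hB h hne) h0 d := by
  set A := baseAuto hB h hne with hA
  have ht : 0 < ‖fr E (1 : EI)‖⁻¹ := inv_pos.2 (norm_fr_pos one_ne_zero)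
  set t := ‖fr E (1 : EI)‖⁻¹ with htd
  set α := fr E (1 : EI) with hα
  have hd0 : toC d ≠ 0 := toC_ne_zero hd.ne_zero
  have hdn : 0 < ‖toC d‖ := norm_pos_iff.2 hd0
  have hfr : fr E d = α * toC d := by rw [hα, ← fr_mul, one_mul]
  have hts : ‖fr E d‖⁻¹ = t / ‖toC d‖ := by rw [hfr, norm_mul, mul_inv, htd, div_eq_mul_inv]
  set nd := (QuadraticAlgebra.norm d).natAbs
  have hnd : (nd : EI) = d * star d := by
    rw [← Int.cast_natCast, Int.natAbs_of_nonneg (norm_nonneg_EI d), ← eq_intCast (algebraMap ℤ EI),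
      QuadraticAlgebra.algebraMap_norm_eq_mul_star]
  have hN0 : 3 * E * nd ≠ 0 := by
    refine mul_ne_zero three_E_ne_zero (Int.natAbs_ne_zero.2 fun e => hd.ne_zero ?_)
    exact toC_injective (by rw [map_zero]; exact norm_eq_zero.1 (by
      nlinarith [norm_toC d, norm_nonneg (toC d), show ((QuadraticAlgebra.norm d : ℤ) : ℝ) = 0 by
        exact_mod_cast e]))
  -- the summands are periodic with mean `Bn A h0 d`
  set g : EI → ℂ → ℂ := fun b z => A.Φ h0
    (H3.mk ((z - toC (((3 * E : ℕ) : EI) * b)) / toC d) (t / ‖toC d‖)) * chiC (-(α * z)) with hg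
  have hgp : ∀ b, PerC (3 * E * nd) (g b) := fun b => by
    refine PerC.mul ⟨((A.cont _).comp (continuous_mk_left (div_pos ht hdn))).comp
      ((continuous_id.sub continuous_const).div_const _), fun z x => ?_⟩
        ((perC_chi E 1).mul_right _)
    change A.Φ _ _ = A.Φ _ _
    refine Eq.trans ?_ ((perC_slice A _ (div_pos ht hdn)).2
      ((z - toC (((3 * E : ℕ) : EI) * b)) / toC d) (star d * x))
    congr 2
    have e : ((nd : ℕ) : ℂ) = toC d * toC (star d) := by rw [← map_natCast toC, hnd, map_mul]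
    rw [Nat.cast_mul, e, map_mul toC (star d)]
    field_simp
    ring
  have hmC : ∀ b, mC D (g b) = Bn A h0 d := fun b => by
    rw [← mC_translate D hN0 (hgp b) (toC (((3 * E : ℕ) : EI) * b)),
      ← mC_comp_mul D hN0 ((hgp b).comp_add _) hd.ne_zero, Bn, eCoef, hts, hCoef]
    congr 1
    funext z
    simp only [hg]
    rw [add_sub_cancel_right, mul_div_cancel_left₀ _ hd0, mul_add, neg_add, chiC_add,
      hfr, mul_assoc,
      show -(α * toC (((3 * E : ℕ) : EI) * b)) = toC (-b) by
        have hN : ((3 * E : ℕ) : ℂ) ≠ 0 := Nat.cast_ne_zero.2 three_E_ne_zero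
        rw [hα, fr, map_one, map_mul, map_natCast, map_neg]; field_simp,
      chiC_toC, mul_one]
  rw [show (fun z => cl D hd.ne_zero R h0 Φ 1 (H3.mk z t) * chiC (-(α * z)))
      = fun z => ∑ b ∈ R, g b z from funext fun z => by
        rw [cl_at_one hB hd h.invariant h0 z ht, Finset.sum_mul]
        rfl,
    mC_sum D hN0 R fun b _ => hgp b, Finset.sum_congr rfl fun b _ => hmC b, Finset.sum_const,
    nsmul_eq_mul]

/-- The statement on the first coefficient for all functions with these eigenvalues. -/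
def FirstVanishes (D : KData K) (E : ℕ) [NeZero E] (lam : Place K → ℝ) : Prop :=
  ∀ A : Auto D E, (∀ π, ∀ hπ : Prime π, A.lam π = lam (piPlace D hπ)) → ∀ M, Bn A M 1 = 0

omit [NumberField.IsTotallyComplex K] in
/-- A prime dividing `9E` gives a place over `3E`. -/
lemma inT_of_dvd {π : EI} (hπ : Prime π) (hd : π ∣ ((3 * (3 * E) : ℕ) : EI)) :
    InT D E (piPlace D hπ) := by
  have h1 : π ∣ ((3 * E : ℕ) : EI) := by
    rw [Nat.cast_mul] at hd
    rcases hπ.dvd_or_dvd hd with h3 | h3
    · rw [Nat.cast_mul]; exact dvd_mul_of_dvd_left h3 _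
    · exact h3
  exact (mem_piPlace D hπ _).2 h1

omit [NumberField.IsTotallyComplex K] in
/-- A prime that is not a unit modulo `9E` divides `9E`. -/
lemma dvd_of_not_unit [IsPrincipalIdealRing EI] {π : EI} (hπ : Prime π)
    (hu : ¬ IsUnit (LT3.red (3 * (3 * E)) π)) : π ∣ ((3 * (3 * E) : ℕ) : EI) := by
  by_contra hn
  obtain ⟨a, b, hab⟩ := hπ.irreducible.coprime_iff_not_dvd.2 hn
  refine hu (IsUnit.of_mul_eq_one (LT3.red (3 * (3 * E)) a) ?_)
  have h0 : LT3.red (3 * (3 * E)) (((3 * (3 * E) : ℕ) : EI)) = 0 := by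
    rw [map_natCast, natCast_ER_self]
  have := congrArg (LT3.red (3 * (3 * E))) hab
  rw [map_add, map_mul, map_mul, h0, mul_zero, add_zero, map_one] at this
  rw [← this]
  exact mul_comm _ _

/-- **All coefficients vanish.** If the first coefficients vanish for all functions with these
eigenvalues, all coefficients at nonzero frequencies of this one vanish. -/
theorem Bn_eq_zero (hH : FirstVanishes D E lam) {η : EI} (hη : η ≠ 0) :
    ∀ M : GN (3 * E), Bn (baseAuto hB h hne) M η = 0 := by
  have := D.pidEI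
  set A := baseAuto hB h hne
  suffices ∀ n : ℕ, ∀ η : EI, (QuadraticAlgebra.norm η).natAbs = n → η ≠ 0 → ∀ M, Bn A M η = 0 from
    this _ η rfl hη
  intro n
  induction n using Nat.strong_induction_on with
  | _ n ih =>
  intro η hn hη M
  by_cases hgood : ∃ π : EI, Prime π ∧ IsUnit (LT3.red (3 * (3 * E)) π) ∧ π ∣ η
  · -- a good prime dividing `η`: the Hecke recursion
    obtain ⟨π, hπ, hu, η', rfl⟩ := hgood
    have hpos : ∀ y : EI, y ≠ 0 → 0 < (QuadraticAlgebra.norm y).natAbs := fun y hy => by
      refine Int.natAbs_pos.2 fun e => hy (toC_injective ?_)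
      have h2 := norm_toC y
      rw [e, Int.cast_zero] at h2
      rw [map_zero]; exact norm_eq_zero.1 (eq_zero_of_pow_eq_zero h2)
    have hlt : ∀ x : EI, x ≠ 0 → (QuadraticAlgebra.norm x).natAbs
        < (QuadraticAlgebra.norm (π * x)).natAbs := fun x hx => by
      rw [map_mul, Int.natAbs_mul]
      refine lt_mul_left (hpos x hx) ?_
      refine lt_of_le_of_ne (hpos π hπ.ne_zero) fun e => hπ.not_isUnit (isUnit_of_norm_one ?_)
      rw [← Int.natAbs_of_nonneg (norm_nonneg_EI π), ← e]; rfl
    have hη' : η' ≠ 0 := right_ne_zero_of_mul hη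
    obtain ⟨T, hT, -⟩ := exists_reps_prime hπ hu
    have hrel := Bn_hecke A hπ hu hT (dgN hu.unit * M) hη'
    have h1 : Bn A (dgN hu.unit * M) η' = 0 := ih _ (hn ▸ hlt η' hη') η' rfl hη' _
    have h2 : (if h : π ∣ η' then Bn A (dgN hu.unit * (dgN hu.unit * M)) h.choose else 0) = 0 := by
      split_ifs with hd
      · have hc : hd.choose ≠ 0 := fun e => hη' (by rw [hd.choose_spec, e, mul_zero])
        refine ih _ ?_ _ rfl hc _
        rw [← hn]
        refine (hlt _ hc).trans ?_
        rw [← hd.choose_spec]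
        exact hlt η' hη'
      · rfl
    rw [h1, mul_zero, h2, add_zero, ← mul_assoc (dgN hu.unit⁻¹), dgN_mul, inv_mul_cancel,
      show (dgN 1 : GN (3 * E)) = 1 from Units.ext (by
        ext i j : 1; fin_cases i <;> fin_cases j <;> simp [dgN]), one_mul, mul_comm η' π] at hrel
    obtain ⟨u0, ⟨hu0, -⟩, -⟩ := hT 0
    exact (mul_eq_zero.1 hrel.symm).resolve_left
      (Nat.cast_ne_zero.2 (Finset.card_ne_zero_of_mem hu0))
  · -- otherwise the translated first coefficient
    push Not at hgood
    obtain ⟨R, hR0, hR⟩ := exists_qreps D hη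
    have hd : DData D E η R := ⟨hη, hR, fun v hv => by
      refine v.valuation_eq_one_iff_notMem.2 fun hmem => ?_
      obtain ⟨π, hπ, hv'⟩ := exists_prime_gen D v
      have hdvd : π ∣ η := (mem_iff_dvd_of_span D hv' η).1 hmem
      have e : v = piPlace D hπ := HeightOneSpectrum.ext hv'
      exact hv (e ▸ inT_of_dvd hπ (dvd_of_not_unit hπ fun hu => hgood π hπ hu hdvd))⟩
    have key := mC_translated hB h hne hd M
    have hz : mC D (fun z => cl D hd.ne_zero R M Φ 1 (H3.mk z ‖fr E (1 : EI)‖⁻¹)
        * chiC (-(fr E 1 * z))) = 0 := by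
      by_cases hne' : ∃ M' w, cl D hd.ne_zero R M Φ M' w ≠ 0
      · exact hH (autoOf hB hd M h hne') (fun π hπ => autoOf_lam hB hd M h hne' hπ) 1
      · push Not at hne'
        simp only [hne', zero_mul, mC]
        exact LT.Mult.mean_zero
    rw [hz] at key
    exact (mul_eq_zero.1 key.symm).resolve_left (Nat.cast_ne_zero.2 hR0.card_pos.ne')

include hB h hne in
/-- **Vanishing first coefficients are impossible.** -/
theorem false_of_first (hH : FirstVanishes D E lam) : False := by
  have := D.pidEI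
  set A := baseAuto hB h hne
  obtain ⟨M, w, hMw⟩ := A.nonzero
  -- the form depends only on `M` modulo `E`
  have hE : ∀ (M M' : GN (3 * E)) (u : H3), M.val.map (castEh E) = M'.val.map (castEh E) →
      A.Φ M u = A.Φ M' u := by
    intro M M' u he
    change cl D (one_ne_zero : (1 : EI) ≠ 0) {0} (1 : GN (3 * E)) Φ M u =
      cl D (one_ne_zero : (1 : EI) ≠ 0) {0} (1 : GN (3 * E)) Φ M' u
    rw [cl_one hB, cl_one hB]
    congr 2
    refine Subtype.ext (funext fun v => ?_)
    by_cases hv : InT D E v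
    · rw [ptT_of_mem hv, ptT_of_mem hv, QuotientGroup.eq]
      refine mem_lev_of_congN le_rfl (inv_mul_mem_congN _ (liftK_mem_intGL D hv M)
        (liftK_mem_intGL D hv M') fun i j => ?_)
      rw [liftK_val, liftK_val, Matrix.map_apply, Matrix.map_apply, ← map_sub]
      obtain ⟨k, hk⟩ := (red_eq_zero_iff E ((liftM M'.val) i j - (liftM M.val) i j)).1 (by
        have e2 : ∀ X : GN (3 * E), LT3.red E ((liftM X.val) i j) = castEh E (X.val i j) :=
            fun X => by
          conv_rhs => rw [← red_liftM X.val]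
          exact (castER_red _ _ _).symm
        rw [map_sub, e2, e2, sub_eq_zero]
        exact (congrFun (congrFun he i) j).symm)
      rw [hk, map_mul, map_mul]
      by_cases hvS : v ∈ S
      · exact (mul_le_of_le_one_right' (D.valuation_le_one v k)).trans (hB.depth v hvS)
      · rw [Lev.notMem_iff.1 hvS, Nat.cast_zero, neg_zero, WithZero.exp_zero]
        exact (mul_le_of_le_one_right' (D.valuation_le_one v k)).trans (D.valuation_le_one v _)
    · rw [ptT_of_not hv, ptT_of_not hv]
  -- all coefficients vanish, hence so does the form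
  have hz : ∀ {t : ℝ}, 0 < t → (fun z => A.Φ M (H3.mk z t)) = 0 := by
    intro t ht
    refine eq_zero_of_coef (E := E) D ⟨(A.cont M).comp (continuous_mk_left ht), fun z x => ?_⟩
      fun η => ?_
    · change A.Φ M _ = A.Φ M _
      rw [← A.translate (sR * ((E : EI) * x)) M z ht]
      refine hE _ _ _ ?_
      rw [Units.val_mul, Matrix.map_mul, nG_val, map_fin_two_of, map_one, map_zero,
        show castEh E (LT3.red (3 * (3 * E)) (sR * ((E : EI) * x))) = 0 by
          rw [map_mul, map_mul, map_mul, map_mul, map_natCast, map_natCast,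
            natCast_ER_self, zero_mul, mul_zero],
        show (!![(1 : ER (ZMod E)), 0; 0, 1] : Matrix _ _ _) = 1 from Matrix.one_fin_two.symm,
        Matrix.one_mul]
    · rcases eq_or_ne η 0 with rfl | hη
      · simpa [fr] using mC_slice_eq_zero A M ht
      · change Bc A M η t = 0
        rw [Bc_rho A M hη ht, show Bc A M η ‖fr E η‖⁻¹ = Bn A M η from rfl,
          Bn_eq_zero hB h hne hH hη M, mul_zero]
  refine hMw ?_
  rw [← H3.mk_coord w]
  exact congrFun (hz (H3.coord_pos w)) _

end Fermat.LTG.W1
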