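import Fermat.Agent.LTG.W1.Weight
import Fermat.Agent.LTG.W1.Vanish
import Fermat.Agent.LTG.W1.Surj
import Fermat.Agent.LTG.W1.Series.Forms
import Fermat.Agent.LTG.W1.Per.Periods
import Fermat.Agent.LT.Sys.Geo

/-!
# Weight one: the form over `ℚ` from the form over `ℚ(√-3)`

`ofKFormStatement` proves `OfKFormStatement` of `LTG/Final`. Its case split: if some
coefficient `kap` of negative index is nonzero, the companion `form2` is the form of weight one; if
none is but some coefficient at `3` is nonzero, the lift `form1` is; otherwise all periods vanish,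
hence all first coefficients, hence the form over `K` itself, which is absurd.
-/

set_option autoImplicit false
set_option linter.unusedSectionVars false
open IsDedekindDomain NumberField Fermat.CFT
open scoped Classical

local notation "Γℚ" => (AlgebraicClosure ℚ ≃ₐ[ℚ] AlgebraicClosure ℚ)
local notation "ℚbar" => AlgebraicClosure ℚ

namespace Fermat.LTG.W1
open Fermat.LT Fermat.LT3

variable {K L : Type} [Field K] [NumberField K] [NumberField.IsTotallyComplex K] [Field L]
  [NumberField L] [Algebra K L] {ρ : Γℚ →* GL (Fin 2) (ZMod 3)}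
  [NumberField (LT.Theta.Gal.nField ρ)] [Normal ℚ (LT.Theta.Gal.nField ρ)]
  {ι : L →+* ℚbar} {σ : L ≃ₐ[K] L} {ZL : Set (Place L)} {lam : Place L → ℝ} {S : Lev K}
  {Z : Set (Place K)} {lamK : Place K → ℝ} {E : ℕ} [NeZero E] {D : KData K}

/-- A natural number divisible by `N(v) ^ n` has valuation at most `exp (-n)` at `v`. -/
lemma valuation_natCast_le_of_dvd (v : Place K) {n E : ℕ} (h : LT.pnorm v ^ n ∣ E) :
    v.valuation K ((E : ℕ) : K) ≤ WithZero.exp (-(n : ℤ)) := by
  have hm : ((LT.pnorm v ^ n : ℕ) : 𝓞 K) ∈ v.asIdeal ^ n := by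
    rw [Nat.cast_pow]; exact Ideal.pow_mem_pow (Ideal.absNorm_mem v.asIdeal) n
  obtain ⟨c, rfl⟩ := h
  have h2 : ((LT.pnorm v ^ n * c : ℕ) : 𝓞 K) ∈ v.asIdeal ^ n := by
    rw [Nat.cast_mul]; exact Ideal.mul_mem_right _ _ hm
  rw [← map_natCast (algebraMap (𝓞 K) K),
    IsDedekindDomain.HeightOneSpectrum.valuation_of_algebraMap]
  exact (HeightOneSpectrum.intValuation_le_pow_iff_mem _ _ _).2 h2

/-- A level `E` for the form over `ℚ`: deep at the level `S`, divisible at the places of `Z`, and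
such that the primes prime to `3E` avoid `S`, `Z`, `ZL`, the ramified and the exceptional primes. -/
theorem exists_level (D : KData K) (hZ : Z.Finite) (hZL : ZL.Finite) (S : Lev K) :
    ∃ (E : ℕ) (_ : NeZero E), BData D E S Z ∧ GoodE K L ρ ZL S Z E := by
  set N := LT.Theta.Gal.nField ρ
  have hR : (ramSet K L).Finite := Sys.finite_ramSet
  -- `E` collects the norms of the bad places of `K` and `L` and the exceptional primes of `ρ`
  set T : Finset (Place K) := S.places ∪ hZ.toFinset ∪ hR.toFinset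
  set E : ℕ := (∏ v ∈ T, pnorm v ^ (S.depth v + 1)) * (∏ w ∈ hZL.toFinset, pnorm w)
    * ∏ q ∈ (exceptionalPrimes N).erase 0, q
  have hE0 : E ≠ 0 := by
    refine mul_ne_zero (mul_ne_zero (Finset.prod_ne_zero_iff.2 fun v _ => pow_ne_zero _ ?_)
      (Finset.prod_ne_zero_iff.2 fun w _ => ?_)) (Finset.prod_ne_zero_iff.2 fun q hq =>
        (Finset.mem_erase.1 hq).1)
    · exact pnorm_ne_zero' v
    · exact pnorm_ne_zero' w
  have : NeZero E := ⟨hE0⟩
  have hT : ∀ v ∈ T, pnorm v ^ (S.depth v + 1) ∣ E := fun v hv =>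
    ((Finset.dvd_prod_of_mem _ hv).mul_right _).mul_right _
  have hTm : ∀ v ∈ T, (E : 𝓞 K) ∈ v.asIdeal := fun v hv =>
    CFT.natCast_mem_of_absNorm_dvd (I := v.asIdeal)
        ((dvd_pow_self _ (Nat.succ_ne_zero _)).trans (hT v hv))
  refine ⟨E, ⟨hE0⟩, ⟨fun v hv => ?_, fun v hv => ?_⟩,
    ⟨fun p hp hco v hv => ?_, fun p hp hco w hw hwZ => ?_, fun p hp hco hex => ?_⟩⟩
  · rw [map_natCast]
    refine valuation_natCast_le_of_dvd v ((pow_dvd_pow _ (Nat.le_succ _)).trans
      (hT v (Finset.mem_union_left _ (Finset.mem_union_left _ (Lev.mem_places.2 hv)))))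
  · change D.e ((3 * E : ℕ) : EI) ∈ v.asIdeal
    rw [map_natCast, Nat.cast_mul]
    exact Ideal.mul_mem_left _ _
      (hTm v (Finset.mem_union_left _ (Finset.mem_union_right _ (hZ.mem_toFinset.2 hv))))
  · have hn : v ∉ T := fun h =>
      natCast_mem_of_coprime (Nat.Coprime.coprime_dvd_right (dvd_mul_left E 3) hco) hv (hTm v h)
    simp only [T, Finset.mem_union, Lev.mem_places, Set.Finite.mem_toFinset, not_or] at hn
    exact ⟨hn.1.1, hn.1.2, hn.2⟩
  · refine natCast_mem_of_coprime (Nat.Coprime.coprime_dvd_right (dvd_mul_left E 3) hco) hw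
      (CFT.natCast_mem_of_absNorm_dvd (I := w.asIdeal) ?_)
    exact ((Finset.dvd_prod_of_mem _ (hZL.mem_toFinset.2 hwZ)).mul_left _).mul_right _
  · have : p ∣ E := (Finset.dvd_prod_of_mem (fun q => q)
      (Finset.mem_erase.2 ⟨hp.ne_zero, hex⟩)).mul_left _
    exact hp.coprime_iff_not_dvd.1 hco (this.mul_left 3)

/-- **Bounds on the eigenvalues**: eigenvalues matched with those of a form lifting to the system of
`ρ` satisfy `|λ| ≤ 2√N(π)` at the primes `π` prime to the level and are `≥ 0` at inert rational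
primes. -/
theorem lamOK_of_matched (hF : FieldData K L ρ ι) (hc : Cyc3 K L σ)
    (hE : IsRhoEigenOff L ρ ι ZL lam) (hl : Lifts S Z lam lamK) (hG : GoodE K L ρ ZL S Z E)
    {A : Auto D E} (hA : Matched A lamK) : LamOK A := by
  have := D.pidEI
  constructor
  -- the bound: `π` lies over a prime `ℓ` prime to `3E`, where the eigenvalue is that of `ρ`
  · intro π hπ hu
    obtain ⟨ℓ, hℓ, hd, hcase⟩ := norm_prime_cases hπ
    have := Fact.mk hℓ
    have hco : Nat.Coprime ℓ (3 * E) := by
      refine hℓ.coprime_iff_not_dvd.2 fun hdv => hπ.not_isUnit ?_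
      have h3 : π ∣ ((3 * (3 * E) : ℕ) : EI) :=
        hd.trans (Nat.cast_dvd_cast (hdv.mul_left 3))
      obtain ⟨c, hcdef⟩ := h3
      have := congrArg (LT3.red (3 * (3 * E))) hcdef
      rw [map_natCast, natCast_ER_self, map_mul] at this
      exact absurd hu fun hu => by
        have hc0 : LT3.red (3 * (3 * E)) c = 0 := (hu.mul_right_eq_zero).1 this.symm
        rw [red_eq_zero_iff] at hc0
        obtain ⟨k, rfl⟩ := hc0
        have hN : ((3 * (3 * E) : ℕ) : EI) ≠ 0 :=
          Nat.cast_ne_zero.2 (mul_ne_zero three_ne_zero three_E_ne_zero)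
        exact hπ.not_isUnit (isUnit_of_dvd_one ⟨k, mul_left_cancel₀ hN (by
          linear_combination hcdef)⟩)
    have hv : (ℓ : 𝓞 K) ∈ (piPlace D hπ).asIdeal := by
      rw [← map_natCast D.e]; exact (mem_piPlace D hπ _).2 hd
    have hb := (lam_over hF hc D hE hl hG hℓ hco hv).1
    rw [← hA π hπ] at hb
    refine hb.trans (le_of_eq ?_)
    have hp3 := ne_three_of_coprime hco
    have hm3 : ℓ % 3 ≠ 0 := fun e =>
      hp3 (((Nat.prime_dvd_prime_iff_eq Nat.prime_three hℓ).1 (Nat.dvd_of_mod_eq_zero e)).symm)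
    rcases hcase with hn | hass
    · have h1 : ℓ % 3 = 1 := by have := norm_mod_three π hn; omega
      rw [hn, fdeg, if_pos h1, pow_one, Int.cast_natCast]
    · obtain ⟨u, hu'⟩ := hass
      have hnu : QuadraticAlgebra.norm (u : EI) = 1 := by
        rcases Int.isUnit_iff.1 (u.isUnit.map (QuadraticAlgebra.norm : EI →* ℤ)) with h | h
        · exact h
        · have := norm_nonneg_EI (u : EI); omega
      have hnπ : QuadraticAlgebra.norm π = (ℓ : ℤ) ^ 2 := by
        rw [← norm_natCast_EI, ← hu', map_mul, hnu, mul_one]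
      have h1 : ℓ % 3 ≠ 1 := fun h => by
        obtain ⟨ϖ, hϖ⟩ := exists_norm_eq_of_one_mod (p := ℓ) h
        rcases hπ.dvd_or_dvd (show π ∣ ϖ * star ϖ by rw [mul_star_of_norm hϖ]; exact hd) with
          h' | h'
        all_goals
          have h2 := map_dvd (QuadraticAlgebra.norm : EI →* ℤ) h'
          try rw [QuadraticAlgebra.norm_star] at h2
          rw [hnπ, hϖ, ← Nat.cast_pow, Int.natCast_dvd_natCast] at h2
          have h3 := Nat.le_of_dvd hℓ.pos h2
          nlinarith [hℓ.two_le]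
      rw [hnπ, fdeg, if_neg h1, Int.cast_pow, Int.cast_natCast, Nat.cast_pow]
  -- the sign at an inert prime
  · intro p hp hco hno
    have := Fact.mk hp
    have hπ := prime_inert hp hno
    have hv : (p : 𝓞 K) ∈ (piPlace D hπ).asIdeal := by
      rw [← map_natCast D.e]; exact (mem_piPlace D hπ _).2 dvd_rfl
    rw [hA _ hπ]
    exact (lam_over hF hc D hE hl hG hp hco hv).2 fun h => hno (exists_norm_eq_of_one_mod h)

/-- **The weight one form from a nonzero family of coefficients**: a cusp form whose coefficients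
are those of a lift or companion of a matched `A`, one of them nonzero, witnesses `WeightOneG`. -/
theorem weightOneG_of_coef (hρ : GenRho ρ) (hF : FieldData K L ρ ι) (hc : Cyc3 K L σ)
    (hE : IsRhoEigenOff L ρ ι ZL lam) (hl : Lifts S Z lam lamK) (hG : GoodE K L ρ ZL S Z E)
    {A : Auto D E} (hA : Matched A lamK) {W : Fam E} (hW : IsHFam W)
    (f : CuspForm (CongruenceSubgroup.Gamma1 (lvN E)) 1) (c : ℕ → ℂ)
    (hf : ∀ m, ModularFormClass.qCoeff f m = c m) {m0 : ℕ} (h0 : c m0 ≠ 0)
    (hk : c = c1 A W ∨ c = c2 A W) : WeightOneG ρ := by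
  have := D.pidEI
  refine ⟨lvN E, instNeZeroLvN, f, fun e => h0 ?_, fun p hp h1 B hB φ hφ h8 n => ?_⟩
  · rw [← hf, e]
    simp [ModularFormClass.qCoeff, UpperHalfPlane.qExpansion_zero]
  have := Fact.mk hp
  -- `p ≡ 1` modulo three times the level: prime to `3E` and split in `ℤ[ω]`
  have hu : IsUnit (p : ZMod (3 * lvN E)) := by rw [h1]; exact isUnit_one
  have hco : Nat.Coprime p (3 * E) := Nat.Coprime.coprime_dvd_right
    (((dvd_mul_left (3 * E) 3).trans (dvd_mul_left _ 3)).trans ((dvd_mul_right _ _).mul_left 3))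
    ((ZMod.isUnit_iff_coprime _ _).1 hu)
  have h9 : IsUnit (p : ZMod (3 * (3 * E))) := (ZMod.isUnit_iff_coprime _ _).2
    (Nat.Coprime.coprime_dvd_right ((dvd_mul_left (3 * (3 * E)) 3).trans
      ((dvd_mul_right _ _).mul_left 3)) ((ZMod.isUnit_iff_coprime _ _).1 hu))
  have hp1 : p % 3 = 1 := by
    have h := congrArg (ZMod.castHom (dvd_mul_right 3 (lvN E)) (ZMod 3)) h1
    rw [map_natCast, map_one] at h
    have := congrArg ZMod.val h
    rwa [ZMod.val_natCast] at this
  obtain ⟨π, hπn⟩ := exists_norm_eq_of_one_mod (p := p) hp1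
  have hπ := prime_of_norm_prime hπn (ne_three_of_coprime hco)
  -- the Hecke relation at a prime over `p`, whose eigenvalue is the trace of the lift
  have he := (eigen_split hρ hF hc hE hl hG hA hp hco hπn hB hφ).1 h8
  obtain ⟨e1, e2⟩ := c_hecke A hW hπ hπn hp h9 n
  simp only [hf]
  rcases hk with rfl | rfl
  · rw [e1, he]; push_cast; rfl
  · rw [e2, he]; push_cast; rfl

end Fermat.LTG.W1

namespace Fermat.LTG
open Fermat.LT Fermat.LT3 Fermat.LTG.W1

/-- **The form over `ℚ`**: a form over `K` whose eigenvalues lift to those of `ρ` on `L` yields a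
weight one form for `ρ`. -/
theorem ofKFormStatement (K L : Type) [Field K] [NumberField K] [Field L] [NumberField L]
    [Algebra K L] [NumberField.IsTotallyComplex K] (ρ : Γℚ →* GL (Fin 2) (ZMod 3)) (ι : L →+* ℚbar)
    (σ : L ≃ₐ[K] L) (ZL : Set (Place L)) (lam : Place L → ℝ) (S : Lev K) (Z : Set (Place K))
    (lamK : Place K → ℝ) (Φ : Pt K S → ℂ) (h : KForm ρ ι σ ZL lam S Z lamK Φ) : WeightOneG ρ := by
  have : FiniteDimensional ℚ (Theta.Gal.nField ρ) := Theta.Gal.finite_nField h.gen.continuous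
  have : IsGalois ℚ (Theta.Gal.nField ρ) := Theta.Gal.isGalois_nField h.gen.continuous
  have : NumberField (Theta.Gal.nField ρ) := @NumberField.mk _ _ inferInstance inferInstance
  -- coordinates on `K = ℚ(√-3)` and the level
  obtain ⟨ζ, hζ⟩ := h.zeta
  obtain ⟨D⟩ := exists_kData K h.rank hζ
  have := D.pidEI
  obtain ⟨E, hE0, hB, hG⟩ := exists_level (L := L) (ρ := ρ) D h.finiteZ h.finiteZL S
  have hne := cl_one_ne_zero hB h.form
  have mk := @weightOneG_of_coef K L _ _ _ _ _ _ ρ _ _ ι σ ZL lam S Z lamK E hE0 D h.gen h.field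
    h.cyc h.eigen h.lifts hG
  -- first case: a coefficient of negative index, giving the companion
  by_cases hneg : ∃ (A : Auto D E) (Ψ : Lz → ℂ) (n : ℤ), Matched A lamK ∧ LT3.Per (3 * E) Ψ ∧
      n < 0 ∧ kap A (tw Ψ) n ≠ 0
  · obtain ⟨A, Ψ, n, hA, hΨ, hn, hk⟩ := hneg
    have hW := isHFam_tw (E := E) hΨ
    refine mk hA hW (form2 A hW.toIsFam) (c2 A (tw Ψ)) (qCoeff_form2 A hW.toIsFam)
      (m0 := 3 * n.natAbs) ?_ (Or.inr rfl)
    rw [c2, if_pos (dvd_mul_right 3 _), Nat.mul_div_cancel_left _ three_pos,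
      show (-((n.natAbs : ℕ) : ℤ)) = n by omega]
    refine mul_ne_zero (fun e => hk ((map_eq_zero _).1 e)) (div_ne_zero Complex.I_ne_zero
      (mul_ne_zero (by norm_num) (Complex.ofReal_ne_zero.2 (Real.sqrt_pos.2 ?_).ne')))
    have : (0 : ℝ) < (n.natAbs : ℝ) := Nat.cast_pos.2 (by omega)
    positivity
  -- second case: a coefficient at `3`, giving the lift
  by_cases h3 : ∃ (A : Auto D E) (Ψ : Lz → ℂ), Matched A lamK ∧ LT3.Per (3 * E) Ψ ∧
      kap A (tw Ψ) 3 ≠ 0
  · obtain ⟨A, Ψ, hA, hΨ, hk⟩ := h3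
    have hW := isHFam_tw (E := E) hΨ
    have hh : ∀ n : ℤ, n < 0 → kap A (tw Ψ) n = 0 := fun n hn => by
      by_contra hkn
      exact hneg ⟨A, Ψ, n, hA, hΨ, hn, hkn⟩
    refine mk hA hW (form1 A hW.toIsFam hh) (c1 A (tw Ψ)) (qCoeff_form1 A hW.toIsFam hh)
      (m0 := 9) ?_ (Or.inl rfl)
    rw [c1, if_pos (by norm_num)]
    exact div_ne_zero (by exact_mod_cast hk) two_ne_zero
  -- otherwise: the periods vanish, so every first coefficient does, against the form being nonzero
  exfalso
  refine false_of_first hB h.form hne fun A hA M => ?_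
  have hAm : Matched A lamK := hA
  have hok := lamOK_of_matched h.field h.cyc h.eigen h.lifts hG hAm
  by_contra hβ
  refine hβ (Bn_one_eq_zero A M hok (fun C => abW_div h.gen h.field h.cyc h.eigen h.lifts hG hAm hok
    M hβ C) fun N s hs => ?_)
  refine PS_eq_zero A (fun Ψ hΨ => ?_) N (decay_qS (by linarith)) (isEven_qS s)
  by_contra hk
  exact h3 ⟨A, Ψ, hAm, hΨ, hk⟩

end Fermat.LTG
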