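import Fermat.Agent.LTG.W1.Bessel
import Fermat.Agent.LTG.W1.Density

/-!
# Weight one: the products of conjugate eigenvalues diverge

With `a`, `b` the normalised eigenvalues over `p`, `a b + a² + b²` dominates a function of density
`3/2`, while the squares have density at most `1`.
-/

set_option autoImplicit false
open NumberField Fermat.CFT Filter
open scoped Classical Topology

local notation "Γℚ" => (AlgebraicClosure ℚ ≃ₐ[ℚ] AlgebraicClosure ℚ)
local notation "ℚbar" => AlgebraicClosure ℚ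

namespace Fermat.LTG.W1
open Fermat.LT Fermat.LT3

/-- The quaternion subgroup is normal. -/
lemma inQ8_conj {x : GL (Fin 2) (ZMod 3)} (g : GL (Fin 2) (ZMod 3)) :
    InQ8 (g * x * g⁻¹) ↔ InQ8 x := by
  rw [← Fermat.RM.mem_q8Sub, ← Fermat.RM.mem_q8Sub]
  constructor
  · intro h
    have := (inferInstance : Fermat.RM.q8Sub.Normal).conj_mem _ h g⁻¹
    simpa [mul_assoc] using this
  · exact fun h => (inferInstance : Fermat.RM.q8Sub.Normal).conj_mem _ h g

/-- The real roots of `a³ - 3a = 2`. -/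
lemma roots_of_cubic_two {a : ℝ} (h : a ^ 3 - 3 * a = 2) : a = 2 ∨ a = -1 := by
  have : (a - 2) * ((a + 1) * (a + 1)) = 0 := by linear_combination h
  rcases mul_eq_zero.1 this with h | h
  · exact Or.inl (sub_eq_zero.1 h)
  · exact Or.inr (eq_neg_of_add_eq_zero_left (mul_self_eq_zero.1 h))

/-- The real roots of `a³ - 3a = -2`. -/
lemma roots_of_cubic_neg_two {a : ℝ} (h : a ^ 3 - 3 * a = -2) : a = -2 ∨ a = 1 := by
  have : (a + 2) * ((a - 1) * (a - 1)) = 0 := by linear_combination h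
  rcases mul_eq_zero.1 this with h | h
  · exact Or.inl (eq_neg_of_add_eq_zero_left h)
  · exact Or.inr (sub_eq_zero.1 (mul_self_eq_zero.1 h))

/-- **The pointwise inequality.** For values `a`, `b` compatible with the lift at `x` and `c` with
`6 c ≤ h6Bd x`, one has `3/2 c ≤ a b + a² + b²`. -/
theorem le_quad_form {a b : ℝ} {x : GL (Fin 2) (ZMod 3)} {c : ℕ} (hc : 6 * c ≤ h6Bd x)
    (ha8 : InQ8 x → a = liftTr x) (hb8 : InQ8 x → b = liftTr x)
    (ha : ¬ InQ8 x → a ^ 3 - 3 * a = liftTr (x ^ 3))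
    (hb : ¬ InQ8 x → b ^ 3 - 3 * b = liftTr (x ^ 3)) :
    3 / 2 * (c : ℝ) ≤ a * b + (a ^ 2 + b ^ 2) := by
  have h0 : 0 ≤ a * b + (a ^ 2 + b ^ 2) := by
    nlinarith [sq_nonneg (a + b), sq_nonneg a, sq_nonneg b]
  rw [h6Bd] at hc
  split_ifs at hc with hd hpm h8
  · have hcR : (c : ℝ) ≤ 8 := by exact_mod_cast (show c ≤ 8 by omega)
    have h8 : InQ8 x := ⟨hd, Or.inr hpm⟩
    rcases hpm with e | e
    · have h2 : (liftTr x : ℝ) = 2 := by rw [liftTr, if_pos e]; norm_num
      rw [ha8 h8, hb8 h8, h2]; norm_num; linarith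
    · have hne : (x : Matrix (Fin 2) (Fin 2) (ZMod 3)) ≠ 1 := by rw [e]; decide
      have h2 : (liftTr x : ℝ) = -2 := by rw [liftTr, if_neg hne, if_pos e]; norm_num
      rw [ha8 h8, hb8 h8, h2]; norm_num; linarith
  · have : c = 0 := by omega
    rw [this, Nat.cast_zero, mul_zero]; exact h0
  · have hcR : (c : ℝ) ≤ 2 := by exact_mod_cast (show c ≤ 2 by omega)
    have key : 3 ≤ a * b + (a ^ 2 + b ^ 2) := by
      rcases cube_eq hd h8 with e | e
      · have h2 : (liftTr (x ^ 3) : ℝ) = 2 := by rw [liftTr, if_pos e]; norm_num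
        have ha := ha h8
        have hb := hb h8
        rw [h2] at ha hb
        rcases roots_of_cubic_two ha with rfl | rfl <;>
          rcases roots_of_cubic_two hb with rfl | rfl <;> norm_num
      · have hne : ((x ^ 3 : GL (Fin 2) (ZMod 3)) : Matrix (Fin 2) (Fin 2) (ZMod 3)) ≠ 1 := by
          rw [e]; decide
        have h2 : (liftTr (x ^ 3) : ℝ) = -2 := by rw [liftTr, if_neg hne, if_pos e]; norm_num
        have ha := ha h8
        have hb := hb h8
        rw [h2] at ha hb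
        rcases roots_of_cubic_neg_two ha with rfl | rfl <;>
          rcases roots_of_cubic_neg_two hb with rfl | rfl <;> norm_num
    linarith
  · have : c = 0 := by omega
    rw [this, Nat.cast_zero, mul_zero]; exact h0

variable {K L : Type} [Field K] [NumberField K] [NumberField.IsTotallyComplex K] [Field L]
  [NumberField L] [Algebra K L] {ρ : Γℚ →* GL (Fin 2) (ZMod 3)}
  [NumberField (LT.Theta.Gal.nField ρ)] [Normal ℚ (LT.Theta.Gal.nField ρ)]
  {ι : L →+* ℚbar} {σ : L ≃ₐ[K] L} {ZL : Set (Place L)} {lam : Place L → ℝ} {S : Lev K}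
  {Z : Set (Place K)} {lamK : Place K → ℝ} {E : ℕ} [NeZero E] {D : KData K}

/-- The eigenvalues of `A` are those of the form. -/
def Matched (A : Auto D E) (lamK : Place K → ℝ) : Prop :=
  ∀ π : EI, ∀ hπ : Prime π, A.lam π = lamK (piPlace D hπ)

/-- **The eigenvalue at a prime of norm `p` through any Frobenius at `p`.** -/
theorem eigen_split (hρ : GenRho ρ) (hF : FieldData K L ρ ι) (hc : Cyc3 K L σ)
    (hE : IsRhoEigenOff L ρ ι ZL lam) (hl : Lifts S Z lam lamK) (hG : GoodE K L ρ ZL S Z E)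
    {A : Auto D E} (hA : Matched A lamK) {p : ℕ} (hp : p.Prime) (hco : Nat.Coprime p (3 * E))
    {π : EI} (hn : QuadraticAlgebra.norm π = (p : ℤ)) {B0 : ValuationSubring ℚbar}
    (hB0 : B0.LiesOverPrime p) {φ : Γℚ} (hφ : B0.IsFrobeniusAt φ p) :
    (InQ8 (ρ φ) → A.lam π / Real.sqrt p = liftTr (ρ φ)) ∧
      (¬ InQ8 (ρ φ) → (A.lam π / Real.sqrt p) ^ 3 - 3 * (A.lam π / Real.sqrt p)
        = liftTr (ρ φ ^ 3)) := by
  have := Fact.mk hp
  have := D.pidEI
  have hp3 := ne_three_of_coprime hco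
  have hπ := prime_of_norm_prime hn hp3
  have hv : (p : 𝓞 K) ∈ (piPlace D hπ).asIdeal := by
    rw [← map_natCast D.e]
    exact (mem_piPlace D hπ _).2 ⟨star π, (mul_star_of_norm hn).symm⟩
  obtain ⟨B, w, ψ, hB, hw, hpw, hwv, hψ⟩ := exists_frob_over (L := L) ι (piPlace D hπ) hp hv
  obtain ⟨g, hg⟩ := frob_conj hρ hp (hG.exc p hp hco) hB0 hB hφ hψ
  have h1 : p % 3 = 1 := by
    have h2 := norm_mod_three π hn
    have h0 : p % 3 ≠ 0 := fun e =>
      hp3 (((Nat.prime_dvd_prime_iff_eq Nat.prime_three hp).1 (Nat.dvd_of_mod_eq_zero e)).symm)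
    omega
  obtain ⟨e8, e3⟩ := eigen_below hF hc D hE hl hG hp hco hB hw hpw hψ
  rw [show fdeg p = 1 from if_pos h1, pow_one, pow_one, hwv, hg, inQ8_conj] at e8 e3
  rw [LT.Theta.Gal.liftTr_conj, ← hA π hπ] at e8
  rw [← hA π hπ, show (g * ρ φ * g⁻¹) ^ 3 = g * ρ φ ^ 3 * g⁻¹ from conj_pow,
    LT.Theta.Gal.liftTr_conj] at e3
  have hs : (0 : ℝ) < Real.sqrt p := Real.sqrt_pos.2 (Nat.cast_pos.2 hp.pos)
  have hs2 : (p : ℝ) = Real.sqrt p ^ 2 := (Real.sq_sqrt (Nat.cast_nonneg p)).symm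
  refine ⟨fun h => by rw [e8 h]; field_simp, fun h => ?_⟩
  have e := e3 h
  rw [show Real.sqrt ((p : ℝ) ^ 3) = Real.sqrt p ^ 3 by
    conv_lhs => rw [hs2, ← pow_mul, show 2 * 3 = 3 * 2 from rfl, pow_mul]
    exact Real.sqrt_sq (by positivity)] at e
  conv_lhs at e => rw [hs2]
  field_simp
  linear_combination e

/-- The sum of squares at `p`. -/
noncomputable def sqP (A : Auto D E) (p : ℕ) : ℝ :=
  if h : ∃ π : EI, QuadraticAlgebra.norm π = (p : ℤ) then
    (A.lam h.choose / Real.sqrt p) ^ 2 + (A.lam (star h.choose) / Real.sqrt p) ^ 2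
  else 0

/-- Three halves of the count `cnt6` off the level, for the comparison. -/
noncomputable def wtG (hρ : GenRho ρ) (E : ℕ) (p : ℕ) : ℝ :=
  if Nat.Coprime p (3 * E) then 3 / 2 * (cnt6 hρ p : ℝ) else 0

/-- **Domination.** At every prime the comparison function `wtG` is at most the product plus the
squares of the two normalised eigenvalues. -/
theorem wtG_le (hρ : GenRho ρ) (hF : FieldData K L ρ ι) (hc : Cyc3 K L σ)
    (hE : IsRhoEigenOff L ρ ι ZL lam) (hl : Lifts S Z lam lamK) (hG : GoodE K L ρ ZL S Z E)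
    {A : Auto D E} (hA : Matched A lamK) {p : ℕ} (hp : p.Prime) :
    wtG hρ E p ≤ (if Nat.Coprime p (3 * E) then abP A p else 0)
      + (if Nat.Coprime p (3 * E) then sqP A p else 0) := by
  have := Fact.mk hp
  have := D.pidEI
  rw [wtG]
  split_ifs with hco
  swap
  · simp
  have hp3 := ne_three_of_coprime hco
  obtain ⟨B0, hB0⟩ := CFT.exists_place hp
  obtain ⟨φ, hφ⟩ := exists_isFrobeniusAt hp hB0
  have hc6 := six_mul_cnt6_le hρ hp (hG.exc p hp hco) hB0 hφ
  rw [abP, sqP]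
  by_cases h : ∃ π : EI, QuadraticAlgebra.norm π = (p : ℤ)
  · rw [dif_pos h, dif_pos h]
    have h' : QuadraticAlgebra.norm (star h.choose) = (p : ℤ) := by
      rw [QuadraticAlgebra.norm_star, h.choose_spec]
    obtain ⟨a8, a3⟩ := eigen_split hρ hF hc hE hl hG hA hp hco h.choose_spec hB0 hφ
    obtain ⟨b8, b3⟩ := eigen_split hρ hF hc hE hl hG hA hp hco h' hB0 hφ
    exact le_quad_form hc6 a8 b8 a3 b3
  · have hdet : Matrix.GeneralLinearGroup.det (ρ φ) ≠ 1 := fun e =>
      h (exists_norm_eq_of_one_mod ((det_frob_iff hF D hp hp3 hB0 hφ).1 e))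
    rw [h6Bd, if_neg (show ¬ ((ρ φ : Matrix (Fin 2) (Fin 2) (ZMod 3))).det = 1 from fun e =>
      hdet (Units.ext e))] at hc6
    rw [dif_neg h, dif_neg h, show cnt6 hρ p = 0 by omega]
    simp

/-- The comparison function has density `3/2`. -/
theorem isLogAsymp_wtG (hρ : GenRho ρ) :
    IsLogAsymp (fun p : Nat.Primes => wtG hρ E p) (3 / 2) := by
  set F := IntermediateField.fixedField (hN hρ)
  have h := (isLogAsymp_idealCount F).const_mul (3 / 2)
  rw [mul_one] at h
  refine h.congr_finite (M := 3 / 2 * Module.finrank ℚ F) (fun p => ?_) ?_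
  · rw [wtG]
    split_ifs
    · rw [abs_mul, Nat.abs_cast, abs_of_nonneg (by norm_num : (0 : ℝ) ≤ 3 / 2)]
      exact mul_le_mul_of_nonneg_left (Nat.cast_le.2 (idealCount_prime_le F p.2)) (by norm_num)
    · rw [abs_zero]; positivity
  · refine Set.Finite.of_finite_image ((3 * E).divisors.finite_toSet.subset ?_)
      (Nat.Primes.coe_nat_injective.injOn)
    rintro _ ⟨p, hp, rfl⟩
    refine Nat.mem_divisors.2 ⟨?_, mul_ne_zero three_ne_zero (NeZero.ne E)⟩
    by_contra hnd
    exact hp (by rw [wtG, if_pos (p.2.coprime_iff_not_dvd.2 hnd)]; rfl)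

/-- The sum of squares is nonnegative. -/
lemma sqP_nonneg (A : Auto D E) (p : ℕ) : 0 ≤ sqP A p := by
  rw [sqP]; split_ifs <;> positivity

/-- **The squares from above.** With a nonzero first coefficient the sums over primes of the squares
against `p ^ (-s)` are at most `- log (s - 1) + O(1)`. -/
theorem sum_sqP_le [IsPrincipalIdealRing EI] {A : Auto D E} (hA : LamOK A) (M : GN (3 * E))
    (hβ : Bn A M 1 ≠ 0) : ∃ B : ℝ, ∀ s : ℝ, 1 < s → s ≤ 3 / 2 → ∀ T : Finset Nat.Primes,
      ∑ p ∈ T, (if Nat.Coprime p (3 * E) then sqP A p else 0) * ((p : ℝ) ^ s)⁻¹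
        ≤ -Real.log (s - 1) + B := by
  obtain ⟨B, hB⟩ := exists_log_bound A M hβ hA.bound
  refine ⟨B + 32 * ∑' p : Nat.Primes, (((p : ℕ) : ℝ) ^ 2)⁻¹, fun s hs hs' T => ?_⟩
  set good : Nat.Primes → Prop := fun p =>
    Nat.Coprime p (3 * E) ∧ ∃ π : EI, QuadraticAlgebra.norm π = ((p : ℕ) : ℤ)
  -- the two primes over each split `p` are pairwise non-associated
  set f : Nat.Primes × Bool → EI := fun x =>
    if h : ∃ π : EI, QuadraticAlgebra.norm π = ((x.1 : ℕ) : ℤ) then
      (if x.2 then star h.choose else h.choose) else 1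
  set P : Finset (Nat.Primes × Bool) := (T.filter good) ×ˢ Finset.univ
  have hmem : ∀ x ∈ P, good x.1 := fun x hx =>
    (Finset.mem_filter.1 (Finset.mem_product.1 hx).1).2
  have hnorm : ∀ x ∈ P, QuadraticAlgebra.norm (f x) = ((x.1 : ℕ) : ℤ) := fun x hx => by
    obtain ⟨-, h⟩ := hmem x hx
    simp only [f, dif_pos h]
    split_ifs
    · rw [QuadraticAlgebra.norm_star]; exact h.choose_spec
    · exact h.choose_spec
  have hprime : ∀ x ∈ P, Prime (f x) := fun x hx => by
    have := Fact.mk x.1.2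
    exact prime_of_norm_prime (hnorm x hx) (ne_three_of_coprime (hmem x hx).1)
  have hunit : ∀ x ∈ P, IsUnit (LT3.red (3 * (3 * E)) (f x)) := fun x hx => by
    have := Fact.mk x.1.2
    have hu := isUnit_red_nat (E := E) (hmem x hx).1
    rw [← mul_star_of_norm (hnorm x hx), map_mul] at hu
    exact (IsUnit.mul_iff.1 hu).1
  have hdist : ∀ x ∈ P, ∀ y ∈ P, f x ∣ f y → x = y := fun x hx y hy hd => by
    have hN : ((x.1 : ℕ) : ℤ) ∣ ((y.1 : ℕ) : ℤ) := by
      rw [← hnorm x hx, ← hnorm y hy]; exact map_dvd _ hd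
    have h1 : x.1 = y.1 :=
      Subtype.ext ((Nat.prime_dvd_prime_iff_eq x.1.2 y.1.2).1 (Int.natCast_dvd_natCast.1 hN))
    have := Fact.mk x.1.2
    obtain ⟨hco, h⟩ := hmem x hx
    have hp3 := ne_three_of_coprime hco
    have hns : ∀ π : EI, QuadraticAlgebra.norm π = ((x.1 : ℕ) : ℤ) → ¬ π ∣ star π := fun π hn =>
      not_dvd_star hn hp3
    obtain ⟨p, b⟩ := x
    obtain ⟨q, b'⟩ := y
    obtain rfl : p = q := h1
    simp only [f, dif_pos h] at hd
    rcases b <;> rcases b' <;> simp at hd ⊢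
    · exact hns _ h.choose_spec hd
    · have := hns (star h.choose) (by rw [QuadraticAlgebra.norm_star]; exact h.choose_spec)
      rw [star_star] at this
      exact this hd
  have key := hB s hs hs' _ P f hprime hunit hdist
  have hL : ∑ p ∈ T, (if Nat.Coprime p (3 * E) then sqP A p else 0) * ((p : ℝ) ^ s)⁻¹
      = ∑ x ∈ P, (A.lam (f x) ^ 2 / ((QuadraticAlgebra.norm (f x) : ℤ) : ℝ))
          * (((QuadraticAlgebra.norm (f x) : ℤ) : ℝ) ^ s)⁻¹ := by
    rw [Finset.sum_product, Finset.sum_filter]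
    refine Finset.sum_congr rfl fun p hp => ?_
    by_cases hg : good p
    · obtain ⟨hco, h⟩ := hg
      have hx : ∀ b : Bool, (p, b) ∈ P := fun b => Finset.mem_product.2
        ⟨Finset.mem_filter.2 ⟨hp, hco, h⟩, Finset.mem_univ _⟩
      rw [if_pos (show good p from ⟨hco, h⟩), if_pos hco, Fintype.sum_bool, hnorm _ (hx true),
        hnorm _ (hx false), sqP, dif_pos h, div_pow, div_pow, Real.sq_sqrt (Nat.cast_nonneg _)]
      simp only [f, dif_pos h, if_true, Bool.false_eq_true, if_false, Int.cast_natCast]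
      ring
    · rw [if_neg hg]
      split_ifs with hco
      · rw [sqP, dif_neg fun h => hg ⟨hco, h⟩, zero_mul]
      · rw [zero_mul]
  have hR : ∑ x ∈ P, ((((QuadraticAlgebra.norm (f x) : ℤ) : ℝ)) ^ 2)⁻¹
      ≤ 2 * ∑' p : Nat.Primes, (((p : ℕ) : ℝ) ^ 2)⁻¹ := by
    rw [Finset.sum_congr rfl fun x hx => by rw [hnorm x hx, Int.cast_natCast], Finset.sum_product]
    have hsum : Summable fun p : Nat.Primes => (((p : ℕ) : ℝ) ^ 2)⁻¹ :=
      (Real.summable_nat_pow_inv.2 one_lt_two).comp_injective Nat.Primes.coe_nat_injective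
    refine le_trans ?_ (mul_le_mul_of_nonneg_left (hsum.sum_le_tsum (T.filter good) fun p _ => by
      positivity) (by norm_num))
    rw [Finset.mul_sum]
    refine Finset.sum_le_sum fun p _ => le_of_eq ?_
    simp [two_mul]
  rw [hL]
  linarith

/-- **The products diverge.** With a nonzero first coefficient the sums of `abW` over primes are
unbounded as `s → 1`. -/
theorem abW_div [IsPrincipalIdealRing EI] (hρ : GenRho ρ) (hF : FieldData K L ρ ι) (hc : Cyc3 K L σ)
    (hE : IsRhoEigenOff L ρ ι ZL lam) (hl : Lifts S Z lam lamK) (hG : GoodE K L ρ ZL S Z E)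
    {A : Auto D E} (hA : Matched A lamK) (hok : LamOK A) (M : GN (3 * E)) (hβ : Bn A M 1 ≠ 0)
    (C : ℝ) : ∃ᶠ s : ℝ in 𝓝[>] 1, C ≤ ∑' p : Nat.Primes, abW A s p := by
  obtain ⟨B, hB⟩ := sum_sqP_le hok M hβ
  obtain ⟨B', hB'⟩ := (isLogAsymp_wtG (E := E) hρ).isBigO.bound
  obtain ⟨MW, hMW⟩ := (isLogAsymp_wtG (E := E) hρ).bdd
  have hlim : Tendsto (fun s : ℝ => Real.log (s - 1)) (𝓝[>] 1) atBot := by
    refine Real.tendsto_log_nhdsGT_zero.comp
      (tendsto_nhdsWithin_of_tendsto_nhds_of_eventually_within _ ?_ ?_)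
    · simpa using ((continuous_sub_right (1 : ℝ)).tendsto 1).mono_left nhdsWithin_le_nhds
    · filter_upwards [self_mem_nhdsWithin] with s hs using sub_pos.mpr (Set.mem_Ioi.mp hs)
  refine Filter.Eventually.frequently ?_
  filter_upwards [hB', hlim.eventually (eventually_le_atBot (-2 * (C + |B| + |B'|))),
    Ioo_mem_nhdsGT (show (1 : ℝ) < 3 / 2 by norm_num)] with s h1 h2 hs
  simp only [NormOneClass.norm_one, mul_one, Real.norm_eq_abs] at h1
  set v : Nat.Primes → ℝ := fun p =>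
    (if Nat.Coprime p (3 * E) then sqP A p else 0) * ((p : ℝ) ^ s)⁻¹ with hv
  have hv0 : ∀ p, 0 ≤ v p := fun p => mul_nonneg (by split_ifs <;> [exact sqP_nonneg A p; rfl])
    (by positivity)
  have hvs : Summable v := summable_of_sum_le hv0 (hB s hs.1 hs.2.le)
  have hvt : ∑' p, v p ≤ -Real.log (s - 1) + B :=
    Real.tsum_le_of_sum_le hv0 (hB s hs.1 hs.2.le)
  have hws := summable_primeSum hMW hs.1
  have has := summable_abW A hok hs.1
  have hle : primeSum (fun p : Nat.Primes => wtG hρ E p) s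
      ≤ ∑' p : Nat.Primes, (abW A s p + v p) := by
    refine hws.tsum_le_tsum (fun p => ?_) (has.add hvs)
    rw [abW, hv, ← add_mul, Real.rpow_neg (Nat.cast_nonneg _)]
    exact mul_le_mul_of_nonneg_right (wtG_le hρ hF hc hE hl hG hA p.2) (by positivity)
  rw [has.tsum_add hvs] at hle
  have h3 := neg_le_of_abs_le h1
  linarith [le_abs_self B, le_abs_self B']

end Fermat.LTG.W1
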